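import Mathlib.AlgebraicGeometry.Sites.Representability

/-!
# Representability of a functor on `S`-schemes by gluing open charts

`OverFunctor S` is a contravariant family of sets `obj t` for `t : T ⟶ S`.  If it has Zariski
gluing and is covered by open charts, each represented by an `S`-scheme, then it has a universal
element over some `S`-scheme `J`; the charts become jointly surjective open immersions into `J`.
-/

set_option autoImplicit false

noncomputable section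

universe u

open CategoryTheory CategoryTheory.Limits AlgebraicGeometry Opposite

namespace Fermat.Agent.Jacobian

variable {S : Scheme.{u}}

/-- A contravariant functor on schemes over `S`, in unbundled form. -/
structure OverFunctor (S : Scheme.{u}) where
  obj : ∀ {T : Scheme.{u}}, (T ⟶ S) → Type u
  map : ∀ {T T' : Scheme.{u}} {t : T ⟶ S} {t' : T' ⟶ S} (f : T' ⟶ T), f ≫ t = t' → obj t → obj t'
  map_id : ∀ {T : Scheme.{u}} {t : T ⟶ S} (h : 𝟙 T ≫ t = t) (a : obj t), map (𝟙 T) h a = a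
  map_comp : ∀ {T T' T'' : Scheme.{u}} {t : T ⟶ S} {t' : T' ⟶ S} {t'' : T'' ⟶ S}
    (f : T' ⟶ T) (g : T'' ⟶ T') (hf : f ≫ t = t') (hg : g ≫ t' = t'')
    (hgf : (g ≫ f) ≫ t = t'') (a : obj t), map g hg (map f hf a) = map (g ≫ f) hgf a

namespace OverFunctor

variable (F : OverFunctor S)

theorem map_congr {T T' : Scheme.{u}} {t : T ⟶ S} {t' : T' ⟶ S} {f g : T' ⟶ T} (e : f = g)
    (hf : f ≫ t = t') (hg : g ≫ t = t') (a : F.obj t) : F.map f hf a = F.map g hg a := by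
  subst e; rfl

theorem map_map {T T' T'' : Scheme.{u}} {t : T ⟶ S} {t' : T' ⟶ S} {t'' : T'' ⟶ S}
    (f : T' ⟶ T) (g : T'' ⟶ T') (hf : f ≫ t = t') (hg : g ≫ t' = t'') (a : F.obj t) :
    F.map g hg (F.map f hf a) = F.map (g ≫ f) (by rw [Category.assoc, hf, hg]) a :=
  F.map_comp f g hf hg _ a

theorem sigma_map_eq {T T' : Scheme.{u}} {t : T ⟶ S} {t' : T' ⟶ S} (f : T' ⟶ T)
    (h : f ≫ t = t') (a : F.obj t) :
    (⟨t', F.map f h a⟩ : Σ s : T' ⟶ S, F.obj s) = ⟨f ≫ t, F.map f rfl a⟩ := by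
  subst h; rfl

theorem sigma_congr {T : Scheme.{u}} {s t : T ⟶ S} {a : F.obj s} {b : F.obj t}
    (h : (⟨s, a⟩ : Σ r : T ⟶ S, F.obj r) = ⟨t, b⟩) :
    ∃ e : 𝟙 T ≫ s = t, F.map (𝟙 T) e a = b := by
  obtain ⟨rfl, rfl⟩ : s = t ∧ HEq a b := ⟨congrArg Sigma.fst h, (Sigma.mk.inj_iff.mp h).2⟩
  exact ⟨Category.id_comp _, F.map_id _ _⟩

theorem sigma_ext {T : Scheme.{u}} {s t : T ⟶ S} {a : F.obj s} {b : F.obj t}
    (e : 𝟙 T ≫ s = t) (h : F.map (𝟙 T) e a = b) :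
    (⟨s, a⟩ : Σ r : T ⟶ S, F.obj r) = ⟨t, b⟩ := by
  obtain rfl : s = t := by simpa using e
  rw [F.map_id] at h
  rw [h]

/-- Pullback of a structure map together with an element over it. -/
def sigMap {T T' : Scheme.{u}} (f : T' ⟶ T) (p : Σ t : T ⟶ S, F.obj t) : Σ t : T' ⟶ S, F.obj t :=
  ⟨f ≫ p.1, F.map f rfl p.2⟩

theorem sigMap_eq {T T' : Scheme.{u}} {t : T ⟶ S} {t' : T' ⟶ S} (f : T' ⟶ T) (h : f ≫ t = t')
    (a : F.obj t) : F.sigMap f ⟨t, a⟩ = ⟨t', F.map f h a⟩ := (F.sigma_map_eq f h a).symm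

theorem sigMap_id {T : Scheme.{u}} (p : Σ t : T ⟶ S, F.obj t) : F.sigMap (𝟙 T) p = p := by
  obtain ⟨t, a⟩ := p
  rw [F.sigMap_eq (𝟙 T) (Category.id_comp t), F.map_id]

theorem sigMap_sigMap {T T' T'' : Scheme.{u}} (f : T' ⟶ T) (g : T'' ⟶ T')
    (p : Σ t : T ⟶ S, F.obj t) : F.sigMap g (F.sigMap f p) = F.sigMap (g ≫ f) p := by
  obtain ⟨t, a⟩ := p
  rw [F.sigMap_eq (g ≫ f) (Category.assoc g f t)]
  show (⟨_, F.map g rfl (F.map f rfl a)⟩ : Σ t : T'' ⟶ S, F.obj t) = _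
  rw [F.map_map]

theorem eq_of_sigMap {T T' T'' : Scheme.{u}} {t : T ⟶ S} {t' : T' ⟶ S} {w : T'' ⟶ S}
    {f : T'' ⟶ T} {g : T'' ⟶ T'} {a : F.obj t} {b : F.obj t'}
    (h : F.sigMap f ⟨t, a⟩ = F.sigMap g ⟨t', b⟩) (hf : f ≫ t = w) (hg : g ≫ t' = w) :
    F.map f hf a = F.map g hg b := by
  rw [F.sigMap_eq f hf, F.sigMap_eq g hg] at h
  exact eq_of_heq (Sigma.mk.inj_iff.mp h).2

/-- The functor on all schemes: a structure map together with an element over it. -/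
def total : Scheme.{u}ᵒᵖ ⥤ Type u where
  obj T := Σ t : T.unop ⟶ S, F.obj t
  map f := ↾F.sigMap f.unop
  map_id _ := ConcreteCategory.hom_ext _ _ fun p => F.sigMap_id p
  map_comp f g := ConcreteCategory.hom_ext _ _ fun p => (F.sigMap_sigMap f.unop g.unop p).symm

/-- Zariski gluing for an `OverFunctor`. -/
structure Glues : Prop where
  sep : ∀ {T : Scheme.{u}} (t : T ⟶ S) {ι : Type u} (U : ι → T.Opens) (_ : ∀ p : T, ∃ i, p ∈ U i)
    (a b : F.obj t), (∀ i, F.map (U i).ι rfl a = F.map (U i).ι rfl b) → a = b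
  glue : ∀ {T : Scheme.{u}} (t : T ⟶ S) {ι : Type u} (U : ι → T.Opens) (_ : ∀ p : T, ∃ i, p ∈ U i)
    (a : ∀ i, F.obj ((U i).ι ≫ t)),
    (∀ (i j : ι) {W : Scheme.{u}} (w : W ⟶ S) (g : W ⟶ U i) (g' : W ⟶ U j)
      (h : g ≫ (U i).ι ≫ t = w) (h' : g' ≫ (U j).ι ≫ t = w),
      g ≫ (U i).ι = g' ≫ (U j).ι → F.map g h (a i) = F.map g' h' (a j)) →
    ∃ x : F.obj t, ∀ i, F.map (U i).ι rfl x = a i

variable {F}

theorem Glues.ext (hF : F.Glues) {T : Scheme.{u}} {ι : Type u} (U : ι → T.Opens)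
    (hU : ∀ p : T, ∃ i, p ∈ U i) {x y : Σ t : T ⟶ S, F.obj t}
    (h : ∀ i, F.sigMap (U i).ι x = F.sigMap (U i).ι y) : x = y := by
  obtain ⟨r, c⟩ := x
  obtain ⟨t, b⟩ := y
  obtain rfl : r = t := by
    refine (T.openCoverOfIsOpenCover U (.mk (eq_top_iff.mpr fun z _ =>
      TopologicalSpace.Opens.mem_iSup.mpr (hU z)))).hom_ext _ _ fun p => ?_
    exact congrArg Sigma.fst (h p)
  exact congrArg _ (hF.sep _ U hU _ _ fun p => F.eq_of_sigMap (h p) rfl rfl)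

theorem Glues.isSheaf (hF : F.Glues) : Presieve.IsSheaf Scheme.zariskiTopology F.total := by
  rw [Scheme.zariskiTopology, Scheme.grothendieckTopology,
    Precoverage.isSheaf_toGrothendieck_iff_of_isStableUnderBaseChange]
  rintro T R hR x hx
  obtain ⟨(𝓤 : Scheme.OpenCover T), rfl⟩ := Scheme.exists_cover_of_mem_pretopology hR
  -- index the cover by the points of `T`
  choose idx pre hpre using fun p : T => 𝓤.exists_eq p
  let U : T → T.Opens := fun p => (𝓤.f (idx p)).opensRange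
  have hU : ∀ p : T, ∃ i, p ∈ U i := fun p => ⟨p, ⟨pre p, hpre p⟩⟩
  let y : ∀ i, Σ r : 𝓤.X i ⟶ S, F.obj r := fun i => x (𝓤.f i) (.mk i)
  let e : ∀ p : T, (U p).toScheme ⟶ 𝓤.X (idx p) := fun p =>
    IsOpenImmersion.lift (𝓤.f (idx p)) (U p).ι (by rw [Scheme.Opens.range_ι]; rfl)
  have he : ∀ p : T, e p ≫ 𝓤.f (idx p) = (U p).ι := fun p => IsOpenImmersion.lift_fac _ _ _
  have hs : ∀ (p : T) (i : 𝓤.I₀) {W : Scheme.{u}} (g : W ⟶ U p) (g' : W ⟶ 𝓤.X i),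
      g ≫ (U p).ι = g' ≫ 𝓤.f i →
      F.sigMap g (F.sigMap (e p) (y (idx p))) = F.sigMap g' (y i) := by
    intro p i W g g' h
    rw [F.sigMap_sigMap]
    exact hx (g ≫ e p) g' (.mk _) (.mk i) (by rw [Category.assoc, he, h])
  let s : ∀ p : T, (U p).toScheme ⟶ S := fun p => (F.sigMap (e p) (y (idx p))).1
  let c : ∀ p : T, F.obj (s p) := fun p => (F.sigMap (e p) (y (idx p))).2
  have hsc : ∀ (p q : T) {W : Scheme.{u}} (g : W ⟶ U p) (g' : W ⟶ U q),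
      g ≫ (U p).ι = g' ≫ (U q).ι → F.sigMap g ⟨s p, c p⟩ = F.sigMap g' ⟨s q, c q⟩ := by
    intro p q W g g' h
    show F.sigMap g (F.sigMap (e p) _) = F.sigMap g' (F.sigMap (e q) _)
    rw [hs p (idx q) g (g' ≫ e q) (by rw [h, Category.assoc, he]), F.sigMap_sigMap]
  -- glue the structure maps
  have hUsup : iSup U = ⊤ := by
    refine eq_top_iff.mpr fun p _ => TopologicalSpace.Opens.mem_iSup.mpr (hU p)
  let t : T ⟶ S := (T.openCoverOfIsOpenCover U (.mk hUsup)).glueMorphisms s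
    (fun p q => congrArg Sigma.fst (hsc p q _ _ pullback.condition))
  have ht : ∀ p, (U p).ι ≫ t = s p := fun p =>
    (T.openCoverOfIsOpenCover U (.mk hUsup)).ι_glueMorphisms _ _ p
  let a : ∀ p, F.obj ((U p).ι ≫ t) := fun p =>
    F.map (𝟙 _) (by rw [Category.id_comp, ht]) (c p)
  have ha : ∀ p, (⟨(U p).ι ≫ t, a p⟩ : Σ r, F.obj r) = ⟨s p, c p⟩ := fun p =>
    (F.sigma_ext (by rw [Category.id_comp, ht]) rfl).symm
  obtain ⟨b, hb⟩ := hF.glue t U hU a fun p q W w g g' h h' hgg' =>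
    F.eq_of_sigMap (by rw [ha, ha]; exact hsc p q g g' hgg') h h'
  have hres : ∀ p, F.sigMap (U p).ι ⟨t, b⟩ = F.sigMap (e p) (y (idx p)) := fun p => by
    rw [F.sigMap_eq (U p).ι rfl, hb p, ha p]
  have hrestrict : ∀ i : 𝓤.I₀, F.sigMap (𝓤.f i) ⟨t, b⟩ = y i := by
    intro i
    -- both sides agree on the preimages of the `U p`
    refine hF.ext (fun p => (𝓤.f i) ⁻¹ᵁ U p) (fun z => hU (𝓤.f i z)) fun p => ?_
    rw [F.sigMap_sigMap, ← morphismRestrict_ι, ← F.sigMap_sigMap, hres,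
      hs p i ((𝓤.f i) ∣_ U p) _ (morphismRestrict_ι _ _)]
  refine ⟨⟨t, b⟩, ?_, fun z hz => ?_⟩
  · rintro Z f ⟨i⟩
    exact hrestrict i
  · refine hF.ext U hU fun p => ?_
    show F.sigMap (U p).ι z = _
    rw [hres, ← he p]
    exact (F.sigMap_sigMap _ _ z).symm.trans (congrArg _ (hz (𝓤.f (idx p)) (.mk _)))

variable (F)

/-- An open chart of an `OverFunctor`, represented by an `S`-scheme with an element over it. -/
structure Chart where
  X : Scheme.{u}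
  str : X ⟶ S
  elt : F.obj str
  mono : ∀ {T : Scheme.{u}} {t : T ⟶ S} (g g' : T ⟶ X) (h : g ≫ str = t) (h' : g' ≫ str = t),
    F.map g h elt = F.map g' h' elt → g = g'
  openness : ∀ {T : Scheme.{u}} (t : T ⟶ S) (a : F.obj t), ∃ V : T.Opens,
    ∀ {T' : Scheme.{u}} (f : T' ⟶ T), Set.range f ⊆ V ↔
      ∃ (g : T' ⟶ X) (h : g ≫ str = f ≫ t), F.map g h elt = F.map f rfl a

namespace Chart

variable {F} (C : F.Chart)

theorem mono' {T : Scheme.{u}} {g g' : T ⟶ C.X}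
    (h : F.sigMap g ⟨C.str, C.elt⟩ = F.sigMap g' ⟨C.str, C.elt⟩) : g = g' :=
  C.mono g g' rfl (congrArg Sigma.fst h).symm
    (F.eq_of_sigMap h rfl (congrArg Sigma.fst h).symm)

theorem openness' {T : Scheme.{u}} (x : Σ t : T ⟶ S, F.obj t) : ∃ V : T.Opens,
    ∀ {T' : Scheme.{u}} (f : T' ⟶ T), Set.range f ⊆ V ↔
      ∃ g : T' ⟶ C.X, F.sigMap g ⟨C.str, C.elt⟩ = F.sigMap f x := by
  obtain ⟨t, a⟩ := x
  obtain ⟨V, hV⟩ := C.openness t a
  refine ⟨V, fun f => (hV f).trans ⟨?_, ?_⟩⟩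
  · rintro ⟨g, h, hg⟩
    exact ⟨g, by rw [F.sigMap_eq g h, hg, F.sigMap_eq f rfl]⟩
  · rintro ⟨g, hg⟩
    exact ⟨g, congrArg Sigma.fst hg, F.eq_of_sigMap hg _ _⟩

/-- The chart as a map of presheaves. -/
def toTotal : yoneda.obj C.X ⟶ F.total := yonedaEquiv.symm ⟨C.str, C.elt⟩

theorem toTotal_app {W : Scheme.{u}} (g : W ⟶ C.X) :
    C.toTotal.app (op W) g = F.sigMap g ⟨C.str, C.elt⟩ := rfl

theorem presheaf_toTotal : IsOpenImmersion.presheaf C.toTotal := by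
  refine MorphismProperty.relative.of_exists fun T g => ?_
  let x : Σ t : T ⟶ S, F.obj t := yonedaEquiv g
  have hgx : ∀ {W : Scheme.{u}} (f : W ⟶ T), g.app (op W) f = F.sigMap f x := fun {W} f => by
    conv_lhs => rw [← yonedaEquiv.symm_apply_apply g]
    rfl
  obtain ⟨V, hV⟩ := C.openness' x
  obtain ⟨gV, hgV⟩ := (hV V.ι).mp (le_of_eq V.range_ι)
  refine ⟨V.toScheme, yoneda.map gV, V.ι, ?_, inferInstance⟩
  refine IsPullback.of_forall_isPullback_app fun W => (Types.isPullback_iff _ _ _ _).mpr ⟨?_, ?_, ?_⟩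
  · refine ConcreteCategory.hom_ext _ _ fun (k : W.unop ⟶ V) => ?_
    show F.sigMap (k ≫ gV) ⟨C.str, C.elt⟩ = g.app (op W.unop) (k ≫ V.ι)
    rw [hgx, ← F.sigMap_sigMap, hgV, F.sigMap_sigMap]
  · intro (k : W.unop ⟶ V) (k' : W.unop ⟶ V) h
    exact (cancel_mono V.ι).mp h.2
  · intro (h : W.unop ⟶ C.X) (f : W.unop ⟶ T) hhf
    replace hhf : F.sigMap h ⟨C.str, C.elt⟩ = g.app (op W.unop) f := hhf
    rw [hgx] at hhf
    have hr : Set.range f ⊆ Set.range V.ι := by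
      rw [V.range_ι]; exact (hV f).mpr ⟨h, hhf⟩
    refine ⟨IsOpenImmersion.lift V.ι f hr, C.mono' ?_, IsOpenImmersion.lift_fac _ _ _⟩
    show F.sigMap (IsOpenImmersion.lift V.ι f hr ≫ gV) ⟨C.str, C.elt⟩ = F.sigMap h ⟨C.str, C.elt⟩
    rw [hhf, ← F.sigMap_sigMap, hgV, F.sigMap_sigMap, IsOpenImmersion.lift_fac]

end Chart

variable {F}

/-- **Representability by gluing**: an `OverFunctor` with Zariski gluing and an open covering by
representable charts has a universal element, and the charts give a jointly surjective family of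
open immersions. -/
theorem exists_universal (hF : F.Glues) {ι : Type u} (C : ι → F.Chart)
    (hcov : ∀ {T : Scheme.{u}} (t : T ⟶ S) (a : F.obj t) (p : T),
      ∃ (i : ι) (T' : Scheme.{u}) (f : T' ⟶ T) (q : T') (g : T' ⟶ (C i).X)
        (h : g ≫ (C i).str = f ≫ t),
        f q = p ∧ F.map g h (C i).elt = F.map f rfl a) :
    ∃ (J : Scheme.{u}) (π : J ⟶ S) (ξ : F.obj π),
      (∀ {T : Scheme.{u}} (t : T ⟶ S) (a : F.obj t),
        ∃! g : T ⟶ J, ∃ h : g ≫ π = t, F.map g h ξ = a) ∧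
      ∃ j : ∀ i, (C i).X ⟶ J, (∀ i, IsOpenImmersion (j i)) ∧
        (∀ i, ∃ h : j i ≫ π = (C i).str, F.map (j i) h ξ = (C i).elt) ∧
        ∀ p : J, ∃ i, p ∈ Set.range (j i) := by
  have hcov' : ∀ {T : Scheme.{u}} (x : Σ t : T ⟶ S, F.obj t) (p : T), ∃ (i : ι) (V : T.Opens)
      (g : V.toScheme ⟶ (C i).X),
      p ∈ V ∧ F.sigMap g ⟨(C i).str, (C i).elt⟩ = F.sigMap V.ι x := by
    rintro T ⟨t, a⟩ p
    obtain ⟨i, T', f, q, g, h, hq, hg⟩ := hcov t a p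
    obtain ⟨V, hV⟩ := (C i).openness' ⟨t, a⟩
    obtain ⟨gV, hgV⟩ := (hV V.ι).mp (le_of_eq V.range_ι)
    exact ⟨i, V, gV, hq ▸ (hV f).mpr ⟨g, by rw [F.sigMap_eq g h, hg]; rfl⟩ ⟨q, rfl⟩, hgV⟩
  let G : Sheaf Scheme.zariskiTopology.{u} (Type u) :=
    ⟨F.total, (isSheaf_iff_isSheaf_of_type _ _).mpr hF.isSheaf⟩
  have hsurj : Presheaf.IsLocallySurjective Scheme.zariskiTopology
      (Limits.Sigma.desc fun i => (C i).toTotal) := by
    refine ⟨fun {T} (x : Σ t : T ⟶ S, F.obj t) => ?_⟩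
    choose i U g hp hg using hcov' x
    have hsup : iSup U = ⊤ := eq_top_iff.mpr fun p _ =>
      TopologicalSpace.Opens.mem_iSup.mpr ⟨p, hp p⟩
    refine GrothendieckTopology.superset_covering _ ?_
      (T.openCoverOfIsOpenCover U (.mk hsup)).mem_grothendieckTopology
    rintro W k ⟨Y, a, _, ⟨p⟩, rfl⟩
    have key : ∀ (p : T) (a : W ⟶ (U p).toScheme),
        ∃ t, (Limits.Sigma.desc fun i => (C i).toTotal).app (op W) t =
          F.sigMap (a ≫ (U p).ι) x := fun p a => by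
      refine ⟨(Sigma.ι (fun i => yoneda.obj (C i).X) (i p)).app (op W) (a ≫ g p), ?_⟩
      rw [← types_comp_apply ((Sigma.ι (fun i => yoneda.obj (C i).X) (i p)).app (op W)),
        ← NatTrans.comp_app, Sigma.ι_desc, Chart.toTotal_app]
      exact (F.sigMap_sigMap (g p) a _).symm.trans
        ((congrArg (F.sigMap a) (hg p)).trans (F.sigMap_sigMap (U p).ι a x))
    exact key p a
  obtain ⟨J, ⟨π, ξ⟩, e, hev⟩ : ∃ (J : Scheme.{u}) (x : Σ t : J ⟶ S, F.obj t)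
      (e : ∀ T : Scheme.{u}, (T ⟶ J) ≃ Σ t : T ⟶ S, F.obj t),
      ∀ (T : Scheme.{u}) (g : T ⟶ J), e T g = F.sigMap g x := by
    let rep := Scheme.LocalRepresentability.representableBy (F := G)
      (f := fun i => (C i).toTotal) fun i => (C i).presheaf_toTotal
    exact ⟨_, rep.homEquiv (𝟙 _), fun T => rep.homEquiv, fun T g => rep.homEquiv_eq g⟩
  have hinj : ∀ {T : Scheme.{u}} {g g' : T ⟶ J},
      F.sigMap g ⟨π, ξ⟩ = F.sigMap g' ⟨π, ξ⟩ → g = g' :=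
    fun {T g g'} h => (e T).injective (by rw [hev, hev, h])
  have huniv : ∀ {T : Scheme.{u}} (t : T ⟶ S) (a : F.obj t),
      ∃! g : T ⟶ J, ∃ h : g ≫ π = t, F.map g h ξ = a := by
    intro T t a
    obtain ⟨g, hg⟩ := (e T).surjective ⟨t, a⟩
    rw [hev] at hg
    refine ⟨g, ⟨congrArg Sigma.fst hg, ?_⟩, fun g' ⟨h', hg'⟩ => hinj ?_⟩
    · rw [F.eq_of_sigMap (g := 𝟙 T) (hg.trans (F.sigMap_id ⟨t, a⟩).symm)
        (congrArg Sigma.fst hg) (Category.id_comp t), F.map_id]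
    · rw [hg, F.sigMap_eq g' h', hg']
  refine ⟨J, π, ξ, huniv, ?_⟩
  choose j hj hjc using fun i => (huniv (C i).str (C i).elt).exists
  have hjx : ∀ i, F.sigMap (j i) ⟨π, ξ⟩ = ⟨(C i).str, (C i).elt⟩ := fun i => by
    rw [F.sigMap_eq (j i) (hj i), hjc i]
  choose V hV using fun i => (C i).openness' ⟨π, ξ⟩
  have hopen : ∀ i, ∃ e : (C i).X ≅ (V i).toScheme, j i = e.hom ≫ (V i).ι := by
    intro i
    have hjV : Set.range (j i) ⊆ Set.range (V i).ι := by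
      rw [(V i).range_ι]; exact (hV i (j i)).mpr ⟨𝟙 _, by rw [F.sigMap_id, hjx]⟩
    obtain ⟨ψ, hψ⟩ := (hV i (V i).ι).mp (le_of_eq (V i).range_ι)
    have h1 : ψ ≫ j i = (V i).ι := hinj (by rw [← F.sigMap_sigMap, hjx, hψ])
    have h2 : IsOpenImmersion.lift (V i).ι (j i) hjV ≫ ψ = 𝟙 _ := by
      refine (C i).mono' ?_
      rw [← F.sigMap_sigMap, hψ, F.sigMap_sigMap, IsOpenImmersion.lift_fac, hjx, F.sigMap_id]
    refine ⟨⟨IsOpenImmersion.lift (V i).ι (j i) hjV, ψ, h2, ?_⟩,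
      (IsOpenImmersion.lift_fac _ _ _).symm⟩
    rw [← cancel_mono (V i).ι, Category.assoc, IsOpenImmersion.lift_fac, h1, Category.id_comp]
  refine ⟨j, fun i => ?_, fun i => ⟨hj i, hjc i⟩, fun p => ?_⟩
  · obtain ⟨e, he⟩ := hopen i
    rw [he]; infer_instance
  · obtain ⟨i, T', f, q, g, h, hq, hg⟩ := hcov π ξ p
    refine ⟨i, g q, ?_⟩
    have : g ≫ j i = f := hinj (by rw [← F.sigMap_sigMap, hjx, F.sigMap_eq g h, hg]; rfl)
    rw [← hq, ← this]
    rfl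

end OverFunctor

end Fermat.Agent.Jacobian
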