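import Fermat.Prelude.Def_AlgebraicGeometry_RelPicardAlgEquivZeroCut

/-!
# The algebraic-equivalence cut is local on the base
-/

set_option autoImplicit false

noncomputable section

universe u

open CategoryTheory CategoryTheory.Limits AlgebraicGeometry AlgebraicGeometry.RelPicard
  NeronModelInfra

namespace Fermat.Agent.Jacobian

variable {R : Type u} [CommRing R] {C : Scheme.{u}} {c : C ⟶ Spec (CommRingCat.of R)}
  {ε : SchemeHomOver (𝟙 (Spec (CommRingCat.of R))) c}

/-- A condition on rigidified bundles is local on the base. -/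
def IsLocalCondition (P : SubPicCondition c ε) : Prop :=
  ∀ {T : Scheme.{u}} (t : T ⟶ Spec (CommRingCat.of R)) (M : RigidifiedLineBundle c ε t)
    {ι : Type u} (U : ι → T.Opens), (∀ p : T, ∃ i, p ∈ U i) →
    (∀ i, P.P ((U i).ι ≫ t) (M.pullbackAlong ⟨(U i).ι, rfl⟩)) → P.P t M

theorem isLocalCondition_algEquivZeroCut : IsLocalCondition (algEquivZeroCut c ε) := by
  intro T t M ι U hU hM k _ _ s
  obtain ⟨p⟩ := (inferInstance : Nonempty (Spec (CommRingCat.of k)))
  obtain ⟨i, hi⟩ := hU (s p)
  have hr : Set.range s ⊆ Set.range (U i).ι := by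
    rintro _ ⟨q, rfl⟩
    rw [Scheme.Opens.range_ι]
    have : q = p := Subsingleton.elim (α := PrimeSpectrum k) q p
    rwa [this]
  let s' := IsOpenImmersion.lift (U i).ι s hr
  have hs : s' ≫ (U i).ι = s := IsOpenImmersion.lift_fac _ _ _
  let ψ : SchemeHomOver ((U i).ι ≫ t) t := ⟨(U i).ι, rfl⟩
  let a : Limits.pullback (pullback.snd c t) s ⟶ Limits.pullback c ((U i).ι ≫ t) :=
    pullback.lift (pullback.fst _ _ ≫ pullback.fst c t) (pullback.snd _ _ ≫ s') (by
      rw [Category.assoc, pullback.condition, ← Category.assoc, pullback.condition,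
        Category.assoc, Category.assoc, ← reassoc_of% hs])
  have ha : a ≫ baseChangeSnd c ψ = pullback.fst (pullback.snd c t) s := by
    apply pullback.hom_ext
    · simp only [a, baseChangeSnd, Category.assoc, pullback.lift_fst, Category.comp_id]
    · simp only [a, ψ, baseChangeSnd, Category.assoc, pullback.lift_snd, pullback.lift_snd_assoc]
      rw [hs, pullback.condition]
  let e : Limits.pullback (pullback.snd c t) s ⟶
      Limits.pullback (pullback.snd c ((U i).ι ≫ t)) s' :=
    pullback.lift a (pullback.snd _ _) (pullback.lift_snd _ _ _)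
  have he : e ≫ fibreAt c ((U i).ι ≫ t) s' = fibreAt c t s := pullback.lift_snd _ _ _
  have h := (hM i k s').pullback e he
  refine h.of_iso ?_
  exact (Scheme.Modules.pullbackComp _ _).app _ ≪≫
    (Scheme.Modules.pullbackCongr (show e ≫ pullback.fst _ s' = a from pullback.lift_fst _ _ _)).app _
      ≪≫ (Scheme.Modules.pullbackComp _ _).app M.L ≪≫
    (Scheme.Modules.pullbackCongr ha).app M.L

end Fermat.Agent.Jacobian
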