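import Fermat.Agent.Jacobian.Bridge.Rigidified
import Fermat.Agent.Jacobian.Represent.LocalRep
import Fermat.Agent.Jacobian.Represent.AlgEquivZeroLocal

/-!
# The functor of rigidified classes satisfying a condition

`subPicFunctor` sends `t : T → Spec R` to the classes in `Pic (C ×ₜ T)` of rigidified bundles
satisfying the condition.  A universal element for it gives `RepresentsRelSubPic`.
-/

set_option autoImplicit false

noncomputable section

universe u

open CategoryTheory CategoryTheory.Limits AlgebraicGeometry AlgebraicGeometry.RelPicard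
  NeronModelInfra GoodReductionJacobian

namespace Fermat.Agent.Jacobian

variable {R : Type u} [CommRing R] {C : Scheme.{u}} {c : C ⟶ Spec (CommRingCat.of R)}
  {ε : SchemeHomOver (𝟙 (Spec (CommRingCat.of R))) c}

/-- The class of a rigidified bundle. -/
def bundleClass {T : Scheme.{u}} {t : T ⟶ Spec (CommRingCat.of R)}
    (M : RigidifiedLineBundle c ε t) : Pic (pullback c t) :=
  picClass M.L M.isInvertible

theorem bundleClass_eq_iff {T : Scheme.{u}} {t : T ⟶ Spec (CommRingCat.of R)}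
    (M M' : RigidifiedLineBundle c ε t) :
    bundleClass M = bundleClass M' ↔ Nonempty (M.L ≅ M'.L) :=
  picClass_eq_iff _ _

theorem bundleClass_pullbackAlong {T T' : Scheme.{u}}
    {t : T ⟶ Spec (CommRingCat.of R)} {t' : T' ⟶ Spec (CommRingCat.of R)}
    (M : RigidifiedLineBundle c ε t) (ψ : SchemeHomOver t' t) :
    bundleClass (M.pullbackAlong ψ) = Pic.comap (baseChangeSnd c ψ) (bundleClass M) :=
  picClass_pullback _ M.isInvertible

theorem comap_rigSection_bundleClass {T : Scheme.{u}}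
    {t : T ⟶ Spec (CommRingCat.of R)} (M : RigidifiedLineBundle c ε t) :
    Pic.comap (rigSection c t ε) (bundleClass M) = 1 :=
  (rigPicClass M).2

theorem exists_bundleClass_eq {T : Scheme.{u}}
    {t : T ⟶ Spec (CommRingCat.of R)} {ξ : Pic (pullback c t)}
    (h : Pic.comap (rigSection c t ε) ξ = 1) :
    ∃ M : RigidifiedLineBundle c ε t, bundleClass M = ξ :=
  (rigPicClass_surjective ⟨ξ, h⟩).imp fun _ hM => congrArg Subtype.val hM

/-- The functor of classes of rigidified bundles satisfying `P`. -/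
def subPicFunctor (P : SubPicCondition c ε) :
    OverFunctor (Spec (CommRingCat.of R)) where
  obj t := {ξ : Pic (pullback c t) //
    ∃ M : RigidifiedLineBundle c ε t, P.P t M ∧ bundleClass M = ξ}
  map f h ξ := ⟨Pic.comap (baseChangeSnd c ⟨f, h⟩) ξ.1, by
    obtain ⟨M, hP, hM⟩ := ξ.2
    exact ⟨M.pullbackAlong ⟨f, h⟩, P.pullback_mem _ _ _ _ hP,
      by rw [bundleClass_pullbackAlong, hM]⟩⟩
  map_id h ξ := Subtype.ext (by
    show Pic.comap (baseChangeSnd c ⟨𝟙 _, h⟩) ξ.1 = ξ.1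
    rw [baseChangeSnd_id, Pic.comap_id])
  map_comp f g hf hg hgf ξ := Subtype.ext (by
    show Pic.comap (baseChangeSnd c ⟨g, hg⟩) (Pic.comap (baseChangeSnd c ⟨f, hf⟩) ξ.1) = _
    rw [← Pic.comap_comp, baseChangeSnd_comp]
    rfl)

theorem subPicFunctor_map_coe (P : SubPicCondition c ε)
    {T T' : Scheme.{u}} {t : T ⟶ Spec (CommRingCat.of R)} {t' : T' ⟶ Spec (CommRingCat.of R)}
    (f : T' ⟶ T) (h : f ≫ t = t') (ξ : (subPicFunctor P).obj t) :
    ((subPicFunctor P).map f h ξ).1 = Pic.comap (baseChangeSnd c ⟨f, h⟩) ξ.1 := rfl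

variable (c ε) in
/-- Zariski descent of rigidified classes along the base. -/
structure PicDescent : Prop where
  sep : ∀ {T : Scheme.{u}} (t : T ⟶ Spec (CommRingCat.of R)) {ι : Type u} (U : ι → T.Opens)
    (_ : ∀ p : T, ∃ i, p ∈ U i) (ξ η : Pic (pullback c t)),
    Pic.comap (rigSection c t ε) ξ = 1 → Pic.comap (rigSection c t ε) η = 1 →
    (∀ i, Pic.comap (baseChangeSnd c (⟨(U i).ι, rfl⟩ : SchemeHomOver ((U i).ι ≫ t) t)) ξ =
      Pic.comap (baseChangeSnd c (⟨(U i).ι, rfl⟩ : SchemeHomOver ((U i).ι ≫ t) t)) η) → ξ = η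
  glue : ∀ {T : Scheme.{u}} (t : T ⟶ Spec (CommRingCat.of R)) {ι : Type u} (U : ι → T.Opens)
    (_ : ∀ p : T, ∃ i, p ∈ U i) (a : ∀ i, Pic (pullback c ((U i).ι ≫ t))),
    (∀ i, Pic.comap (rigSection c ((U i).ι ≫ t) ε) (a i) = 1) →
    (∀ (i j : ι) {W : Scheme.{u}} (w : W ⟶ Spec (CommRingCat.of R)) (g : W ⟶ U i) (g' : W ⟶ U j)
      (h : g ≫ (U i).ι ≫ t = w) (h' : g' ≫ (U j).ι ≫ t = w),
      g ≫ (U i).ι = g' ≫ (U j).ι →
      Pic.comap (baseChangeSnd c ⟨g, h⟩) (a i) = Pic.comap (baseChangeSnd c ⟨g', h'⟩) (a j)) →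
    ∃ ξ : Pic (pullback c t), Pic.comap (rigSection c t ε) ξ = 1 ∧
      ∀ i, Pic.comap (baseChangeSnd c (⟨(U i).ι, rfl⟩ : SchemeHomOver ((U i).ι ≫ t) t)) ξ = a i

theorem glues_subPicFunctor (P : SubPicCondition c ε)
    (hd : PicDescent c ε) (hloc : IsLocalCondition P) : (subPicFunctor P).Glues where
  sep t ι U hU a b h := by
    have hrig : ∀ a : (subPicFunctor P).obj t, Pic.comap (rigSection c t ε) a.1 = 1 := by
      intro a
      obtain ⟨M, -, hM⟩ := a.2
      rw [← hM]; exact comap_rigSection_bundleClass M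
    exact Subtype.ext (hd.sep t U hU a.1 b.1 (hrig a) (hrig b) fun i =>
      congrArg Subtype.val (h i))
  glue t ι U hU a h := by
    have hrig : ∀ i, Pic.comap (rigSection c ((U i).ι ≫ t) ε) (a i).1 = 1 := by
      intro i
      obtain ⟨M, -, hM⟩ := (a i).2
      rw [← hM]; exact comap_rigSection_bundleClass M
    obtain ⟨ξ, hξ1, hξ⟩ := hd.glue t U hU (fun i => (a i).1) hrig
      fun i j W w g g' hg hg' he => congrArg Subtype.val (h i j w g g' hg hg' he)
    obtain ⟨M, rfl⟩ := exists_bundleClass_eq hξ1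
    refine ⟨⟨bundleClass M, M, hloc t M U hU fun i => ?_, rfl⟩, fun i => Subtype.ext (hξ i)⟩
    obtain ⟨N, hN, hNa⟩ := (a i).2
    refine P.congr _ N _ ((bundleClass_eq_iff _ _).mp ?_) hN
    rw [bundleClass_pullbackAlong, hξ i, hNa]

/-- A universal element of `subPicFunctor` gives a representing object. -/
theorem exists_representsRelSubPic (P : SubPicCondition c ε)
    {J : Scheme.{u}} (π : J ⟶ Spec (CommRingCat.of R)) (ξ : (subPicFunctor P).obj π)
    (huniv : ∀ {T : Scheme.{u}} (t : T ⟶ Spec (CommRingCat.of R))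
      (a : (subPicFunctor P).obj t),
      ∃! g : T ⟶ J, ∃ h : g ≫ π = t, (subPicFunctor P).map g h ξ = a) :
    ∃ (z : Spec (CommRingCat.of R) ⟶ J) (hz : z ≫ π = 𝟙 _),
      Nonempty (RepresentsRelSubPic c ε P ⟨J, π, z, hz⟩) := by
  obtain ⟨M₀, hM₀P, hM₀⟩ := ξ.2
  have key : ∀ {T : Scheme.{u}} (t : T ⟶ Spec (CommRingCat.of R))
      (M : RigidifiedLineBundle c ε t), P.P t M →
      ∃! g : SchemeHomOver t π, Nonempty ((M₀.pullbackAlong g).L ≅ M.L) := by
    intro T t M hM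
    obtain ⟨g, ⟨hg, hgξ⟩, huq⟩ := huniv t ⟨bundleClass M, M, hM, rfl⟩
    have hiff : ∀ g : SchemeHomOver t π, Nonempty ((M₀.pullbackAlong g).L ≅ M.L) ↔
        (subPicFunctor P).map g.1 g.2 ξ = ⟨bundleClass M, M, hM, rfl⟩ := by
      intro g
      rw [← bundleClass_eq_iff, bundleClass_pullbackAlong, hM₀]
      exact ⟨fun h => Subtype.ext h, fun h => congrArg Subtype.val h⟩
    exact ⟨⟨g, hg⟩, (hiff _).mpr hgξ,
      fun g' hg' => Subtype.ext (huq g'.1 ⟨g'.2, (hiff g').mp hg'⟩)⟩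
  obtain ⟨z, hz, -⟩ := key (𝟙 _) (RigidifiedLineBundle.unit _) (P.unit_mem _)
  exact ⟨z.1, z.2, ⟨{ poincare := M₀, poincare_mem := hM₀P, univ := key, zero := hz }⟩⟩

/-- **Representability of the cut from charts.** -/
theorem exists_designation_of_charts (P : SubPicCondition c ε)
    (hd : PicDescent c ε) (hloc : IsLocalCondition P) {ι : Type u}
    (Ch : ι → (subPicFunctor P).Chart)
    (hcov : ∀ {T : Scheme.{u}} (t : T ⟶ Spec (CommRingCat.of R))
      (a : (subPicFunctor P).obj t) (p : T),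
      ∃ (i : ι) (T' : Scheme.{u}) (f : T' ⟶ T) (q : T') (g : T' ⟶ (Ch i).X)
        (h : g ≫ (Ch i).str = f ≫ t),
        f q = p ∧ (subPicFunctor P).map g h (Ch i).elt = (subPicFunctor P).map f rfl a) :
    ∃ D : RelativePic0Designation R c, Nonempty (RepresentsRelSubPic c ε P D) ∧
      ∃ j : ∀ i, (Ch i).X ⟶ D.P, (∀ i, IsOpenImmersion (j i)) ∧
        (∀ i, j i ≫ D.toBase = (Ch i).str) ∧ ∀ p : D.P, ∃ i, p ∈ Set.range (j i) := by
  obtain ⟨J, π, ξ, huniv, j, hj, hjc, hcover⟩ :=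
    OverFunctor.exists_universal (glues_subPicFunctor P hd hloc) Ch hcov
  obtain ⟨z, hz, hrep⟩ := exists_representsRelSubPic P π ξ huniv
  exact ⟨⟨J, π, z, hz⟩, hrep, j, hj, fun i => (hjc i).fst, hcover⟩

end Fermat.Agent.Jacobian
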