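import Fermat.Agent.Jacobian.Relative
import Fermat.Agent.Jacobian.Represent.LocalRep
import Fermat.Agent.Jacobian.Represent.PicFunctor
import Mathlib.FieldTheory.IsAlgClosed.AlgebraicClosure
import Mathlib.AlgebraicGeometry.ResidueField

/-!
# Charts from affine data

An `OverFunctor.Chart` over `Spec k` is determined by its behaviour on affine test schemes
`Spec R`, `R` a `k`-algebra: injectivity and the openness criterion both glue.  Coverage by charts
may be checked on algebraically closed field valued points.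
-/

set_option autoImplicit false

noncomputable section

universe u

open CategoryTheory CategoryTheory.Limits AlgebraicGeometry AlgebraicGeometry.RelPicard
  NeronModelInfra

namespace Fermat.Agent.Jacobian

variable {k : Type u} [CommRing k]

/-- The morphism of spectra of a map of `k`-algebras. -/
def specHom {R S : Type u} [CommRing R] [Algebra k R] [CommRing S] [Algebra k S]
    (φ : R →ₐ[k] S) : Spec (CommRingCat.of S) ⟶ Spec (CommRingCat.of R) :=
  Spec.map (CommRingCat.ofHom φ.toRingHom)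

theorem specHom_specAlg {R S : Type u} [CommRing R] [Algebra k R] [CommRing S] [Algebra k S]
    (φ : R →ₐ[k] S) : specHom φ ≫ specAlg (k := k) R = specAlg (k := k) S := by
  rw [specHom, specAlg, specAlg, ← Spec.map_comp, ← CommRingCat.ofHom_comp]
  congr 2
  exact φ.comp_algebraMap

theorem baseChangeSnd_specHom {C : Scheme.{u}} (c : C ⟶ Spec (CommRingCat.of k)) {R S : Type u}
    [CommRing R] [Algebra k R] [CommRing S] [Algebra k S] (φ : R →ₐ[k] S) :
    baseChangeSnd c (⟨specHom φ, specHom_specAlg φ⟩ :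
      SchemeHomOver (specAlg (k := k) S) (specAlg (k := k) R)) = crMap c R S φ :=
  rfl

/-- An affine open as the spectrum of its functions, over the base. -/
def affIncl {T : Scheme.{u}} (t : T ⟶ Spec (CommRingCat.of k)) {U : T.Opens}
    (hU : IsAffineOpen U) : Spec (CommRingCat.of (Fun t U)) ⟶ T :=
  hU.fromSpec

theorem affIncl_over {T : Scheme.{u}} (t : T ⟶ Spec (CommRingCat.of k)) {U : T.Opens}
    (hU : IsAffineOpen U) : affIncl t hU ≫ t = specAlg (k := k) (Fun t U) := by
  have h := IsAffineOpen.SpecMap_appLE_fromSpec t (isAffineOpen_top _) hU le_top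
  rw [IsAffineOpen.fromSpec_top, Scheme.isoSpec_Spec_inv, ← Spec.map_comp] at h
  exact h.symm

/-- Pullback of functions between affine opens, as a map of `k`-algebras. -/
def funAppLE {T T' : Scheme.{u}} (t : T ⟶ Spec (CommRingCat.of k))
    (t' : T' ⟶ Spec (CommRingCat.of k)) (f : T' ⟶ T) (h : f ≫ t = t') {U : T.Opens}
    {U' : T'.Opens} (hle : U' ≤ f ⁻¹ᵁ U) : Fun t U →ₐ[k] Fun t' U' where
  toRingHom := (pb f hle : Γ(T, U) →+* Γ(T', U'))
  commutes' a := (pb_pb f t (U := ⊤) (V := U) le_top hle _).trans (pb_congr h _ _)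

theorem specHom_funAppLE {T T' : Scheme.{u}} (t : T ⟶ Spec (CommRingCat.of k))
    (t' : T' ⟶ Spec (CommRingCat.of k)) (f : T' ⟶ T) (h : f ≫ t = t') {U : T.Opens}
    {U' : T'.Opens} (hU : IsAffineOpen U) (hU' : IsAffineOpen U') (hle : U' ≤ f ⁻¹ᵁ U) :
    specHom (funAppLE t t' f h hle) ≫ affIncl t hU = affIncl t' hU' ≫ f :=
  IsAffineOpen.SpecMap_appLE_fromSpec f hU hU' hle

namespace OverFunctor

variable (F : OverFunctor (Spec (CommRingCat.of k)))

/-- The data of a chart on affine test schemes. -/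
structure AffineChart where
  /-- the scheme of the chart -/
  X : Scheme.{u}
  /-- its structure map -/
  str : X ⟶ Spec (CommRingCat.of k)
  /-- the element over it -/
  elt : F.obj str
  mono : ∀ (R : Type u) [CommRing R] [Algebra k R] (g g' : Spec (CommRingCat.of R) ⟶ X)
    (h : g ≫ str = specAlg (k := k) R) (h' : g' ≫ str = specAlg (k := k) R),
    F.map g h elt = F.map g' h' elt → g = g'
  openness : ∀ (R : Type u) [CommRing R] [Algebra k R] (a : F.obj (specAlg (k := k) R)),
    ∃ V : (Spec (CommRingCat.of R)).Opens, ∀ (S : Type u) [CommRing S] [Algebra k S]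
      (φ : R →ₐ[k] S), Set.range (specHom φ) ⊆ V ↔
        ∃ (g : Spec (CommRingCat.of S) ⟶ X) (h : g ≫ str = specAlg (k := k) S),
          F.map g h elt = F.map (specHom φ) (specHom_specAlg φ) a

namespace AffineChart

variable {F} (A : F.AffineChart)

theorem mono_scheme {T : Scheme.{u}} {t : T ⟶ Spec (CommRingCat.of k)} (g g' : T ⟶ A.X)
    (h : g ≫ A.str = t) (h' : g' ≫ A.str = t) (he : F.map g h A.elt = F.map g' h' A.elt) :
    g = g' := by
  refine (T.openCoverOfIsOpenCover (fun U : T.affineOpens => (U : T.Opens))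
    (.mk (iSup_affineOpens_eq_top T))).hom_ext _ _ fun (U : T.affineOpens) => ?_
  show (U : T.Opens).ι ≫ g = (U : T.Opens).ι ≫ g'
  have hU : IsAffineOpen (U : T.Opens) := U.2
  have key : affIncl t hU ≫ g = affIncl t hU ≫ g' := by
    refine A.mono _ _ _ (by rw [Category.assoc, h, affIncl_over])
      (by rw [Category.assoc, h', affIncl_over]) ?_
    rw [← F.map_map g (affIncl t hU) h (affIncl_over t hU),
      ← F.map_map g' (affIncl t hU) h' (affIncl_over t hU), he]
  rw [← hU.isoSpec_hom_fromSpec, Category.assoc, Category.assoc]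
  exact congrArg (hU.isoSpec.hom ≫ ·) key

/-- The openness criterion for an arbitrary test scheme. -/
theorem openness_scheme (hF : F.Glues) {T : Scheme.{u}} (t : T ⟶ Spec (CommRingCat.of k))
    (a : F.obj t) : ∃ V : T.Opens, ∀ {T' : Scheme.{u}} (f : T' ⟶ T), Set.range f ⊆ V ↔
      ∃ (g : T' ⟶ A.X) (h : g ≫ A.str = f ≫ t), F.map g h A.elt = F.map f rfl a := by
  choose V₀ hV₀ using fun U : T.affineOpens =>
    A.openness (Fun t U) (F.map (affIncl t U.2) (affIncl_over t U.2) a)
  refine ⟨⨆ U : T.affineOpens, U.2.fromSpec ''ᵁ (V₀ U), fun {T'} f => ⟨fun hf => ?_, ?_⟩⟩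
  · -- the local morphisms
    have hloc : ∀ p : T', ∃ U' : T'.Opens, p ∈ U' ∧ ∃ (g : U'.toScheme ⟶ A.X)
        (h : g ≫ A.str = U'.ι ≫ f ≫ t), F.map g h A.elt = F.map U'.ι rfl (F.map f rfl a) := by
      intro p
      obtain ⟨U, hpU⟩ := TopologicalSpace.Opens.mem_iSup.mp (hf ⟨p, rfl⟩)
      obtain ⟨_, ⟨U', hU', rfl⟩, hpU', hU'V⟩ := T'.isBasis_affineOpens.exists_subset_of_mem_open
        (show p ∈ f ⁻¹ᵁ (U.2.fromSpec ''ᵁ (V₀ U)) from hpU) (f ⁻¹ᵁ (U.2.fromSpec ''ᵁ (V₀ U))).isOpen
      have hle : U' ≤ f ⁻¹ᵁ (U : T.Opens) := fun q hq =>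
        ((U.2.fromSpec.image_le_opensRange (V₀ U)).trans U.2.opensRange_fromSpec.le) (hU'V hq)
      replace hU' : IsAffineOpen U' := hU'
      let φ := funAppLE t (f ≫ t) f rfl hle
      have hφ := specHom_funAppLE t (f ≫ t) f rfl U.2 hU' hle
      have hrange : Set.range (specHom φ) ⊆ V₀ U := by
        rintro _ ⟨x, rfl⟩
        have hx : affIncl (f ≫ t) hU' x ∈ U' :=
          hU'.opensRange_fromSpec.le ⟨x, rfl⟩
        obtain ⟨z, hz, hzx⟩ := hU'V hx
        have hx' : U.2.fromSpec (specHom φ x) = U.2.fromSpec z :=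
          (congrArg (fun m : Spec (CommRingCat.of (Fun (f ≫ t) U')) ⟶ T => m x) hφ).trans hzx.symm
        exact (U.2.fromSpec.isOpenEmbedding.injective hx') ▸ hz
      obtain ⟨g, hg, hga⟩ := (hV₀ U _ φ).mp hrange
      refine ⟨U', hpU', hU'.isoSpec.hom ≫ g, ?_, ?_⟩
      · refine ((Category.assoc _ _ _).trans (congrArg (hU'.isoSpec.hom ≫ ·) hg)).trans ?_
        rw [← affIncl_over (f ≫ t) hU']
        exact (Category.assoc _ _ _).symm.trans
          (congrArg (· ≫ f ≫ t) hU'.isoSpec_hom_fromSpec)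
      · refine (F.map_map g hU'.isoSpec.hom hg
            (by rw [← affIncl_over (f ≫ t) hU', ← Category.assoc]
                exact congrArg (· ≫ f ≫ t) hU'.isoSpec_hom_fromSpec) A.elt).symm.trans ?_
        rw [hga, F.map_map, F.map_map, F.map_map]
        refine F.map_congr ?_ _ _ a
        rw [Category.assoc, hφ, ← Category.assoc]
        exact congrArg (· ≫ f) hU'.isoSpec_hom_fromSpec
    choose U' hpU' g hg hga using hloc
    -- glue them
    let 𝒰 := T'.openCoverOfIsOpenCover U' (.mk (eq_top_iff.mpr fun p _ =>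
      TopologicalSpace.Opens.mem_iSup.mpr ⟨p, hpU' p⟩))
    have hcompat : ∀ p q : T', pullback.fst (U' p).ι (U' q).ι ≫ g p =
        pullback.snd (U' p).ι (U' q).ι ≫ g q := by
      intro p q
      refine A.mono_scheme (t := pullback.fst (U' p).ι (U' q).ι ≫ (U' p).ι ≫ f ≫ t) _ _
        ((Category.assoc _ _ _).trans (congrArg (pullback.fst (U' p).ι (U' q).ι ≫ ·) (hg p))) ?_ ?_
      · exact ((Category.assoc _ _ _).trans
          (congrArg (pullback.snd (U' p).ι (U' q).ι ≫ ·) (hg q))).trans
            (((Category.assoc _ _ _).symm.trans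
              (congrArg (· ≫ f ≫ t) pullback.condition.symm)).trans (Category.assoc _ _ _))
      · rw [← F.map_map (g p) (pullback.fst (U' p).ι (U' q).ι) (hg p) rfl,
          ← F.map_map (g q) (pullback.snd (U' p).ι (U' q).ι) (hg q)
            (by rw [← Category.assoc, ← Category.assoc]
                exact congrArg (fun m => (m ≫ f) ≫ t) pullback.condition.symm),
          hga, hga, F.map_map, F.map_map, F.map_map, F.map_map]
        exact F.map_congr (congrArg (· ≫ f) (pullback.condition (f := (U' p).ι) (g := (U' q).ι))) _ _ _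
    refine ⟨𝒰.glueMorphisms g hcompat, ?_, ?_⟩
    · refine 𝒰.hom_ext _ _ fun p => ?_
      exact ((Category.assoc _ _ _).symm.trans
        (congrArg (· ≫ A.str) (𝒰.ι_glueMorphisms g hcompat p))).trans (hg p)
    · refine hF.sep (f ≫ t) U' (fun p => ⟨p, hpU' p⟩) _ _ fun p => ?_
      rw [F.map_map]
      exact (F.map_congr (𝒰.ι_glueMorphisms g hcompat p) _ (hg p) _).trans (hga p)
  · rintro ⟨g, h, hga⟩ _ ⟨p, rfl⟩
    obtain ⟨_, ⟨U, hU, rfl⟩, hpU, -⟩ :=
      T.isBasis_affineOpens.exists_subset_of_mem_open (Set.mem_univ (f p)) isOpen_univ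
    obtain ⟨_, ⟨U', hU', rfl⟩, hpU', hle⟩ :=
      T'.isBasis_affineOpens.exists_subset_of_mem_open (show p ∈ f ⁻¹ᵁ U from hpU)
        (f ⁻¹ᵁ U).isOpen
    let φ := funAppLE t (f ≫ t) f rfl (U := U) (U' := U') hle
    have hφ := specHom_funAppLE t (f ≫ t) f rfl hU hU' hle
    have hr : Set.range (specHom φ) ⊆ V₀ ⟨U, hU⟩ := by
      refine (hV₀ ⟨U, hU⟩ _ φ).mpr ⟨affIncl (f ≫ t) hU' ≫ g, ?_, ?_⟩
      · rw [Category.assoc, h, affIncl_over]
      · rw [← F.map_map g (affIncl (f ≫ t) hU') h (affIncl_over _ _), hga, F.map_map, F.map_map]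
        exact F.map_congr hφ.symm _ _ _
    obtain ⟨x, hx⟩ : p ∈ hU'.fromSpec.opensRange := hU'.opensRange_fromSpec.ge hpU'
    refine TopologicalSpace.Opens.mem_iSup.mpr ⟨⟨U, hU⟩, specHom φ x, hr ⟨x, rfl⟩, ?_⟩
    exact (congrArg (fun m : Spec (CommRingCat.of (Fun (f ≫ t) U')) ⟶ T => m x) hφ).trans
      (congrArg f hx)

/-- **A chart from affine data.** -/
def toChart (hF : F.Glues) : F.Chart where
  X := A.X
  str := A.str
  elt := A.elt
  mono := A.mono_scheme
  openness := A.openness_scheme hF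

end AffineChart

/-- Coverage by charts may be checked on points valued in algebraically closed fields. -/
theorem cover_of_isAlgClosed {ι : Type u} (Ch : ι → F.Chart)
    (hcov : ∀ (K : Type u) [Field K] [IsAlgClosed K] [Algebra k K]
      (a : F.obj (specAlg (k := k) K)), ∃ (i : ι) (g : Spec (CommRingCat.of K) ⟶ (Ch i).X)
        (h : g ≫ (Ch i).str = specAlg (k := k) K), F.map g h (Ch i).elt = a)
    {T : Scheme.{u}} (t : T ⟶ Spec (CommRingCat.of k)) (a : F.obj t) (p : T) :
    ∃ (i : ι) (T' : Scheme.{u}) (f : T' ⟶ T) (q : T') (g : T' ⟶ (Ch i).X)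
      (h : g ≫ (Ch i).str = f ≫ t),
      f q = p ∧ F.map g h (Ch i).elt = F.map f rfl a := by
  let K : Type u := AlgebraicClosure (T.residueField p)
  let f : Spec (CommRingCat.of K) ⟶ T :=
    Spec.map (CommRingCat.ofHom (algebraMap (T.residueField p) K)) ≫ T.fromSpecResidueField p
  let _ : Algebra k K := (Spec.preimage (f ≫ t)).hom.toAlgebra
  have hK : f ≫ t = specAlg (k := k) K := (Spec.map_preimage (f ≫ t)).symm
  obtain ⟨i, g, h, hg⟩ := hcov K (F.map f hK a)
  refine ⟨i, _, f, default, g, h.trans hK.symm, ?_, ?_⟩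
  · exact T.fromSpecResidueField_apply p _
  · have h1 := congrArg (F.map (𝟙 _) ((Category.id_comp _).trans hK.symm)) hg
    rw [F.map_map, F.map_map] at h1
    exact ((F.map_congr (Category.id_comp g).symm _ _ _).trans h1).trans
      (F.map_congr (Category.id_comp f) _ _ _)

end OverFunctor

/-- The value of `subPicFunctor` along a map of `k`-algebras. -/
theorem subPicFunctor_map_specHom {C : Scheme.{u}} {c : C ⟶ Spec (CommRingCat.of k)}
    {ε : SchemeHomOver (𝟙 (Spec (CommRingCat.of k))) c} (P : SubPicCondition c ε) {R S : Type u}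
    [CommRing R] [Algebra k R] [CommRing S] [Algebra k S] (φ : R →ₐ[k] S)
    (ξ : (subPicFunctor P).obj (specAlg (k := k) R)) :
    ((subPicFunctor P).map (specHom φ) (specHom_specAlg φ) ξ).1 =
      Pic.comap (crMap c R S φ) ξ.1 :=
  rfl

end Fermat.Agent.Jacobian
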