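import Fermat.Agent.Jacobian.Relative
import Fermat.Agent.Jacobian.Sheafy
import Mathlib.AlgebraicGeometry.Morphisms.Proper
import Mathlib.AlgebraicGeometry.Morphisms.Flat
import Mathlib.FieldTheory.IsAlgClosed.Basic

/-!
# Functions on `C ×ₖ T` over opens of `T`

For a proper integral `C` over an algebraically closed field `k`, functions on the preimage in
`C ×ₖ T` of an open `V` of `T` are the functions on `V`.
-/

set_option autoImplicit false

noncomputable section

universe u

open CategoryTheory CategoryTheory.Limits AlgebraicGeometry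

namespace Fermat.Agent.Jacobian

variable {k : Type u} [Field k] [IsAlgClosed k] {C : Scheme.{u}}
  (c : C ⟶ Spec (CommRingCat.of k)) [IsProper c] [IsIntegral C]

/-- The global functions of a proper integral scheme over an algebraically closed field. -/
theorem bijective_appTop : Function.Bijective c.appTop.hom := by
  have hfin : (((Scheme.ΓSpecIso (CommRingCat.of k)).inv ≫ c.appTop).hom).Finite := by
    rw [CommRingCat.hom_comp]
    exact (finite_appTop_of_universallyClosed k c).comp (RingHom.Finite.of_surjective _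
      (Scheme.ΓSpecIso (CommRingCat.of k)).symm.commRingCatIsoToRingEquiv.surjective)
  let φ : k →+* Γ(C, ⊤) := ((Scheme.ΓSpecIso (CommRingCat.of k)).inv ≫ c.appTop).hom
  have hφ : Function.Bijective φ := by
    let := φ.toAlgebra
    have : Module.Finite k Γ(C, ⊤) := hfin
    exact IsAlgClosed.algebraMap_bijective_of_isIntegral
  exact (Function.Bijective.of_comp_iff (c.appTop.hom : Γ(Spec (CommRingCat.of k), ⊤) → Γ(C, ⊤))
    (Scheme.ΓSpecIso (CommRingCat.of k)).symm.commRingCatIsoToRingEquiv.bijective).mp hφ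

/-- A morphism to the spectrum of a field is flat. -/
theorem flat_of_field {K : Type u} [Field K] {T : Scheme.{u}}
    (t : T ⟶ Spec (CommRingCat.of K)) : Flat t := by
  rw [HasRingHomProperty.iff_of_source_openCover (P := @Flat) T.affineCover]
  intro i
  let := ((T.affineCover.f i ≫ t).appTop).hom.toAlgebra
  have hF : IsField Γ(Spec (CommRingCat.of K), ⊤) :=
    MulEquiv.isField (Field.toIsField K)
      (Scheme.ΓSpecIso (CommRingCat.of K)).commRingCatIsoToRingEquiv.toMulEquiv
  let := hF.toField
  exact (inferInstance : Module.Flat Γ(Spec (CommRingCat.of K), ⊤) Γ(T.affineCover.X i, ⊤))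

variable {T : Scheme.{u}} (t : T ⟶ Spec (CommRingCat.of k))

/-- Functions on the preimage of an affine open of the base. -/
theorem bijective_pb_snd_of_isAffineOpen {V : T.Opens} (hV : IsAffineOpen V) :
    Function.Bijective
      (pb (pullback.snd c t) (le_refl ((pullback.snd c t) ⁻¹ᵁ V))) := by
  have : Flat t := flat_of_field t
  have : CompactSpace C := QuasiCompact.compactSpace_of_compactSpace c
  have : QuasiSeparatedSpace C := quasiSeparatedSpace_of_quasiSeparated c
  have hH : IsPullback (pullback.fst c t) (pullback.snd c t) c t := IsPullback.of_hasPullback c t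
  have hUY : (pullback.snd c t) ⁻¹ᵁ V =
      (pullback.fst c t) ⁻¹ᵁ (⊤ : C.Opens) ⊓ (pullback.snd c t) ⁻¹ᵁ V := by simp
  have hp := (isIso_pushoutSection_iff hH (US := ⊤) (UT := V) (UX := ⊤) le_top le_top hUY).mp
    (isIso_pushoutSection_of_isQuasiSeparated_of_flat_right hH le_top le_top hUY
      (isAffineOpen_top _) hV isCompact_univ isQuasiSeparated_univ)
  have : IsIso (c.appLE ⊤ ⊤ le_top) := by
    rw [ConcreteCategory.isIso_iff_bijective]
    have h := bijective_appTop c
    rwa [Scheme.Hom.appTop, Scheme.Hom.app_eq_appLE] at h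
  have h2 := hp.isIso_inr_of_isIso ‹_›
  exact (ConcreteCategory.isIso_iff_bijective _).mp h2

/-- **Functions on `C ×ₖ T` over an open of `T` are the functions on that open.** -/
theorem bijective_pb_snd (V : T.Opens) :
    Function.Bijective
      (pb (pullback.snd c t) (le_refl ((pullback.snd c t) ⁻¹ᵁ V))) := by
  let π := pullback.snd c t
  let O : {U : T.Opens // IsAffineOpen U ∧ U ≤ V} → T.Opens := fun U => U.1
  have hcov : ∀ p ∈ V, ∃ U, p ∈ O U := fun p hp => by
    obtain ⟨_, ⟨U, hU, rfl⟩, hpU, hUV⟩ :=
      T.isBasis_affineOpens.exists_subset_of_mem_open hp V.isOpen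
    exact ⟨⟨U, hU, hUV⟩, hpU⟩
  have hinj : ∀ W : T.Opens, W ≤ V → Function.Injective (pb π (le_refl (π ⁻¹ᵁ W))) := by
    intro W hW a b hab
    refine eq_of_cover (ι := {U : T.Opens // IsAffineOpen U ∧ U ≤ W}) (fun U => U.1)
      (fun U => U.2.2) (fun p hp => ?_) fun U => (bijective_pb_snd_of_isAffineOpen c t U.2.1).1 ?_
    · obtain ⟨_, ⟨U, hU, rfl⟩, hpU, hUW⟩ :=
        T.isBasis_affineOpens.exists_subset_of_mem_open hp W.isOpen
      exact ⟨⟨U, hU, hUW⟩, hpU⟩
    · have := congrArg (res (π.preimage_mono U.2.2)) hab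
      rw [res_pb, res_pb] at this
      rw [pb_res, pb_res]
      exact this
  refine ⟨hinj V le_rfl, fun s => ?_⟩
  choose a ha using fun U : {U : T.Opens // IsAffineOpen U ∧ U ≤ V} =>
    (bijective_pb_snd_of_isAffineOpen c t U.2.1).2 (res (π.preimage_mono U.2.2) s)
  have hcomp : ∀ i j (W : T.Opens) (hi : W ≤ O i) (hj : W ≤ O j),
      res hi (a i) = res hj (a j) := by
    intro i j W hi hj
    refine hinj W (hi.trans i.2.2) ?_
    have h1 := congrArg (res (π.preimage_mono hi)) (ha i)
    have h2 := congrArg (res (π.preimage_mono hj)) (ha j)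
    rw [res_res, res_pb] at h1 h2
    rw [pb_res, pb_res]
    exact h1.trans h2.symm
  refine ⟨glue O (fun U => U.2.2) hcov a hcomp, ?_⟩
  refine eq_of_cover (fun U => π ⁻¹ᵁ O U) (fun U => π.preimage_mono U.2.2)
    (fun z hz => hcov (π z) hz) fun U => ?_
  rw [res_pb, ← ha U]
  have := congrArg (pb π (le_refl (π ⁻¹ᵁ O U))) (res_glue O (fun U => U.2.2) hcov a hcomp U)
  rw [pb_res] at this
  exact this

end Fermat.Agent.Jacobian
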