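import Fermat.Agent.Jacobian.Descent
import Fermat.Agent.Jacobian.Represent.Functions
import Fermat.Agent.Jacobian.Represent.PicFunctor
import Mathlib.AlgebraicGeometry.PullbackCarrier

/-!
# Zariski descent of rigidified classes for a curve over an algebraically closed field
-/

set_option autoImplicit false

noncomputable section

universe u

open CategoryTheory CategoryTheory.Limits AlgebraicGeometry AlgebraicGeometry.RelPicard
  NeronModelInfra

namespace Fermat.Agent.Jacobian

variable {k : Type u} [Field k] {C : Scheme.{u}} (c : C ⟶ Spec (CommRingCat.of k))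

section Curve

variable [IsAlgClosed k] [IsProper c] [IsIntegral C]

/-- Units on `C ×ₖ V` come from units on `V`. -/
theorem unitsDescend_snd {T : Scheme.{u}} (t : T ⟶ Spec (CommRingCat.of k)) :
    UnitsDescend (pullback.snd c t) := by
  intro V a ha
  obtain ⟨b, rfl⟩ := (bijective_pb_snd c t V).2 a
  obtain ⟨d, hd⟩ := ha.exists_right_inv
  obtain ⟨b', rfl⟩ := (bijective_pb_snd c t V).2 d
  exact ⟨b, IsUnit.of_mul_eq_one b' ((bijective_pb_snd c t V).1 (by rw [map_mul, hd, map_one])),
    rfl⟩

end Curve

theorem baseChangeSnd_fst' {T T' : Scheme.{u}} {t : T ⟶ Spec (CommRingCat.of k)}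
    {t' : T' ⟶ Spec (CommRingCat.of k)} (ψ : SchemeHomOver t' t) :
    baseChangeSnd c ψ ≫ pullback.fst c t = pullback.fst c t' := by
  simp only [baseChangeSnd, pullback.lift_fst, Category.comp_id]

theorem baseChangeSnd_snd' {T T' : Scheme.{u}} {t : T ⟶ Spec (CommRingCat.of k)}
    {t' : T' ⟶ Spec (CommRingCat.of k)} (ψ : SchemeHomOver t' t) :
    baseChangeSnd c ψ ≫ pullback.snd c t = pullback.snd c t' ≫ ψ.1 := by
  simp only [baseChangeSnd, pullback.lift_snd]

theorem rigSection_snd {T : Scheme.{u}} (t : T ⟶ Spec (CommRingCat.of k))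
    (ε : SchemeHomOver (𝟙 (Spec (CommRingCat.of k))) c) :
    rigSection c t ε ≫ pullback.snd c t = 𝟙 T :=
  pullback.lift_snd _ _ _

/-- The base change of an open of the base. -/
abbrev openBaseChange {T : Scheme.{u}} (t : T ⟶ Spec (CommRingCat.of k)) (U : T.Opens) :
    pullback c (U.ι ≫ t) ⟶ pullback c t :=
  baseChangeSnd c (⟨U.ι, rfl⟩ : SchemeHomOver (U.ι ≫ t) t)

instance isOpenImmersion_openBaseChange {T : Scheme.{u}} (t : T ⟶ Spec (CommRingCat.of k))
    (U : T.Opens) : IsOpenImmersion (openBaseChange c t U) := by
  unfold openBaseChange baseChangeSnd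
  infer_instance

theorem opensRange_openBaseChange {T : Scheme.{u}} (t : T ⟶ Spec (CommRingCat.of k))
    (U : T.Opens) : (openBaseChange c t U).opensRange = (pullback.snd c t) ⁻¹ᵁ U := by
  refine TopologicalSpace.Opens.ext ?_
  show Set.range (openBaseChange c t U) = _
  unfold openBaseChange baseChangeSnd
  rw [AlgebraicGeometry.Scheme.Pullback.range_map]
  simp

/-- **Rigidified classes descend along Zariski covers of the base.** -/
theorem picDescent [IsAlgClosed k] [IsProper c] [IsIntegral C]
    (ε : SchemeHomOver (𝟙 (Spec (CommRingCat.of k))) c) : PicDescent c ε where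
  sep t ι U hU ξ η hξ hη h :=
    Pic.eq_of_locally (rigSection_snd c t ε) (unitsDescend_snd c t) U hU
      (fun i => openBaseChange c t (U i)) (fun i => opensRange_openBaseChange c t (U i))
      ξ η hξ hη h
  glue t ι U hU a hrig hagree := by
    obtain ⟨η, ⟨h1, h2⟩, -⟩ := Pic.exists_glue (rigSection_snd c t ε) (unitsDescend_snd c t)
      (V := U) hU (fun i => openBaseChange c t (U i)) (fun i => opensRange_openBaseChange c t (U i))
      (fun i => rigSection c ((U i).ι ≫ t) ε)
      (fun i => rigSection_baseChangeSnd c ε _) a hrig (by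
      intro i i' X m m' hm
      let g : X ⟶ U i := m ≫ pullback.snd _ _
      let g' : X ⟶ U i' := m' ≫ pullback.snd _ _
      have hgg : g ≫ (U i).ι = g' ≫ (U i').ι := by
        have := congrArg (· ≫ pullback.snd c t) hm
        simp only [Category.assoc, openBaseChange, baseChangeSnd_snd'] at this
        simpa only [g, g', Category.assoc] using this
      have hfst : m ≫ pullback.fst _ _ = m' ≫ pullback.fst _ _ := by
        have := congrArg (· ≫ pullback.fst c t) hm
        simpa only [Category.assoc, openBaseChange, baseChangeSnd_fst'] using this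
      let w : X ⟶ Spec (CommRingCat.of k) := g ≫ (U i).ι ≫ t
      have hg' : g' ≫ (U i').ι ≫ t = w := by
        simp only [w]
        rw [← Category.assoc, ← hgg, Category.assoc]
      let n : X ⟶ pullback c w := pullback.lift (m ≫ pullback.fst _ _) (𝟙 X) (by
        simp only [w, g, Category.assoc, pullback.condition, Category.id_comp])
      have hn : n ≫ baseChangeSnd c (⟨g, rfl⟩ : SchemeHomOver w ((U i).ι ≫ t)) = m := by
        apply pullback.hom_ext
        · rw [Category.assoc, baseChangeSnd_fst', pullback.lift_fst]
        · rw [Category.assoc, baseChangeSnd_snd', ← Category.assoc, pullback.lift_snd,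
            Category.id_comp]
      have hn' : n ≫ baseChangeSnd c (⟨g', hg'⟩ : SchemeHomOver w ((U i').ι ≫ t)) = m' := by
        apply pullback.hom_ext
        · rw [Category.assoc, baseChangeSnd_fst', pullback.lift_fst, hfst]
        · rw [Category.assoc, baseChangeSnd_snd', ← Category.assoc, pullback.lift_snd,
            Category.id_comp]
      rw [← hn, ← hn', Pic.comap_comp, Pic.comap_comp, hagree i i' w g g' rfl hg' hgg])
    exact ⟨η, h1, h2⟩

end Fermat.Agent.Jacobian
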