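import Fermat.Agent.Jacobian.Curve.Chart
import Fermat.Agent.Jacobian.Relative
import Fermat.Agent.Jacobian.Divisor.EffDiv
import Fermat.Agent.Jacobian.Transfer
import Fermat.Prelude.Def_AlgebraicGeometry_RelativePicardFunctor

/-!
# Charts adapted to a base point
-/

set_option autoImplicit false

noncomputable section

universe u

open CategoryTheory CategoryTheory.Limits AlgebraicGeometry AlgebraicGeometry.RelPicard
  NeronModelInfra nonZeroDivisors

namespace Fermat.Agent.Jacobian

variable {k : Type u} [CommRing k] {C : Scheme.{u}} (c : C ⟶ Spec (CommRingCat.of k))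
  (ε : SchemeHomOver (𝟙 (Spec (CommRingCat.of k))) c)

/-- The base point over `R`. -/
abbrev sigR (R : Type u) [CommRing R] [Algebra k R] : Spec (CommRingCat.of R) ⟶ CR c R :=
  rigSection c (specAlg (k := k) R) ε

lemma sigR_prC (R : Type u) [CommRing R] [Algebra k R] :
    sigR c ε R ≫ prC c R = specAlg (k := k) R ≫ ε.1 :=
  pullback.lift_fst _ _ _

lemma sigR_prR (R : Type u) [CommRing R] [Algebra k R] :
    sigR c ε R ≫ prR c R = 𝟙 _ :=
  pullback.lift_snd _ _ _

/-- A two-chart presentation with `U₀` missing the base point, which has a local equation on a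
neighbourhood `W` inside `U₁`. -/
structure EpsChart : Type u extends CurveChart c where
  W : C.Opens
  affineW : IsAffineOpen W
  W_le : W ≤ U₁
  cover_W : U₀ ⊔ W = ⊤
  eps_U₀ : ε.1 ⁻¹ᵁ U₀ = ⊥
  compl_U₀ : ∀ z : C, z ∉ U₀ → z ∈ Set.range ε.1
  eps_W : ε.1 ⁻¹ᵁ W = ⊤
  π : Γ(C, W)
  π_eps : pb ε.1 (V := ⊤) eps_W.ge π = 0
  π_gen : ∀ a : Γ(C, W), pb ε.1 (V := ⊤) eps_W.ge a = 0 → π ∣ a
  π_regular : ∀ (V : C.Opens) (h : V ≤ W), res h π ∈ Γ(C, V)⁰
  π_unit : IsUnit (res (inf_le_right : U₀ ⊓ W ≤ W) π)

namespace EpsChart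

variable {c ε} (E : EpsChart c ε)

open scoped Classical in
/-- The base point as an effective divisor. -/
def epsDiv : EffDiv C where
  V z := if z ∈ E.U₀ then E.U₀ else E.W
  mem z := by
    split_ifs with h
    · exact h
    · rcases (E.cover_W.ge (Set.mem_univ z) : z ∈ E.U₀ ⊔ E.W) with h' | h'
      · exact absurd h' h
      · exact h'
  f z := if h : z ∈ E.U₀ then 1 else res (le_of_eq (if_neg h)) E.π
  dvd x y V hx hy := by
    by_cases h : y ∈ E.U₀
    · rw [dif_pos h, map_one]; exact one_dvd _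
    · rw [dif_neg h, res_res]
      by_cases h' : x ∈ E.U₀
      · refine IsUnit.dvd ?_
        have hle : V ≤ E.U₀ ⊓ E.W := le_inf (hx.trans (le_of_eq (if_pos h')))
          (hy.trans (le_of_eq (if_neg h)))
        have := E.π_unit.map (res hle)
        rwa [res_res] at this
      · rw [dif_neg h', res_res]
  regular x V h := by
    by_cases h' : x ∈ E.U₀
    · rw [dif_pos h', map_one]; exact one_mem _
    · rw [dif_neg h', res_res]; exact E.π_regular _ _

/-- The class of `O(ε)`. -/
def Oeps : Pic C := E.epsDiv.cls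

/-- The pulled-back line bundle `O(ε)` on `C_R`. -/
abbrev oepsR (R : Type u) [CommRing R] [Algebra k R] : LineCocycle (CR c R) :=
  E.epsDiv.cocycle.comap (prC c R)

/-- Its canonical section. -/
def canonR (R : Type u) [CommRing R] [Algebra k R] (V : (CR c R).Opens) : (E.oepsR R).Sect V :=
  LineCocycle.Sect.comap (prC c R) (W := ⊤) (by simp) (E.epsDiv.canon ⊤)

end EpsChart

end Fermat.Agent.Jacobian
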