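import Fermat.Agent.Jacobian.Properties.AlgEquivDegree

/-!
# Classes of the charts are algebraically equivalent to zero

Over an algebraically closed extension of the ground field, a class whose translate by a class of
degree `g - 1` has no cohomology has degree zero, hence is algebraically equivalent to zero.
-/

set_option autoImplicit false

noncomputable section

universe u

open CategoryTheory CategoryTheory.Limits AlgebraicGeometry AlgebraicGeometry.RelPicard
  NeronModelInfra

namespace Fermat.Agent.Jacobian

variable {k : Type u} [Field k] [IsAlgClosed k] {C : Scheme.{u}} [IsIntegral C]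
  {c : C ⟶ Spec (CommRingCat.of k)} [SmoothOfRelativeDimension 1 c] [LocallyOfFiniteType c]

namespace CurveChart

variable (D : CurveChart c) {K : Type u} [Field K] [IsAlgClosed K] [Algebra k K]

/-- On the base change to an algebraically closed field, algebraic equivalence to zero is degree
zero. -/
theorem picAlgEquivZero_prR_iff (ξ : Pic (CR c K)) :
    PicAlgEquivZero (prR c K) ξ ↔ (D.baseChange K).chiDeg ξ = 0 := by
  have : IsIntegral (CR c K) := isIntegral_CR c K
  have : SmoothOfRelativeDimension 1 (prR c K) :=
    (smoothOfRelativeDimension_isStableUnderBaseChange 1).of_isPullback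
      (IsPullback.of_hasPullback c (specAlg (k := k) K)) ‹_›
  rw [(D.baseChange K).picAlgEquivZero_iff_deg_eq_zero, deg_eq_chiDeg]

/-- A class with an acyclic translate by a class of degree `g - 1` is algebraically equivalent
to zero. -/
theorem picAlgEquivZero_of_acyclicClass {Etw : Pic C} (hE : D.deg Etw = (D.genus : ℤ) - 1)
    {ξ : Pic (CR c K)} (h : (D.baseChange K).AcyclicClass (ξ * Pic.comap (prC c K) Etw)) :
    PicAlgEquivZero (prR c K) ξ := by
  have : IsIntegral (CR c K) := isIntegral_CR c K
  have : SmoothOfRelativeDimension 1 (prR c K) :=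
    (smoothOfRelativeDimension_isStableUnderBaseChange 1).of_isPullback
      (IsPullback.of_hasPullback c (specAlg (k := k) K)) ‹_›
  refine (D.picAlgEquivZero_prR_iff ξ).2 (D.chiDeg_eq_zero_of_acyclicClass ?_ h ?_)
  · rw [← deg_eq_chiDeg, hE]
    show _ = -D.chi (1 : Pic C)
    rw [chi_one]
    ring
  · rw [← deg_eq_chiDeg, ← deg_eq_chiDeg, ← deg_eq_chiDeg, deg_mul]

end CurveChart

end Fermat.Agent.Jacobian
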