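import Fermat.Agent.Jacobian.Represent.Defs
import Fermat.Agent.Jacobian.Divisor.ChartDiv

/-!
# The class attached to a chart ideal

`chartClass Etw I = O(D_I) ⊗ (Etw ⊗ O(ε))⁻¹`: it is rigidified, compatible with base change, and
determines `I` when the global sections of `O(D_I)` are the scalar multiples of the canonical one.
-/

set_option autoImplicit false

noncomputable section

universe u

open CategoryTheory CategoryTheory.Limits AlgebraicGeometry AlgebraicGeometry.RelPicard
  NeronModelInfra TensorProduct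

namespace Fermat.Agent.Jacobian

section General

variable {X : Scheme.{u}}

/-- Line bundles on the spectrum of a field are trivial. -/
theorem pic_spec_field {K : Type u} [Field K] (ξ : Pic (Spec (CommRingCat.of K))) : ξ = 1 := by
  obtain ⟨L, rfl⟩ := Pic.mk_surjective ξ
  let p : Spec (CommRingCat.of K) := default
  haveI : Subsingleton (Spec (CommRingCat.of K)) :=
    inferInstanceAs (Subsingleton (PrimeSpectrum K))
  have htop : (⊤ : (Spec (CommRingCat.of K)).Opens) ≤ L.U p := fun z _ => by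
    rw [Subsingleton.elim z p]
    exact L.mem p
  refine Pic.mk_eq_one_iff.2 ⟨LineCocycle.Sect.single htop 1, fun x => ?_⟩
  rw [LineCocycle.Sect.at_single, map_one, mul_one]
  exact L.isUnit_tr _ _ _ _

namespace EffDiv

variable {D D' : EffDiv X}

/-- The canonical section is a frame where the equations are units. -/
theorem isFrame_canon {W : X.Opens}
    (h : ∀ x (V : X.Opens), V ≤ W → ∀ hV : V ≤ D.V x, IsUnit (D.eqn x hV)) :
    (D.canon W).IsFrame := fun x => by
  rw [at_canon]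
  exact h x _ inf_le_left _

/-- Membership in `Γ(W, O(D)⁻¹)` can be tested on any family of smaller neighbourhoods. -/
theorem mem_range_invToFun_of_cover {W : X.Opens} {a : Γ(X, W)} (O : X → X.Opens)
    (hmem : ∀ y, y ∈ O y) (hO : ∀ y, O y ≤ D.V y)
    (h : ∀ y, D.eqn y ((inf_le_right.trans (hO y)) : W ⊓ O y ≤ D.V y) ∣ res inf_le_left a) :
    a ∈ LinearMap.range (D.invToFun W) := by
  refine D.mem_range_invToFun.2 fun x => dvd_of_cover (fun y => (W ⊓ D.V x) ⊓ O y)
    (fun _ => inf_le_left) (fun z hz => ⟨z, hz, hmem z⟩) (fun V hV => ?_) fun y => ?_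
  · rw [res_eqn]; exact D.eqn_mem_nonZeroDivisors x _
  · rw [res_eqn, res_res]
    refine (D.eqn_dvd_eqn y x (inf_le_right.trans (hO y))
      (inf_le_left.trans inf_le_right)).trans ?_
    have := map_dvd (res (le_inf (inf_le_left.trans inf_le_left) inf_le_right :
      (W ⊓ D.V x) ⊓ O y ≤ W ⊓ O y)) (h y)
    rwa [res_eqn, res_res] at this

/-- If an isomorphism carries the canonical section of `D` to a unit multiple of that of `D'`, the
two divisors cut out the same functions. -/
theorem range_invToFun_eq_of_rel (e : LineCocycle.Rel D.cocycle D'.cocycle) (g : Γ(X, ⊤))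
    (hg : IsUnit g) (h : e.sectMap (D.canon ⊤) = g • D'.canon ⊤) (W : X.Opens) :
    LinearMap.range (D.invToFun W) = LinearMap.range (D'.invToFun W) := by
  have key : ∀ x, Associated (D.eqn x (e.leL x)) (D'.eqn x (e.leM x)) := by
    intro x
    have h1 := congrArg (fun s => s.at x (V := e.V x) le_top (e.leM x)) h
    simp only [LineCocycle.Rel.at_sectMap e (D.canon ⊤) x le_top le_rfl,
      LineCocycle.Sect.at_smul, at_canon] at h1
    have hu := hg.map (res (le_top : e.V x ≤ ⊤))
    refine ⟨(e.isUnit_unitAt x le_rfl).unit * hu.unit⁻¹, ?_⟩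
    refine hu.mul_left_cancel ?_
    rw [Units.val_mul, IsUnit.unit_spec, ← h1]
    rw [show res (le_top : e.V x ≤ ⊤) g *
        (D.eqn x (e.leL x) * (e.unitAt x le_rfl * (↑hu.unit⁻¹ : Γ(X, e.V x)))) =
      (res (le_top : e.V x ≤ ⊤) g * (↑hu.unit⁻¹ : Γ(X, e.V x))) *
        (e.unitAt x le_rfl * D.eqn x (e.leL x)) by ring, IsUnit.mul_val_inv, one_mul]
  refine le_antisymm ?_ ?_
  · rintro a ha
    refine mem_range_invToFun_of_cover e.V e.mem e.leM fun y => ?_
    have h1 := map_dvd (res (inf_le_right : W ⊓ e.V y ≤ e.V y)) (key y).symm.dvd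
    rw [res_eqn, res_eqn] at h1
    refine h1.trans ?_
    have h2 := map_dvd (res (le_inf inf_le_left (inf_le_right.trans (e.leL y)) :
      W ⊓ e.V y ≤ W ⊓ D.V y)) (D.mem_range_invToFun.1 ha y)
    rwa [res_eqn, res_res] at h2
  · rintro a ha
    refine mem_range_invToFun_of_cover e.V e.mem e.leL fun y => ?_
    have h1 := map_dvd (res (inf_le_right : W ⊓ e.V y ≤ e.V y)) (key y).dvd
    rw [res_eqn, res_eqn] at h1
    refine h1.trans ?_
    have h2 := map_dvd (res (le_inf inf_le_left (inf_le_right.trans (e.leM y)) :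
      W ⊓ e.V y ≤ W ⊓ D'.V y)) (D'.mem_range_invToFun.1 ha y)
    rwa [res_eqn, res_res] at h2

end EffDiv

end General

variable {k : Type u} [Field k] {C : Scheme.{u}} {c : C ⟶ Spec (CommRingCat.of k)}
  {ε : SchemeHomOver (𝟙 (Spec (CommRingCat.of k))) c}

namespace EpsChart

variable (E : EpsChart c ε) {R : Type u} [CommRing R] [Algebra k R]

theorem preimage_sigR_overU₀ : sigR c ε R ⁻¹ᵁ overU c R E.U₀ = ⊥ := by
  change (sigR c ε R ≫ prC c R) ⁻¹ᵁ E.U₀ = ⊥
  rw [sigR_prC]
  change specAlg (k := k) R ⁻¹ᵁ (ε.1 ⁻¹ᵁ E.U₀) = ⊥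
  rw [E.eps_U₀]
  rfl

theorem top_le_preimage_sigR {W : (CR c R).Opens} (hW : overU c R E.U₀ ⊔ W = ⊤) :
    (⊤ : (Spec (CommRingCat.of R)).Opens) ≤ sigR c ε R ⁻¹ᵁ W := fun z _ => by
  have h : sigR c ε R z ∈ overU c R E.U₀ ⊔ W := by rw [hW]; trivial
  refine h.resolve_left fun h' => ?_
  have h'' : z ∈ sigR c ε R ⁻¹ᵁ overU c R E.U₀ := h'
  rw [E.preimage_sigR_overU₀] at h''
  exact h''

theorem pb_sigR_scalar_top {V : (CR c R).Opens} (hV : (⊤ : (Spec (CommRingCat.of R)).Opens) ≤
    sigR c ε R ⁻¹ᵁ V) (r : R) :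
    pb (sigR c ε R) hV (scalar c R V r) =
      (Scheme.ΓSpecIso (CommRingCat.of R)).inv.hom r := by
  change pb (sigR c ε R) hV (pb (prR c R) (U := ⊤) (V := V) le_top _) = _
  rw [pb_pb, pb_congr (sigR_prR c ε R), pb_id, res_refl]

variable (I : Ideal (R ⊗[k] Fun c E.U₀)) [Module.Finite R ((R ⊗[k] Fun c E.U₀) ⧸ I)]
  [Module.Projective R ((R ⊗[k] Fun c E.U₀) ⧸ I)]
  (H : FibresLocallyPrincipal k (Fun c E.U₀))

/-- `O(D_I) ⊗ (Etw ⊗ O(ε))⁻¹`. -/
def chartClass (Etw : Pic C) : Pic (CR c R) :=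
  E.toCurveChart.chartCls I H * (Pic.comap (prC c R) (Etw * E.Oeps))⁻¹

theorem comap_sigR_chartCls : Pic.comap (sigR c ε R) (E.toCurveChart.chartCls I H) = 1 := by
  obtain ⟨W, hW, hu⟩ := E.toCurveChart.exists_isUnit_eqn I H
  rw [CurveChart.chartCls, EffDiv.cls, Pic.comap_mk, Pic.mk_eq_one_iff]
  exact ⟨_, (EffDiv.isFrame_canon fun x V hV hVx => hu x V hV hVx).comap (sigR c ε R)
    (E.top_le_preimage_sigR hW)⟩

/-- The class is rigidified. -/
theorem comap_sigR_chartClass (Etw : Pic C) :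
    Pic.comap (sigR c ε R) (E.chartClass I H Etw) = 1 := by
  rw [chartClass, map_mul, map_inv, E.comap_sigR_chartCls I H, one_mul, ← Pic.comap_comp,
    sigR_prC, Pic.comap_comp, pic_spec_field (Pic.comap ε.1 _), map_one, inv_one]

/-- The class commutes with base change. -/
theorem comap_chartClass (Etw : Pic C) {S : Type u} [CommRing S] [Algebra k S] (φ : R →ₐ[k] S)
    (J : Ideal (S ⊗[k] Fun c E.U₀)) [Module.Finite S ((S ⊗[k] Fun c E.U₀) ⧸ J)]
    [Module.Projective S ((S ⊗[k] Fun c E.U₀) ⧸ J)]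
    (hJ : I.map (E.toCurveChart.baseChangeHom φ) = J) :
    Pic.comap (crMap c R S φ) (E.chartClass I H Etw) = E.chartClass J H Etw := by
  rw [chartClass, chartClass, map_mul, map_inv, ← Pic.comap_comp, crMap_prC]
  congr 1
  exact (E.toCurveChart.cls_divisor_map I φ J hJ H).symm

theorem chartClass_eq_iff (Etw : Pic C) (ξ : Pic (CR c R)) :
    E.chartClass I H Etw = ξ ↔
      E.toCurveChart.chartCls I H = ξ * Pic.comap (prC c R) Etw * Pic.mk (E.oepsR R) := by
  rw [chartClass, mul_inv_eq_iff_eq_mul, map_mul, mul_assoc]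
  rfl

/-- The class determines the ideal, when `O(D_I)` has only the scalar sections. -/
theorem eq_of_chartClass_eq (Etw : Pic C) (J : Ideal (R ⊗[k] Fun c E.U₀))
    [Module.Finite R ((R ⊗[k] Fun c E.U₀) ⧸ J)]
    [Module.Projective R ((R ⊗[k] Fun c E.U₀) ⧸ J)]
    (hscal : ∀ s : (E.toCurveChart.divisor I H).cocycle.Sect ⊤,
      ∃ r : R, s = scalar c R ⊤ r • (E.toCurveChart.divisor I H).canon ⊤)
    (h : E.chartClass I H Etw = E.chartClass J H Etw) : I = J := by
  set DI := E.toCurveChart.divisor I H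
  set DJ := E.toCurveChart.divisor J H
  have hIJ : DJ.cls = DI.cls := (mul_right_cancel h).symm
  obtain ⟨e⟩ := Pic.mk_eq_mk.1 hIJ
  obtain ⟨r, hr⟩ := hscal (e.sectMap (DJ.canon ⊤))
  obtain ⟨WI, hWI, huI⟩ := E.toCurveChart.exists_isUnit_eqn I H
  obtain ⟨WJ, hWJ, huJ⟩ := E.toCurveChart.exists_isUnit_eqn J H
  have hr' : IsUnit r := by
    set W := WI ⊓ WJ
    have hsW : (⊤ : (Spec (CommRingCat.of R)).Opens) ≤ sigR c ε R ⁻¹ᵁ W :=
      le_inf (E.top_le_preimage_sigR hWI) (E.top_le_preimage_sigR hWJ)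
    have hu : IsUnit (scalar c R W r) := by
      refine isUnit_of_cover (fun x => W ⊓ e.V x) (fun _ => inf_le_left)
        (fun z hz => ⟨z, hz, e.mem z⟩) fun x => ?_
      have h1 := congrArg (fun s => s.at x (V := W ⊓ e.V x) le_top
        (inf_le_right.trans (e.leM x))) hr
      simp only [LineCocycle.Rel.at_sectMap e (DJ.canon ⊤) x le_top inf_le_right,
        LineCocycle.Sect.at_smul, EffDiv.at_canon, res_scalar] at h1
      have h2 := (e.isUnit_unitAt x (V := W ⊓ e.V x) inf_le_right).mul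
        (huJ x _ (inf_le_left.trans inf_le_right) (inf_le_right.trans (e.leL x)))
      rw [h1] at h2
      rw [res_scalar]
      exact (IsUnit.mul_iff.1 h2).1
    have := hu.map (pb (sigR c ε R) hsW)
    rw [pb_sigR_scalar_top (c := c) (ε := ε) hsW] at this
    have h3 := this.map (Scheme.ΓSpecIso (CommRingCat.of R)).hom.hom
    have h4 : (Scheme.ΓSpecIso (CommRingCat.of R)).hom.hom
        ((Scheme.ΓSpecIso (CommRingCat.of R)).inv.hom r) = r :=
      congr($((Scheme.ΓSpecIso (CommRingCat.of R)).inv_hom_id) r)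
    rwa [h4] at h3
  have hrange := EffDiv.range_invToFun_eq_of_rel e (scalar c R ⊤ r) (hr'.map _) hr
    (overU c R E.U₀)
  rw [CurveChart.range_invToFun_divisor, CurveChart.range_invToFun_divisor] at hrange
  ext a
  rw [← E.toCurveChart.mem_idealOn I, ← E.toCurveChart.mem_idealOn J, hrange]

end EpsChart

end Fermat.Agent.Jacobian
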