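import Fermat.Agent.Jacobian.Represent.SectQuotient
import Fermat.Agent.Jacobian.Cech.ChartCR
import Fermat.Agent.Jacobian.Cech.Acyclic
import Fermat.Agent.Jacobian.Divisor.ChartDiv
import Fermat.Agent.Jacobian.Divisor.Chart

/-!
# The chart ideal of a section of a line bundle on `C_R`

For `N` on `C_R` with `H¹ = 0` and a section `s` spanning `H⁰`, a frame near the complement of
`U₀`, the ideal `secIdeal s ⊆ R ⊗ Γ(C, U₀)` has finite projective quotient, of rank the dimension
`g` of `H¹(C, 𝒪)`, commutes with base change, and its divisor has the class of `N`.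
-/

set_option autoImplicit false

noncomputable section

universe u

open CategoryTheory AlgebraicGeometry TensorProduct

namespace Fermat.Agent.Jacobian

section H1O

variable {R : Type u} [CommRing R] {X : Scheme.{u}} {p : X ⟶ Spec (CommRingCat.of R)}

/-- Sections of the trivial cocycle are functions, linearly over the base. -/
def secOneEquiv (U : X.Opens) : Sec p LineCocycle.one U ≃ₗ[R] Fun p U :=
  { (LineCocycle.oneEquiv (W := U)).toAddEquiv with
    map_smul' := fun a s => (LineCocycle.oneEquiv (W := U)).map_smul (baseHom p U a) s }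

lemma secOneEquiv_resLin {U V : X.Opens} (h : V ≤ U) (x : Sec p LineCocycle.one U) :
    secOneEquiv V (Sec.resLin h x) = funRes p h (secOneEquiv U x) := by
  refine (LineCocycle.oneEquiv (W := V)).symm.injective ?_
  refine ((LineCocycle.oneEquiv (W := V)).symm_apply_apply _).trans ?_
  refine LineCocycle.Sect.ext' fun y => ?_
  have hy : V ⊓ (LineCocycle.one : LineCocycle X).U y ≤ U := inf_le_left.trans h
  refine (LineCocycle.Sect.at_restrict h x y inf_le_left inf_le_right).trans ?_
  refine Eq.trans ?_ (LineCocycle.at_oneEquiv_symm _ y _ _).symm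
  show _ = res inf_le_left (res h (LineCocycle.oneVal (show LineCocycle.one.Sect U from x)))
  rw [res_res]
  exact (LineCocycle.res_oneVal (show LineCocycle.one.Sect U from x) y _ _).symm

namespace CurveChart

variable (D : CurveChart p)

/-- The two descriptions of `H¹(𝒪)`. -/
def H1OneEquiv : (D.cech LineCocycle.one).H1 ≃ₗ[R] D.H1O :=
  Submodule.Quotient.equiv _ _ (secOneEquiv (D.U₀ ⊓ D.U₁)) (by
    rw [PatchedModule.range_d, Submodule.map_sup]
    have key : ∀ (U : X.Opens) (h : D.U₀ ⊓ D.U₁ ≤ U),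
        (LinearMap.range (Sec.resLin (c := p) (L := LineCocycle.one) h)).map
          (secOneEquiv (p := p) (D.U₀ ⊓ D.U₁)).toLinearMap =
            LinearMap.range (funRes p h).toLinearMap := by
      intro U h
      ext a
      constructor
      · rintro ⟨_, ⟨x, rfl⟩, rfl⟩
        exact ⟨_, (secOneEquiv_resLin h x).symm⟩
      · rintro ⟨b, rfl⟩
        refine ⟨_, ⟨(secOneEquiv U).symm b, rfl⟩, ?_⟩
        exact (secOneEquiv_resLin h _).trans (congrArg _ (LinearEquiv.apply_symm_apply _ b))
    exact congrArg₂ (· ⊔ ·) (key _ inf_le_left) (key _ inf_le_right))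

end CurveChart

end H1O

variable {k : Type u} [Field k] {C : Scheme.{u}} {c : C ⟶ Spec (CommRingCat.of k)}

namespace CurveChart

variable (D : CurveChart c) (R : Type u) [CommRing R] [Algebra k R]

/-- `H¹(C_R, 𝒪) = R ⊗ H¹(C, 𝒪)`. -/
def baseChangeH1O : (D.baseChange R).H1O ≃ₗ[R] R ⊗[k] D.H1O :=
  let e : LineCocycle.Rel ((LineCocycle.one : LineCocycle C).comap (prC c R)) LineCocycle.one :=
    .ofEq (fun _ => ⊤) (fun _ => trivial) (fun _ => le_rfl) (fun _ => le_rfl) fun x y W hx hy => by
      rw [LineCocycle.tr_comap, LineCocycle.tr_one]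
      exact (map_one _).symm
  (D.baseChange R).H1OneEquiv.symm ≪≫ₗ ((D.baseChange R).cechIso e).H1Equiv.symm ≪≫ₗ
    ((D.chartBaseChange R).iso LineCocycle.one).H1Equiv.symm ≪≫ₗ
    (D.cech LineCocycle.one).baseChangeH1Equiv R ≪≫ₗ D.H1OneEquiv.baseChange k R _ _

/-- `H¹(C, 𝒪)` is finite-dimensional. -/
theorem finite_H1O : Module.Finite k D.H1O :=
  haveI := (D.cech LineCocycle.one).finite_H1
  Module.Finite.equiv D.H1OneEquiv

/-- `H¹(C_R, 𝒪)` is free of rank `g`. -/
theorem nonempty_H1O_equiv {g : ℕ}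
    (hg : Module.finrank k (D.cech LineCocycle.one).H1 = g) :
    Nonempty ((D.baseChange R).H1O ≃ₗ[R] (Fin g → R)) := by
  have := D.finite_H1O
  rw [D.H1OneEquiv.finrank_eq] at hg
  exact ⟨D.baseChangeH1O R ≪≫ₗ
    ((Module.finBasisOfFinrankEq k D.H1O hg).baseChange R).equivFun⟩

/-- Functions on the first chart of `C_R`. -/
def funEquiv₀ : R ⊗[k] Fun c D.U₀ ≃ₐ[R] Fun (prR c R) (D.baseChange R).U₀ :=
  funEquiv c R D.affine₀

lemma funEquiv₀_apply (z : R ⊗[k] Fun c D.U₀) :
    D.funEquiv₀ R z = (show Fun (prR c R) (D.baseChange R).U₀ from D.funRingMap R z) := rfl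

variable {R} {N : LineCocycle (CR c R)} (s : N.Sect ⊤)

/-- The chart ideal of a section. -/
def secIdeal : Ideal (R ⊗[k] Fun c D.U₀) :=
  Ideal.comap (D.funRingMap R)
    (LineCocycle.Sect.pairIdeal (LineCocycle.Sect.restrict
      (le_top : overU c R D.U₀ ≤ ⊤) s))

theorem mem_secIdeal {z : R ⊗[k] Fun c D.U₀} : z ∈ D.secIdeal s ↔
    ∃ t : N.inv.Sect (overU c R D.U₀),
      (LineCocycle.Sect.restrict le_top s).pair t = D.funRingMap R z :=
  Iff.rfl

theorem idealOn_secIdeal : D.idealOn R (D.secIdeal s) =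
    LineCocycle.Sect.pairIdeal (LineCocycle.Sect.restrict
      (le_top : overU c R D.U₀ ≤ ⊤) s) :=
  Ideal.map_comap_of_surjective _ (D.funRingMap_bijective R).2 _

/-- The quotient by the chart ideal, on `C_R`. -/
def secQuotEquiv : ((R ⊗[k] Fun c D.U₀) ⧸ D.secIdeal s) ≃ₐ[R]
    Fun (prR c R) (D.baseChange R).U₀ ⧸ (D.baseChange R).sectIdeal s :=
  Ideal.quotientEquivAlg _ _ (D.funEquiv₀ R) (D.idealOn_secIdeal s).symm

lemma secQuotEquiv_mk (z : R ⊗[k] Fun c D.U₀) :
    D.secQuotEquiv s (Ideal.Quotient.mk _ z) = Ideal.Quotient.mk _ (D.funEquiv₀ R z) := rfl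

/-- The chart ideal commutes with base change. -/
theorem secIdeal_comap {S : Type u} [CommRing S] [Algebra k S] (φ : R →ₐ[k] S)
    (hW : (⊤ : (CR c S).Opens) ≤ crMap c R S φ ⁻¹ᵁ (⊤ : (CR c R).Opens)) :
    D.secIdeal (LineCocycle.Sect.comap (crMap c R S φ) hW s) =
      (D.secIdeal s).map (D.baseChangeHom φ) := by
  have h : D.idealOn S (D.secIdeal (LineCocycle.Sect.comap (crMap c R S φ) hW s)) =
      D.idealOn S ((D.secIdeal s).map (D.baseChangeHom φ)) := by
    rw [← D.idealOn_map, D.idealOn_secIdeal, D.idealOn_secIdeal,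
      LineCocycle.Sect.map_pairIdeal (isAffineOpen_overU c R D.affine₀)]
    congr 1
    exact (LineCocycle.Sect.comap_restrict _ _ _ _ _ s).symm
  ext z
  rw [← D.mem_idealOn, h, D.mem_idealOn]

/-- A divisor cut out by the chart ideal has the class of `N`. -/
theorem cls_eq_mk_of_secIdeal {W : (CR c R).Opens} (hcov : overU c R D.U₀ ⊔ W = ⊤)
    (hfr : (LineCocycle.Sect.restrict (le_top : W ≤ ⊤) s).IsFrame) (E : EffDiv (CR c R))
    (hE : E.IsGenBy (overU c R D.U₀) (D.idealOn R (D.secIdeal s))) : E.cls = Pic.mk N := by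
  rw [D.idealOn_secIdeal] at hE
  exact E.cls_eq_mk_of_pairIdeal (isAffineOpen_overU c R D.affine₀) s hcov hfr hE

variable {s}

namespace IsDivisorSect

variable {D}

/-- Near the complement of the first chart `s` is a frame, on `C_R`. -/
theorem frame_overU (h : (D.baseChange R).IsDivisorSect s) :
    ∃ W : (CR c R).Opens, overU c R D.U₀ ⊔ W = ⊤ ∧
      (LineCocycle.Sect.restrict (le_top : W ≤ ⊤) s).IsFrame :=
  h.frame

theorem finite_secIdeal (h : (D.baseChange R).IsDivisorSect s) :
    Module.Finite R ((R ⊗[k] Fun c D.U₀) ⧸ D.secIdeal s) := by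
  have := D.finite_H1O
  have : Module.Finite R (D.baseChange R).H1O := Module.Finite.equiv (D.baseChangeH1O R).symm
  have := h.finite_quotient
  exact Module.Finite.equiv (D.secQuotEquiv s).toLinearEquiv.symm

theorem projective_secIdeal (h : (D.baseChange R).IsDivisorSect s) :
    Module.Projective R ((R ⊗[k] Fun c D.U₀) ⧸ D.secIdeal s) := by
  have : Module.Projective R (D.baseChange R).H1O :=
    Module.Projective.of_equiv (D.baseChangeH1O R).symm
  have := h.projective_quotient
  exact Module.Projective.of_equiv (D.secQuotEquiv s).toLinearEquiv.symm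

/-- `g` functions spanning the quotient make the ideal a chart ideal. -/
theorem isChartIdeal_secIdeal (h : (D.baseChange R).IsDivisorSect s) {g : ℕ}
    (hg : Module.finrank k (D.cech LineCocycle.one).H1 = g) {b : Fin g → Fun c D.U₀}
    (hb : Function.Surjective (chartQuot b (D.secIdeal s))) : IsChartIdeal b (D.secIdeal s) := by
  obtain ⟨e⟩ := D.nonempty_H1O_equiv R hg
  have := h.bijective_of_surjective e
    ((D.secQuotEquiv s).toLinearEquiv.toLinearMap ∘ₗ chartQuot b (D.secIdeal s))
    ((D.secQuotEquiv s).surjective.comp hb)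
  exact (Function.Bijective.of_comp_iff' (D.secQuotEquiv s).bijective _).1 this

/-- The class of the chart ideal is the class of `N`. -/
theorem chartCls_secIdeal (h : (D.baseChange R).IsDivisorSect s)
    [Module.Finite R ((R ⊗[k] Fun c D.U₀) ⧸ D.secIdeal s)]
    [Module.Projective R ((R ⊗[k] Fun c D.U₀) ⧸ D.secIdeal s)]
    (H : FibresLocallyPrincipal k (Fun c D.U₀)) :
    D.chartCls (D.secIdeal s) H = Pic.mk N := by
  obtain ⟨W, hcov, hfr⟩ := h.frame_overU
  exact D.cls_eq_mk_of_secIdeal s hcov hfr _ (D.isGenBy_divisor _ H)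

end IsDivisorSect

/-- Over a field the chart ideal has colength `g`. -/
theorem IsDivisorSect.finrank_secIdeal {D : CurveChart c} {K : Type u} [Field K] [Algebra k K]
    {N : LineCocycle (CR c K)} {s : N.Sect ⊤} (h : (D.baseChange K).IsDivisorSect s) {g : ℕ}
    (hg : Module.finrank k (D.cech LineCocycle.one).H1 = g) :
    Module.finrank K ((K ⊗[k] Fun c D.U₀) ⧸ D.secIdeal s) = g := by
  obtain ⟨e⟩ := D.nonempty_H1O_equiv K hg
  have : Module.Finite K (D.baseChange K).H1O := Module.Finite.equiv e.symm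
  rw [(D.secQuotEquiv s).toLinearEquiv.finrank_eq, h.finrank_quotient, e.finrank_eq,
    Module.finrank_fin_fun]

end CurveChart

end Fermat.Agent.Jacobian
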