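import Fermat.Agent.Jacobian.Represent.Defs
import Fermat.Agent.Jacobian.Cech.ChartCR
import Fermat.Agent.Jacobian.SectMul
import Fermat.Agent.Jacobian.Divisor.AffineIdeal
import Mathlib.RingTheory.Flat.Basic

/-!
# Twisting by the base point

The base section of `C_R`, its equation, and the sections of `L(ε)`: those vanishing along the
base section come from `L`; when `L` is rigidified and its `H¹` vanishes some section of `L(ε)` is
nowhere zero along the base section, and it spans all sections when moreover `H⁰(L) = 0`.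
-/

set_option autoImplicit false

noncomputable section

universe u

open CategoryTheory CategoryTheory.Limits TopologicalSpace AlgebraicGeometry AlgebraicGeometry.RelPicard
  NeronModelInfra nonZeroDivisors TensorProduct

namespace Fermat.Agent.Jacobian

variable {k : Type u} [Field k] {C : Scheme.{u}} {c : C ⟶ Spec (CommRingCat.of k)}
  {ε : SchemeHomOver (𝟙 (Spec (CommRingCat.of k))) c}

/-- Functions on the empty open. -/
lemma eq_of_le_bot {X : Scheme.{u}} {V : X.Opens} (h : V ≤ ⊥) (a b : Γ(X, V)) : a = b :=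
  eq_of_cover (ι := PEmpty.{1}) (fun i => i.elim) (fun i => i.elim) (fun _ hx => (h hx).elim)
    fun i => i.elim

namespace EpsChart

open LineCocycle

variable (E : EpsChart c ε) (R : Type u) [CommRing R] [Algebra k R]

/-! ### The base section -/

lemma preimage_overU_sigR (U : C.Opens) :
    sigR c ε R ⁻¹ᵁ overU c R U = specAlg (k := k) R ⁻¹ᵁ (ε.1 ⁻¹ᵁ U) := by
  show (sigR c ε R ≫ prC c R) ⁻¹ᵁ U = _
  rw [sigR_prC]
  rfl

lemma sigR_preimage_U₀ : sigR c ε R ⁻¹ᵁ overU c R E.U₀ = ⊥ := by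
  rw [preimage_overU_sigR, E.eps_U₀]
  rfl

lemma sigR_preimage_W : sigR c ε R ⁻¹ᵁ overU c R E.W = ⊤ := by
  rw [preimage_overU_sigR, E.eps_W]
  rfl

lemma sigR_preimage_U₁ : sigR c ε R ⁻¹ᵁ overU c R E.U₁ = ⊤ :=
  top_le_iff.mp ((E.sigR_preimage_W R).ge.trans
    ((sigR c ε R).preimage_mono ((prC c R).preimage_mono E.W_le)))

theorem overU_U₀_sup_W : overU c R E.U₀ ⊔ overU c R E.W = ⊤ :=
  overU_cover c R E.cover_W

/-- The base section is the preimage of the base point. -/
theorem range_sigR :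
    Set.range (sigR c ε R) = (prC c R : CR c R → C) ⁻¹' Set.range ε.1 := by
  have hright : IsPullback (prR c R) (prC c R) (specAlg (k := k) R) c :=
    (IsPullback.of_hasPullback c (specAlg (k := k) R)).flip
  have hout : IsPullback (sigR c ε R ≫ prR c R) (specAlg (k := k) R) (specAlg (k := k) R)
      (ε.1 ≫ c) := by
    rw [sigR_prR, ε.2]
    exact IsPullback.of_horiz_isIso ⟨by simp⟩
  have h : IsPullback (sigR c ε R) (specAlg (k := k) R) (prC c R) ε.1 :=
    hout.of_right (sigR_prC c ε R) hright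
  have hi : Function.Surjective h.isoPullback.hom := h.isoPullback.hom.surjective
  calc Set.range (sigR c ε R)
      = Set.range (h.isoPullback.hom ≫ pullback.fst (prC c R) ε.1) := by
        rw [h.isoPullback_hom_fst]
    _ = Set.range (pullback.fst (prC c R) ε.1) := by
        rw [Scheme.Hom.comp_base, TopCat.coe_comp]
        exact hi.range_comp _
    _ = _ := Scheme.Pullback.range_fst _ _

/-- The complement of the chart `U₀` is the base section. -/
theorem compl_overU_U₀ :
    ((overU c R E.U₀ : (CR c R).Opens) : Set (CR c R))ᶜ = Set.range (sigR c ε R) := by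
  ext z
  constructor
  · intro hz
    rw [range_sigR]
    exact E.compl_U₀ _ hz
  · rintro ⟨p, rfl⟩ hp
    exact (E.sigR_preimage_U₀ R).le (show p ∈ sigR c ε R ⁻¹ᵁ overU c R E.U₀ from hp)

/-- An open containing the base section covers together with the chart `U₀`. -/
theorem overU_U₀_sup_eq_top {W' : (CR c R).Opens} (h : sigR c ε R ⁻¹ᵁ W' = ⊤) :
    overU c R E.U₀ ⊔ W' = ⊤ := by
  refine eq_top_iff.mpr fun z _ => ?_
  by_cases hz : z ∈ overU c R E.U₀
  · exact Or.inl hz
  · obtain ⟨p, rfl⟩ := (E.compl_overU_U₀ R).le hz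
    exact Or.inr (h.ge trivial : p ∈ sigR c ε R ⁻¹ᵁ W')

/-! ### The equation of the base section -/

/-- The equation of the base section. -/
def piR : Γ(CR c R, overU c R E.W) := pb (prC c R) le_rfl E.π

lemma isUnit_res_piR {O : (CR c R).Opens} (hW : O ≤ overU c R E.W) (h₀ : O ≤ overU c R E.U₀) :
    IsUnit (res hW (E.piR R)) := by
  have h := E.π_unit.map (pb (prC c R) (le_inf h₀ hW : O ≤ prC c R ⁻¹ᵁ (E.U₀ ⊓ E.W)))
  rw [pb_res] at h
  rwa [piR, res_pb]

lemma pb_sigR_scalar_res {V : (CR c R).Opens} {V' : (Spec (CommRingCat.of R)).Opens}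
    (h : V' ≤ sigR c ε R ⁻¹ᵁ V) (r : R) :
    pb (sigR c ε R) h (scalar c R V r) =
      res le_top ((Scheme.ΓSpecIso (CommRingCat.of R)).inv r) := by
  refine (pb_pb (sigR c ε R) (prR c R) (U := ⊤) (V := V) le_top h _).trans ?_
  exact (pb_congr (sigR_prR c ε R) _ _).trans (pb_id (U := ⊤) _ _)

lemma pb_sigR_piR {V' : (Spec (CommRingCat.of R)).Opens}
    (h : V' ≤ sigR c ε R ⁻¹ᵁ overU c R E.W) : pb (sigR c ε R) h (E.piR R) = 0 := by
  rw [piR, pb_pb]
  refine (pb_congr (sigR_prC c ε R) _ _).trans ?_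
  refine (pb_pb (specAlg (k := k) R) ε.1 (V := ⊤) E.eps_W.ge le_top _).symm.trans ?_
  rw [E.π_eps, map_zero]

lemma pb_eps_baseHom (a : k) :
    pb ε.1 (V := ⊤) E.eps_W.ge (baseHom c E.W a) =
      (Scheme.ΓSpecIso (CommRingCat.of k)).inv a := by
  refine (pb_pb ε.1 c (U := ⊤) (V := E.W) le_top E.eps_W.ge _).trans ?_
  refine (pb_congr ε.2 _ _).trans ((pb_id (U := ⊤) _ _).trans ?_)
  exact res_refl _ _

/-- A function near the base point is a constant plus a multiple of the equation. -/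
lemma exists_eq_baseHom_add (b : Γ(C, E.W)) :
    ∃ (a : k) (b' : Γ(C, E.W)), b = baseHom c E.W a + E.π * b' := by
  let a : k := (Scheme.ΓSpecIso (CommRingCat.of k)).hom (pb ε.1 (V := ⊤) E.eps_W.ge b)
  obtain ⟨b', hb'⟩ := E.π_gen (b - baseHom c E.W a) (by
    rw [map_sub, E.pb_eps_baseHom, sub_eq_zero]
    exact congr($((Scheme.ΓSpecIso (CommRingCat.of k)).hom_inv_id)
      (pb ε.1 (V := ⊤) E.eps_W.ge b)).symm)
  exact ⟨a, b', by rw [← hb']; ring⟩

lemma exists_eq_scalar_add (a : Γ(CR c R, overU c R E.W)) :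
    ∃ (r : R) (w : Γ(CR c R, overU c R E.W)),
      a = scalar c R (overU c R E.W) r + E.piR R * w := by
  obtain ⟨z, hz⟩ := (bijective_funMap c R E.affineW).2 a
  subst hz
  induction z using TensorProduct.induction_on with
  | zero =>
    refine ⟨0, 0, ?_⟩
    rw [map_zero, map_zero, mul_zero, add_zero]
    rfl
  | add x y hx hy =>
    obtain ⟨r, w, hr⟩ := hx
    obtain ⟨r', w', hr'⟩ := hy
    refine ⟨r + r', w + w', ?_⟩
    rw [map_add, map_add, mul_add, add_add_add_comm]
    exact congrArg₂ (· + ·) hr hr'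
  | tmul r b =>
    obtain ⟨e, b', hb⟩ := E.exists_eq_baseHom_add (show Γ(C, E.W) from b)
    refine ⟨r * algebraMap k R e, scalar c R _ r * pb (prC c R) le_rfl b', ?_⟩
    rw [funMap_tmul]
    show scalar c R (overU c R E.W) r * pb (prC c R) le_rfl (show Γ(C, E.W) from b) = _
    rw [hb, map_add, map_mul (pb (prC c R) _), pb_baseHom, map_mul, piR]
    ring

lemma piR_dvd_of_pb_eq_zero_top {a : Γ(CR c R, overU c R E.W)}
    (h : pb (sigR c ε R) (E.sigR_preimage_W R).ge a = 0) : E.piR R ∣ a := by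
  obtain ⟨r, w, rfl⟩ := E.exists_eq_scalar_add R a
  rw [map_add, map_mul, E.pb_sigR_piR, zero_mul, add_zero, pb_sigR_scalar_res, res_refl] at h
  have hr : r = 0 := by
    have := congrArg (Scheme.ΓSpecIso (CommRingCat.of R)).hom h
    rwa [Iso.inv_hom_id_apply, map_zero] at this
  rw [hr, map_zero, zero_add]
  exact dvd_mul_right _ _

lemma eq_zero_of_piR_mul {a : Γ(CR c R, overU c R E.W)} (h : E.piR R * a = 0) : a = 0 := by
  let F : R ⊗[k] Fun c E.W →+* Γ(CR c R, overU c R E.W) :=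
    (funMap c R (le_refl (overU c R E.W))).toRingHom
  have hF : Function.Bijective F := bijective_funMap c R E.affineW
  obtain ⟨z, hz⟩ := hF.2 a
  subst hz
  let m : Fun c E.W →ₗ[k] Fun c E.W := LinearMap.mulLeft k (show Fun c E.W from E.π)
  have hm : Function.Injective m := by
    intro x y hxy
    have := E.π_regular E.W le_rfl
    rw [res_refl] at this
    exact (mul_cancel_left_mem_nonZeroDivisors this).1 hxy
  have key : ∀ w, F (LinearMap.lTensor R m w) = E.piR R * F w := by
    intro w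
    induction w using TensorProduct.induction_on with
    | zero => rw [map_zero, map_zero, mul_zero]
    | add x y hx hy => rw [map_add, map_add, hx, hy, map_add, mul_add]
    | tmul r b =>
      rw [LinearMap.lTensor_tmul, show F (r ⊗ₜ m b) = _ from funMap_tmul c R _ r (m b),
        show F (r ⊗ₜ b) = _ from funMap_tmul c R _ r b]
      show scalar c R (overU c R E.W) r * pb (prC c R) le_rfl (E.π * (show Γ(C, E.W) from b)) =
        E.piR R * (scalar c R (overU c R E.W) r * pb (prC c R) le_rfl (show Γ(C, E.W) from b))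
      rw [map_mul, piR, mul_left_comm]
  have h1 : LinearMap.lTensor R m z = 0 :=
    hF.1 ((key z).trans (h.trans (map_zero _).symm))
  have h2 : z = 0 := Module.Flat.lTensor_preserves_injective_linearMap (M := R) m hm
    (h1.trans (map_zero _).symm)
  rw [h2]
  exact map_zero _

lemma res_piR_mem_nonZeroDivisors {O : (CR c R).Opens} (hW : O ≤ overU c R E.W) :
    res hW (E.piR R) ∈ Γ(CR c R, O)⁰ := by
  refine IsLocGen.res_mem_nonZeroDivisors (I := Ideal.span {E.piR R}) (s := 1)
    (isAffineOpen_overU c R E.affineW) ⟨Ideal.mem_span_singleton_self _, fun a ha => ?_,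
      fun b hb => ⟨0, ?_⟩⟩ hW ?_
  · rw [one_mul]
    exact Ideal.mem_span_singleton.mp ha
  · rw [E.eq_zero_of_piR_mul R hb, mul_zero]
  · rw [Scheme.basicOpen_of_isUnit _ isUnit_one]
    exact hW

/-- **The equation generates the kernel of evaluation at the base section.** -/
theorem piR_dvd_of_pb_eq_zero {O : (CR c R).Opens} (hW : O ≤ overU c R E.W) {a : Γ(CR c R, O)}
    (h : pb (sigR c ε R) (le_refl (sigR c ε R ⁻¹ᵁ O)) a = 0) : res hW (E.piR R) ∣ a := by
  have hWa := isAffineOpen_overU c R E.affineW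
  choose b hb hzb using fun z : O => hWa.exists_basicOpen_le (V := O) ⟨z.1, z.2⟩ (hW z.2)
  refine dvd_of_cover (fun z => (CR c R).basicOpen (b z)) hb
    (fun z hz => ⟨⟨z, hz⟩, hzb ⟨z, hz⟩⟩) (fun W' h' => ?_) fun z => ?_
  · rw [res_res]
    exact E.res_piR_mem_nonZeroDivisors R _
  set B := (CR c R).basicOpen (b z)
  have hBW : B ≤ overU c R E.W := (CR c R).basicOpen_le _
  obtain ⟨n, a', ha'⟩ := exists_res_eq_pow_mul hWa (b z) rfl hBW (res (hb z) a)
  set β := pb (sigR c ε R) (E.sigR_preimage_W R).ge (b z)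
  set α := pb (sigR c ε R) (E.sigR_preimage_W R).ge a'
  have hB' : sigR c ε R ⁻¹ᵁ B = (Spec (CommRingCat.of R)).basicOpen β := by
    simp only [β, B, pb, Scheme.basicOpen_appLE, top_inf_eq]
  have hα : res (le_top : sigR c ε R ⁻¹ᵁ B ≤ ⊤) α = 0 := by
    have h1 := congrArg (pb (sigR c ε R) (le_refl (sigR c ε R ⁻¹ᵁ B))) ha'
    rw [map_mul, pb_res, pb_res] at h1
    have h2 := congrArg (res ((sigR c ε R).preimage_mono (hb z))) h
    rw [res_pb, map_zero] at h2
    rw [h2, mul_zero] at h1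
    rw [res_pb]
    exact h1
  obtain ⟨m, hm⟩ := exists_pow_mul_eq_zero (isAffineOpen_top _) β α hB' le_top hα
  have hdvd : E.piR R ∣ b z ^ m * a' :=
    E.piR_dvd_of_pb_eq_zero_top R (by rw [map_mul, map_pow]; exact hm)
  have h3 := map_dvd (res hBW) hdvd
  rw [map_mul, map_pow, ha', ← mul_assoc, ← pow_add] at h3
  rw [res_res]
  exact ((isUnit_res_basicOpen' (b z)).pow _).dvd_mul_left.mp h3

/-! ### The canonical section -/

lemma at_canonR (V : (CR c R).Opens) (x : CR c R) {O : (CR c R).Opens} (hV : O ≤ V)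
    (hx : O ≤ (E.oepsR R).U x) :
    (E.canonR R V).at x hV hx = pb (prC c R) hx (E.epsDiv.f (prC c R x)) := by
  rw [canonR, Sect.at_comap]
  have : (E.epsDiv.canon ⊤).1 (prC c R x) =
      E.epsDiv.eqn (prC c R x) (W := ⊤ ⊓ E.epsDiv.V (prC c R x)) inf_le_right := rfl
  rw [this, EffDiv.eqn, pb_res]

lemma at_canonR_of_mem (V : (CR c R).Opens) {x : CR c R} (h : prC c R x ∈ E.U₀)
    {O : (CR c R).Opens} (hV : O ≤ V) (hx : O ≤ (E.oepsR R).U x) :
    (E.canonR R V).at x hV hx = 1 := by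
  rw [at_canonR]
  simp only [epsDiv, dif_pos h]
  exact (pb (prC c R) _).map_one

lemma le_W_of_not_mem {x : CR c R} (h : prC c R x ∉ E.U₀) {O : (CR c R).Opens}
    (hx : O ≤ (E.oepsR R).U x) : O ≤ overU c R E.W :=
  hx.trans ((prC c R).preimage_mono (le_of_eq (if_neg h)))

lemma at_canonR_of_not_mem (V : (CR c R).Opens) {x : CR c R} (h : prC c R x ∉ E.U₀)
    {O : (CR c R).Opens} (hV : O ≤ V) (hx : O ≤ (E.oepsR R).U x) :
    (E.canonR R V).at x hV hx = res (E.le_W_of_not_mem R h hx) (E.piR R) := by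
  rw [at_canonR, piR, res_pb]
  simp only [epsDiv, dif_neg h]
  exact pb_res _ _ _ _

lemma restrict_canonR {V V' : (CR c R).Opens} (h : V' ≤ V) :
    (E.canonR R V).restrict h = E.canonR R V' :=
  Sect.ext' fun x => by rw [Sect.at_restrict, at_canonR, at_canonR]

lemma canonR_regular (V : (CR c R).Opens) (x : CR c R) (O : (CR c R).Opens) (hV : O ≤ V)
    (hx : O ≤ (E.oepsR R).U x) : (E.canonR R V).at x hV hx ∈ Γ(CR c R, O)⁰ := by
  by_cases h : prC c R x ∈ E.U₀
  · rw [E.at_canonR_of_mem R V h]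
    exact one_mem _
  · rw [E.at_canonR_of_not_mem R V h]
    exact E.res_piR_mem_nonZeroDivisors R _

/-- Away from the base section the canonical section is a frame. -/
theorem isFrame_canonR {V : (CR c R).Opens} (hV : V ≤ overU c R E.U₀) :
    (E.canonR R V).IsFrame := fun x => by
  by_cases h : prC c R x ∈ E.U₀
  · rw [E.at_canonR_of_mem R V h]
    exact isUnit_one
  · rw [E.at_canonR_of_not_mem R V h]
    exact E.isUnit_res_piR R _ (inf_le_left.trans hV)

lemma pb_sigR_at_canonR (V : (CR c R).Opens) (x : CR c R) (O : (CR c R).Opens) (hV : O ≤ V)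
    (hx : O ≤ (E.oepsR R).U x) (O' : (Spec (CommRingCat.of R)).Opens)
    (e : O' ≤ sigR c ε R ⁻¹ᵁ O) : pb (sigR c ε R) e ((E.canonR R V).at x hV hx) = 0 := by
  by_cases h : prC c R x ∈ E.U₀
  · refine eq_of_le_bot (e.trans (le_of_le_of_eq ((sigR c ε R).preimage_mono ?_)
      (E.sigR_preimage_U₀ R))) _ _
    exact hx.trans ((prC c R).preimage_mono (le_of_eq (if_pos h)))
  · rw [E.at_canonR_of_not_mem R V h, pb_res, E.pb_sigR_piR]

variable {R} (L : LineCocycle (CR c R))

/-- Multiples of the canonical section vanish along the base section. -/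
theorem comap_mul_canonR {V : (CR c R).Opens} (τ : L.Sect V)
    {V' : (Spec (CommRingCat.of R)).Opens} (hV' : V' ≤ sigR c ε R ⁻¹ᵁ V) :
    (τ.mul (E.canonR R V)).comap (sigR c ε R) hV' = 0 :=
  Sect.comap_eq_zero_of_forall _ fun x O hO hx O' e => by
    rw [Sect.at_mul', map_mul, E.pb_sigR_at_canonR R V x O hO _ O' e, mul_zero]

/-- **The sections of `L(ε)` vanishing along the base section are those of `L`.** -/
theorem existsUnique_mul_canonR {V : (CR c R).Opens} (n : (L.mul (E.oepsR R)).Sect V)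
    (h : n.comap (sigR c ε R) (le_refl (sigR c ε R ⁻¹ᵁ V)) = 0) :
    ∃! τ : L.Sect V, τ.mul (E.canonR R V) = n := by
  refine Sect.existsUnique_mul_eq _ (fun x O hW hx => E.canonR_regular R V x O hW hx) n fun x => ?_
  by_cases hx : prC c R x ∈ E.U₀
  · rw [E.at_canonR_of_mem R V hx]
    exact one_dvd _
  · rw [E.at_canonR_of_not_mem R V hx]
    refine E.piR_dvd_of_pb_eq_zero R _ ?_
    exact Sect.pb_at_eq_zero _ h x _ _ ((sigR c ε R).preimage_mono inf_le_left) _

theorem mul_canonR_injective (V : (CR c R).Opens) :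
    Function.Injective fun τ : L.Sect V => τ.mul (E.canonR R V) := fun τ τ' h =>
  (E.existsUnique_mul_canonR L _ (E.comap_mul_canonR L τ le_rfl)).unique rfl h.symm

theorem exists_mul_canonR_eq {V : (CR c R).Opens} (hV : V ≤ overU c R E.U₀)
    (n : (L.mul (E.oepsR R)).Sect V) : ∃ τ : L.Sect V, τ.mul (E.canonR R V) = n :=
  (E.existsUnique_mul_canonR L n (Sect.ext' fun y => eq_of_le_bot
    (inf_le_left.trans (le_of_le_of_eq ((sigR c ε R).preimage_mono hV) (E.sigR_preimage_U₀ R)))
    _ _)).exists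

/-! ### Classes along the base section -/

variable (R) in
theorem comap_sigR_oepsR : Pic.comap (sigR c ε R) (Pic.mk (E.oepsR R)) = 1 := by
  show Pic.comap (sigR c ε R) (Pic.comap (prC c R) E.Oeps) = 1
  haveI : Subsingleton (Spec (CommRingCat.of k)) :=
    inferInstanceAs (Subsingleton (PrimeSpectrum k))
  rw [← Pic.comap_comp, sigR_prC, Pic.comap_comp, Pic.eq_one_of_subsingleton (Pic.comap ε.1 _),
    map_one]

theorem comap_sigR_mul_oepsR :
    Pic.comap (sigR c ε R) (Pic.mk (L.mul (E.oepsR R))) =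
      Pic.comap (sigR c ε R) (Pic.mk L) := by
  rw [← Pic.mk_mul, map_mul, E.comap_sigR_oepsR R, mul_one]

/-! ### Global sections of the twist -/

theorem isFrame_comap_sigR_of_restrict {N : LineCocycle (CR c R)} {s : N.Sect ⊤}
    {W' : (CR c R).Opens} (hW' : sigR c ε R ⁻¹ᵁ W' = ⊤)
    (hs : (s.restrict (le_top : W' ≤ ⊤)).IsFrame) :
    (s.comap (sigR c ε R) (W' := ⊤) le_top).IsFrame := by
  have h := hs.comap (sigR c ε R) (W' := ⊤) hW'.ge
  rw [Sect.comap_restrict (sigR c ε R) le_top (le_refl ⊤) le_top] at h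
  intro x
  have h' := h x
  rwa [Sect.at_restrict] at h'

theorem sigR_preimage_frameLocus {N : LineCocycle (CR c R)} {s : N.Sect ⊤}
    (hs : (s.comap (sigR c ε R) (W' := ⊤) le_top).IsFrame) :
    sigR c ε R ⁻¹ᵁ s.frameLocus = ⊤ :=
  top_le_iff.mp (Sect.le_preimage_frameLocus _ hs)

/-- A section nowhere zero along the base section is a frame near the complement of `U₀`. -/
theorem exists_frame_open {N : LineCocycle (CR c R)} {s : N.Sect ⊤}
    (hs : (s.comap (sigR c ε R) (W' := ⊤) le_top).IsFrame) :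
    ∃ W' : (CR c R).Opens, overU c R E.U₀ ⊔ W' = ⊤ ∧ sigR c ε R ⁻¹ᵁ W' = ⊤ ∧
      (s.restrict (le_top : W' ≤ ⊤)).IsFrame :=
  ⟨s.frameLocus, E.overU_U₀_sup_eq_top R (sigR_preimage_frameLocus hs),
    sigR_preimage_frameLocus hs, s.isFrame_restrict_frameLocus⟩

/-- **Existence of a section of `L(ε)` nowhere zero along the base section.** -/
theorem exists_section (hξ : Pic.comap (sigR c ε R) (Pic.mk L) = 1)
    (hd : Function.Surjective ((E.toCurveChart.baseChange R).cech L).d) :
    ∃ s : (L.mul (E.oepsR R)).Sect ⊤, (s.comap (sigR c ε R) (W' := ⊤) le_top).IsFrame := by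
  have hN := (E.comap_sigR_mul_oepsR L).trans hξ
  rw [Pic.comap_mk, Pic.mk_eq_one_iff] at hN
  obtain ⟨f, hf⟩ := hN
  let O₀ := overU c R E.U₀
  let O₁ := overU c R E.U₁
  have hU₁ : (⊤ : (Spec (CommRingCat.of R)).Opens) ≤ sigR c ε R ⁻¹ᵁ O₁ :=
    (E.sigR_preimage_U₁ R).ge
  obtain ⟨s₁, hs₁⟩ := Sect.exists_comap_eq (sigR c ε R) (W := O₁) (isAffineOpen_overU c R E.affine₁) hU₁
    (fun a => ⟨scalar c R _ ((Scheme.ΓSpecIso (CommRingCat.of R)).hom a), by
      rw [pb_sigR_scalar_res, res_refl, Iso.hom_inv_id_apply]⟩) f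
  obtain ⟨τ, hτ⟩ := E.exists_mul_canonR_eq L (inf_le_left : O₀ ⊓ O₁ ≤ O₀)
    (s₁.restrict inf_le_right)
  obtain ⟨⟨a, b⟩, hab⟩ := hd τ
  let a' : L.Sect O₀ := a
  let b' : L.Sect O₁ := b
  have hab' : a'.restrict (inf_le_left : O₀ ⊓ O₁ ≤ O₀) - b'.restrict inf_le_right = τ :=
    (PatchedModule.d_apply _ (a, b)).symm.trans hab
  set t₁ := s₁ + b'.mul (E.canonR R O₁) with ht₁
  obtain ⟨s, -, hs⟩ := (E.toCurveChart.baseChange R).exists_glue_of_d_eq_zero
    (L.mul (E.oepsR R)) (a'.mul (E.canonR R O₀), t₁) (by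
      rw [PatchedModule.d_apply, sub_eq_zero]
      show (a'.mul (E.canonR R O₀)).restrict (inf_le_left : O₀ ⊓ O₁ ≤ O₀) =
        t₁.restrict (inf_le_right : O₀ ⊓ O₁ ≤ O₁)
      rw [ht₁, Sect.restrict_add, Sect.restrict_mul, Sect.restrict_mul, E.restrict_canonR,
        E.restrict_canonR, ← hτ, ← hab']
      show _ = Sect.mulRight _ (_ - _) + Sect.mulRight _ _
      rw [← map_add, sub_add_cancel]
      rfl)
  have hs' : s.restrict (le_top : O₁ ≤ ⊤) = t₁ := hs
  refine ⟨s, fun x => ?_⟩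
  have h1 : (s.restrict (le_top : O₁ ≤ ⊤)).comap (sigR c ε R) hU₁ = f := by
    rw [hs', ht₁, Sect.comap_add, E.comap_mul_canonR L b' hU₁, add_zero]
    exact hs₁
  rw [Sect.comap_restrict (sigR c ε R) le_top (le_refl ⊤) le_top] at h1
  have h2 := hf x
  rw [← h1, Sect.at_restrict] at h2
  exact h2

/-- A global section of `L(ε)` vanishing along the base section is zero if `H⁰(L) = 0`. -/
theorem eq_zero_of_comap_eq_zero
    (hd : Function.Injective ((E.toCurveChart.baseChange R).cech L).d)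
    (v : (L.mul (E.oepsR R)).Sect ⊤) (h : v.comap (sigR c ε R) (W' := ⊤) le_top = 0) :
    v = 0 := by
  obtain ⟨τ, rfl⟩ := (E.existsUnique_mul_canonR L v h).exists
  let p : Sec (prR c R) L (overU c R E.U₀) × Sec (prR c R) L (overU c R E.U₁) :=
    (τ.restrict le_top, τ.restrict le_top)
  have hp : ((E.toCurveChart.baseChange R).cech L).d p = 0 := by
    rw [PatchedModule.d_apply, sub_eq_zero]
    show (τ.restrict le_top).restrict
        (inf_le_left : overU c R E.U₀ ⊓ overU c R E.U₁ ≤ overU c R E.U₀) =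
      (τ.restrict le_top).restrict
        (inf_le_right : overU c R E.U₀ ⊓ overU c R E.U₁ ≤ overU c R E.U₁)
    rw [Sect.restrict_restrict, Sect.restrict_restrict]
  have hp0 : p = 0 := hd (hp.trans (map_zero _).symm)
  have hτ : τ = 0 := by
    refine Sect.ext' fun x => eq_of_cover
      (fun i : Bool => (⊤ ⊓ L.U x) ⊓ bif i then overU c R E.U₁ else overU c R E.U₀)
      (fun _ => inf_le_left) (fun z hz => ?_) fun i => ?_
    · have hz' : z ∈ overU c R E.U₀ ⊔ overU c R E.U₁ := by
        rw [overU_cover c R E.cover]; trivial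
      rcases hz' with hz' | hz'
      · exact ⟨false, hz, hz'⟩
      · exact ⟨true, hz, hz'⟩
    · cases i
      · have h0 : overU c R E.U₀ ≤ ⊤ := le_top
        have := congrArg (fun e : L.Sect (overU c R E.U₀) =>
          e.at x (V := (⊤ ⊓ L.U x) ⊓ overU c R E.U₀) inf_le_right
            (inf_le_left.trans inf_le_right)) (congrArg Prod.fst hp0)
        simp only [Sect.at_zero, map_zero, Sect.res_at]
        exact (Sect.at_restrict h0 τ x _ _).symm.trans (this.trans (Sect.at_zero _ _ _))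
      · have h0 : overU c R E.U₁ ≤ ⊤ := le_top
        have := congrArg (fun e : L.Sect (overU c R E.U₁) =>
          e.at x (V := (⊤ ⊓ L.U x) ⊓ overU c R E.U₁) inf_le_right
            (inf_le_left.trans inf_le_right)) (congrArg Prod.snd hp0)
        simp only [Sect.at_zero, map_zero, Sect.res_at]
        exact (Sect.at_restrict h0 τ x _ _).symm.trans (this.trans (Sect.at_zero _ _ _))
  rw [hτ]
  exact map_zero (Sect.mulRight (L := L) (E.canonR R ⊤))

/-- **A section nowhere zero along the base section spans all sections if `H⁰(L) = 0`.** -/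
theorem existsUnique_scalar_smul
    (hd : Function.Injective ((E.toCurveChart.baseChange R).cech L).d)
    {s : (L.mul (E.oepsR R)).Sect ⊤}
    (hs : (s.comap (sigR c ε R) (W' := ⊤) le_top).IsFrame)
    (t : (L.mul (E.oepsR R)).Sect ⊤) : ∃! r : R, t = scalar c R ⊤ r • s := by
  have hpb : ∀ r : R, (scalar c R ⊤ r • s).comap (sigR c ε R) (W' := ⊤) le_top =
      (Scheme.ΓSpecIso (CommRingCat.of R)).inv r •
        s.comap (sigR c ε R) (W' := ⊤) le_top := fun r => by
    rw [Sect.comap_smul, pb_sigR_scalar_res, res_refl]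
  obtain ⟨a, ha⟩ := hs.exists_smul_eq (t.comap (sigR c ε R) (W' := ⊤) le_top)
  refine ⟨(Scheme.ΓSpecIso (CommRingCat.of R)).hom a, ?_, fun r hr => ?_⟩
  · refine sub_eq_zero.mp (E.eq_zero_of_comap_eq_zero L hd _ ?_)
    change Sect.comapₗ (sigR c ε R) (W' := ⊤) le_top _ = 0
    rw [map_sub, sub_eq_zero]
    show t.comap (sigR c ε R) (W' := ⊤) le_top = Sect.comap (sigR c ε R) (W' := ⊤) le_top _
    rw [hpb, Iso.hom_inv_id_apply, ha]
  · have h1 : a = (Scheme.ΓSpecIso (CommRingCat.of R)).inv r :=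
      hs.smul_left_injective (ha.trans (by rw [hr, hpb]))
    rw [h1, Iso.inv_hom_id_apply]

/-- Two such sections differ by a unit. -/
theorem exists_unit_scalar_smul
    (hd : Function.Injective ((E.toCurveChart.baseChange R).cech L).d)
    {s t : (L.mul (E.oepsR R)).Sect ⊤}
    (hs : (s.comap (sigR c ε R) (W' := ⊤) le_top).IsFrame)
    (ht : (t.comap (sigR c ε R) (W' := ⊤) le_top).IsFrame) :
    ∃ r : Rˣ, t = scalar c R ⊤ r • s := by
  obtain ⟨r, hr, -⟩ := E.existsUnique_scalar_smul L hd hs t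
  obtain ⟨r', hr', hu⟩ := E.existsUnique_scalar_smul L hd ht s
  have h : r * r' = 1 := (E.existsUnique_scalar_smul L hd ht t).unique
    (by rw [map_mul, mul_smul, ← hr', ← hr]) (by rw [map_one, one_smul])
  exact ⟨⟨r, r', h, by rw [mul_comm, h]⟩, hr⟩

/-- Surjectivity of the differential passes to the twist. -/
theorem surjective_d_mul_oepsR
    (hd : Function.Surjective ((E.toCurveChart.baseChange R).cech L).d) :
    Function.Surjective ((E.toCurveChart.baseChange R).cech (L.mul (E.oepsR R))).d := by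
  intro v
  set O₀ := overU c R E.U₀
  set O₁ := overU c R E.U₁
  obtain ⟨τ, hτ⟩ := E.exists_mul_canonR_eq L (inf_le_left : O₀ ⊓ O₁ ≤ O₀) v
  obtain ⟨⟨a, b⟩, hab⟩ := hd τ
  let a' : L.Sect O₀ := a
  let b' : L.Sect O₁ := b
  have hab' : a'.restrict (inf_le_left : O₀ ⊓ O₁ ≤ O₀) - b'.restrict inf_le_right = τ :=
    (PatchedModule.d_apply _ (a, b)).symm.trans hab
  refine ⟨(a'.mul (E.canonR R O₀), b'.mul (E.canonR R O₁)), ?_⟩
  rw [PatchedModule.d_apply]
  show (a'.mul (E.canonR R O₀)).restrict (inf_le_left : O₀ ⊓ O₁ ≤ O₀) -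
    (b'.mul (E.canonR R O₁)).restrict (inf_le_right : O₀ ⊓ O₁ ≤ O₁) = v
  rw [Sect.restrict_mul, Sect.restrict_mul, E.restrict_canonR, E.restrict_canonR, ← hτ, ← hab']
  exact (map_sub (Sect.mulRight (E.canonR R (O₀ ⊓ O₁))) _ _).symm

end EpsChart

end Fermat.Agent.Jacobian
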