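import Fermat.Agent.Jacobian.Represent.LocalRep

/-!
# Charts of an `OverFunctor` from affine test schemes
-/

set_option autoImplicit false

noncomputable section

universe u

open CategoryTheory CategoryTheory.Limits AlgebraicGeometry

namespace Fermat.Agent.Jacobian.OverFunctor

variable {S : Scheme.{u}} {F : OverFunctor S}

/-- Affine neighbourhoods as open immersions from spectra. -/
theorem exists_spec_nhd {T : Scheme.{u}} {O : T.Opens} {p : T} (hp : p ∈ O) :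
    ∃ (A : CommRingCat.{u}) (j : Spec A ⟶ T) (z : Spec A),
      IsOpenImmersion j ∧ Set.range j ⊆ O ∧ j z = p := by
  obtain ⟨_, ⟨U, hU, rfl⟩, hpU, hUO⟩ := T.isBasis_affineOpens.exists_subset_of_mem_open hp O.isOpen
  have hr : Set.range hU.fromSpec = U := hU.range_fromSpec
  obtain ⟨z, hz⟩ : p ∈ Set.range hU.fromSpec := by rw [hr]; exact hpU
  exact ⟨_, hU.fromSpec, z, hU.isOpenImmersion_fromSpec, by rw [hr]; exact hUO, hz⟩

/-- Monomorphicity only needs affine test schemes. -/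
theorem mono_of_affine {X : Scheme.{u}} (e : Σ s : X ⟶ S, F.obj s)
    (hmono : ∀ (A : CommRingCat.{u}) (g g' : Spec A ⟶ X),
      F.sigMap g e = F.sigMap g' e → g = g')
    {T : Scheme.{u}} {g g' : T ⟶ X} (h : F.sigMap g e = F.sigMap g' e) : g = g' := by
  choose A j z hj hjO hjz using fun p : T => exists_spec_nhd (O := (⊤ : T.Opens)) (p := p) trivial
  have hsup : iSup (fun p => (j p).opensRange) = (⊤ : T.Opens) := eq_top_iff.mpr fun p _ =>
    TopologicalSpace.Opens.mem_iSup.mpr ⟨p, ⟨z p, hjz p⟩⟩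
  refine (T.openCoverOfIsOpenCover _ (.mk hsup)).hom_ext _ _ fun (p : T) => ?_
  let l : (j p).opensRange.toScheme ⟶ Spec (A p) :=
    IsOpenImmersion.lift (j p) (j p).opensRange.ι (by rw [Scheme.Opens.range_ι]; rfl)
  have hl : l ≫ j p = (j p).opensRange.ι := IsOpenImmersion.lift_fac _ _ _
  have hg : j p ≫ g = j p ≫ g' := hmono _ _ _
    ((F.sigMap_sigMap g (j p) e).symm.trans
      ((congrArg (F.sigMap (j p)) h).trans (F.sigMap_sigMap g' (j p) e)))
  show (j p).opensRange.ι ≫ g = (j p).opensRange.ι ≫ g'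
  rw [← hl, Category.assoc, Category.assoc, hg]

/-- A chart from its behaviour on affine test schemes. -/
theorem exists_openness_of_affine (hF : F.Glues) {X : Scheme.{u}} (e : Σ s : X ⟶ S, F.obj s)
    (hmono : ∀ (A : CommRingCat.{u}) (g g' : Spec A ⟶ X),
      F.sigMap g e = F.sigMap g' e → g = g')
    (hopen : ∀ (A : CommRingCat.{u}) (x : Σ t : Spec A ⟶ S, F.obj t), ∃ V : (Spec A).Opens,
      ∀ (B : CommRingCat.{u}) (φ : A ⟶ B), Set.range (Spec.map φ) ⊆ V ↔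
        ∃ g : Spec B ⟶ X, F.sigMap g e = F.sigMap (Spec.map φ) x)
    {T : Scheme.{u}} (x : Σ t : T ⟶ S, F.obj t) :
    ∃ V : T.Opens, ∀ {T' : Scheme.{u}} (f : T' ⟶ T), Set.range f ⊆ V ↔
      ∃ g : T' ⟶ X, F.sigMap g e = F.sigMap f x := by
  -- affine charts of `T`, indexed by its points
  choose A j z hj hjO hjz using fun p : T => exists_spec_nhd (O := (⊤ : T.Opens)) (p := p) trivial
  choose Vp hVp using fun p => hopen (A p) (F.sigMap (j p) x)
  let W : T.Opens := ⨆ p, (j p) ''ᵁ (Vp p)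
  -- a small affine neighbourhood of each point of `W` mapping to the chart
  have hpt : ∀ w : W.toScheme, ∃ (B : CommRingCat.{u}) (l : Spec B ⟶ W.toScheme) (g : Spec B ⟶ X),
      IsOpenImmersion l ∧ w ∈ Set.range l ∧ F.sigMap g e = F.sigMap (l ≫ W.ι) x := by
    intro w
    obtain ⟨p, r, hr, hrw⟩ := TopologicalSpace.Opens.mem_iSup.mp w.2
    obtain ⟨B, j₀, y, hj₀, hj₀V, hy⟩ := exists_spec_nhd hr
    obtain ⟨φ, hφ⟩ := Spec.map_surjective j₀
    obtain ⟨g, hg⟩ := (hVp p B φ).mp (by rw [hφ]; exact hj₀V)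
    have hr' : Set.range (j₀ ≫ j p) ⊆ Set.range W.ι := by
      rw [Scheme.Opens.range_ι]
      rintro _ ⟨v, rfl⟩
      exact TopologicalSpace.Opens.mem_iSup.mpr
        ⟨p, j₀ v, hj₀V ⟨v, rfl⟩, (Scheme.Hom.comp_apply _ _ _).symm⟩
    let l := IsOpenImmersion.lift W.ι (j₀ ≫ j p) hr'
    have hl : l ≫ W.ι = j₀ ≫ j p := IsOpenImmersion.lift_fac _ _ _
    refine ⟨B, l, g, ?_, ⟨y, W.ι.isOpenEmbedding.injective ?_⟩, ?_⟩
    · have : IsOpenImmersion (l ≫ W.ι) := by rw [hl]; infer_instance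
      exact IsOpenImmersion.of_comp l W.ι
    · rw [← Scheme.Hom.comp_apply, hl, Scheme.Hom.comp_apply, hy]
      exact hrw
    · rw [hg, hφ, F.sigMap_sigMap, hl]
  choose B l gp hl hlw hgp using hpt
  -- glue
  let U : W.toScheme → W.toScheme.Opens := fun w => (l w).opensRange
  have hU : ∀ v, ∃ w, v ∈ U w := fun v => ⟨v, hlw v⟩
  let h : ∀ w, (U w).toScheme ⟶ X := fun w =>
    IsOpenImmersion.lift (l w) (U w).ι (by rw [Scheme.Opens.range_ι]; rfl) ≫ gp w
  have hh : ∀ w, F.sigMap (h w) e = F.sigMap ((U w).ι ≫ W.ι) x := fun w => by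
    simp only [h]
    rw [← F.sigMap_sigMap, hgp, F.sigMap_sigMap, ← Category.assoc, IsOpenImmersion.lift_fac]
  have hagree : ∀ (w w' : W.toScheme) {Q : Scheme.{u}} (a : Q ⟶ U w) (b : Q ⟶ U w'),
      a ≫ (U w).ι = b ≫ (U w').ι → a ≫ h w = b ≫ h w' := fun w w' Q a b hab =>
    mono_of_affine e hmono (by
      rw [← F.sigMap_sigMap (h w) a e, ← F.sigMap_sigMap (h w') b e, hh, hh, F.sigMap_sigMap,
        F.sigMap_sigMap, ← Category.assoc, hab, Category.assoc])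
  have hsup : iSup U = ⊤ := eq_top_iff.mpr fun v _ =>
    TopologicalSpace.Opens.mem_iSup.mpr (hU v)
  let gW : W.toScheme ⟶ X := (W.toScheme.openCoverOfIsOpenCover U (.mk hsup)).glueMorphisms h
    fun w w' => hagree w w' _ _ pullback.condition
  have hgι : ∀ w, (U w).ι ≫ gW = h w := fun w =>
    (W.toScheme.openCoverOfIsOpenCover U (.mk hsup)).ι_glueMorphisms _ _ w
  have hgW : F.sigMap gW e = F.sigMap W.ι x := hF.ext U hU fun w => by
    rw [F.sigMap_sigMap, F.sigMap_sigMap, hgι, hh]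
  refine ⟨W, fun {T'} f => ⟨fun hf => ?_, ?_⟩⟩
  · have hf' : Set.range f ⊆ Set.range W.ι := by rwa [Scheme.Opens.range_ι]
    exact ⟨IsOpenImmersion.lift W.ι f hf' ≫ gW, by
      rw [← F.sigMap_sigMap, hgW, F.sigMap_sigMap, IsOpenImmersion.lift_fac]⟩
  · rintro ⟨g, hg⟩ _ ⟨q, rfl⟩
    have hq : q ∈ f ⁻¹ᵁ (j (f q)).opensRange := ⟨z (f q), hjz (f q)⟩
    obtain ⟨B', j₀, y, hj₀, hj₀P, hy⟩ := exists_spec_nhd hq
    have hrange : Set.range (j₀ ≫ f) ⊆ Set.range (j (f q)) := by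
      rintro _ ⟨v, rfl⟩
      rw [Scheme.Hom.comp_apply]
      exact hj₀P ⟨v, rfl⟩
    obtain ⟨φ, hφ⟩ := Spec.map_surjective (IsOpenImmersion.lift (j (f q)) (j₀ ≫ f) hrange)
    have hfac : Spec.map φ ≫ j (f q) = j₀ ≫ f := by rw [hφ, IsOpenImmersion.lift_fac]
    have hmem : Set.range (Spec.map φ) ⊆ Vp (f q) := (hVp (f q) B' φ).mpr ⟨j₀ ≫ g, by
      rw [← F.sigMap_sigMap, hg, F.sigMap_sigMap, F.sigMap_sigMap, hfac]⟩
    refine TopologicalSpace.Opens.mem_iSup.mpr ⟨f q, Spec.map φ y, hmem ⟨y, rfl⟩, ?_⟩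
    exact (Scheme.Hom.comp_apply (Spec.map φ) (j (f q)) y).symm.trans
      (by rw [hfac, Scheme.Hom.comp_apply, hy])

/-- A chart from affine test data. -/
def Chart.ofAffine (hF : F.Glues) {X : Scheme.{u}} (str : X ⟶ S) (elt : F.obj str)
    (hmono : ∀ (A : CommRingCat.{u}) (g g' : Spec A ⟶ X),
      F.sigMap g ⟨str, elt⟩ = F.sigMap g' ⟨str, elt⟩ → g = g')
    (hopen : ∀ (A : CommRingCat.{u}) (x : Σ t : Spec A ⟶ S, F.obj t), ∃ V : (Spec A).Opens,
      ∀ (B : CommRingCat.{u}) (φ : A ⟶ B), Set.range (Spec.map φ) ⊆ V ↔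
        ∃ g : Spec B ⟶ X, F.sigMap g ⟨str, elt⟩ = F.sigMap (Spec.map φ) x) : F.Chart where
  X := X
  str := str
  elt := elt
  mono g g' h h' he := mono_of_affine (F := F) ⟨str, elt⟩ hmono (by
    rw [F.sigMap_eq g h, F.sigMap_eq g' h', he])
  openness t a := by
    obtain ⟨V, hV⟩ := exists_openness_of_affine hF ⟨str, elt⟩ hmono hopen ⟨t, a⟩
    refine ⟨V, fun f => (hV f).trans ⟨?_, ?_⟩⟩
    · rintro ⟨g, hg⟩
      exact ⟨g, congrArg Sigma.fst hg, F.eq_of_sigMap hg _ _⟩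
    · rintro ⟨g, h, hg⟩
      exact ⟨g, by rw [F.sigMap_eq g h, hg, F.sigMap_eq f rfl]⟩

end Fermat.Agent.Jacobian.OverFunctor
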