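import Fermat.Agent.Jacobian.Represent.PicFunctor
import Fermat.Agent.Jacobian.Represent.ChartOfAffine
import Fermat.Agent.Jacobian.Relative

/-!
# Cuts given on geometric fibres, and charts from affine data
-/

set_option autoImplicit false

noncomputable section

universe u

open CategoryTheory CategoryTheory.Limits AlgebraicGeometry AlgebraicGeometry.RelPicard
  NeronModelInfra

namespace Fermat.Agent.Jacobian

variable {k : Type u} [CommRing k] {C : Scheme.{u}} {c : C ⟶ Spec (CommRingCat.of k)}
  {ε : SchemeHomOver (𝟙 (Spec (CommRingCat.of k))) c}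

/-- The morphism over `k` of a map of `k`-algebras. -/
def specHomOver {R S : Type u} [CommRing R] [CommRing S] [Algebra k R] [Algebra k S]
    (φ : R →ₐ[k] S) : SchemeHomOver (specAlg (k := k) S) (specAlg (k := k) R) :=
  ⟨Spec.map (CommRingCat.ofHom φ.toRingHom), by
    rw [specAlg, specAlg, ← Spec.map_comp, ← CommRingCat.ofHom_comp]
    congr 2
    exact φ.comp_algebraMap⟩

theorem baseChangeSnd_specHomOver {R S : Type u} [CommRing R] [CommRing S] [Algebra k R]
    [Algebra k S] (φ : R →ₐ[k] S) :
    baseChangeSnd c (specHomOver φ) = crMap c R S φ :=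
  rfl

/-- The condition on classes over algebraically closed fields, tested on all geometric points. -/
def FibrePred (Q : ∀ (K : Type u) [Field K] [IsAlgClosed K] [Algebra k K], Pic (CR c K) → Prop)
    {T : Scheme.{u}} (t : T ⟶ Spec (CommRingCat.of k)) (ξ : Pic (pullback c t)) : Prop :=
  ∀ (K : Type u) [Field K] [IsAlgClosed K] [Algebra k K]
    (s : SchemeHomOver (specAlg (k := k) K) t), Q K (Pic.comap (baseChangeSnd c s) ξ)

theorem FibrePred.comap
    {Q : ∀ (K : Type u) [Field K] [IsAlgClosed K] [Algebra k K], Pic (CR c K) → Prop}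
    {T T' : Scheme.{u}} {t : T ⟶ Spec (CommRingCat.of k)} {t' : T' ⟶ Spec (CommRingCat.of k)}
    (ψ : SchemeHomOver t' t) {ξ : Pic (pullback c t)} (h : FibrePred Q t ξ) :
    FibrePred Q t' (Pic.comap (baseChangeSnd c ψ) ξ) := by
  intro K _ _ _ s
  rw [← Pic.comap_comp, baseChangeSnd_comp]
  exact h K (postComp ψ s)

variable (c ε)

/-- The cut of rigidified bundles satisfying a predicate on geometric fibres. -/
def fibreCut (Q : ∀ (K : Type u) [Field K] [IsAlgClosed K] [Algebra k K], Pic (CR c K) → Prop)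
    (h1 : ∀ (K : Type u) [Field K] [IsAlgClosed K] [Algebra k K], Q K 1) :
    SubPicCondition c ε where
  P t M := FibrePred Q t (bundleClass M)
  unit_mem t := by
    intro K _ _ _ s
    have : bundleClass (RigidifiedLineBundle.unit (c := c) (ε := ε) t) = 1 := picClass_unit
    rw [this, map_one]
    exact h1 K
  congr t M M' h hM := by rwa [← (bundleClass_eq_iff M M').mpr h]
  pullback_mem t t' ψ M hM := by
    rw [bundleClass_pullbackAlong]
    exact hM.comap ψ

variable {c ε}
variable {Q : ∀ (K : Type u) [Field K] [IsAlgClosed K] [Algebra k K], Pic (CR c K) → Prop}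
  {h1 : ∀ (K : Type u) [Field K] [IsAlgClosed K] [Algebra k K], Q K 1}

theorem isLocalCondition_fibreCut : IsLocalCondition (fibreCut c ε Q h1) := by
  intro T t M ι U hU hM K _ _ _ s
  obtain ⟨p⟩ := (inferInstance : Nonempty (Spec (CommRingCat.of K)))
  obtain ⟨i, hi⟩ := hU (s.1 p)
  have hr : Set.range s.1 ⊆ Set.range (U i).ι := by
    rintro _ ⟨q, rfl⟩
    rw [Scheme.Opens.range_ι]
    have : q = p := Subsingleton.elim (α := PrimeSpectrum K) q p
    rwa [this]
  let s' : SchemeHomOver (specAlg (k := k) K) ((U i).ι ≫ t) :=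
    ⟨IsOpenImmersion.lift (U i).ι s.1 hr, by
      rw [← Category.assoc, IsOpenImmersion.lift_fac, s.2]⟩
  have h := hM i K s'
  rw [bundleClass_pullbackAlong, ← Pic.comap_comp, baseChangeSnd_comp] at h
  have hs : postComp (⟨(U i).ι, rfl⟩ : SchemeHomOver ((U i).ι ≫ t) t) s' = s :=
    Subtype.ext (IsOpenImmersion.lift_fac _ _ _)
  rwa [hs] at h

/-- An element of the functor of a fibre cut from a rigidified class with the condition. -/
def fibreCutElt {T : Scheme.{u}} {t : T ⟶ Spec (CommRingCat.of k)} (ξ : Pic (pullback c t))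
    (hrig : Pic.comap (rigSection c t ε) ξ = 1) (hQ : FibrePred Q t ξ) :
    (subPicFunctor (fibreCut c ε Q h1)).obj t :=
  ⟨ξ, by
    obtain ⟨M, rfl⟩ := exists_bundleClass_eq hrig
    exact ⟨M, hQ, rfl⟩⟩

theorem fibreCut_obj_spec {T : Scheme.{u}} {t : T ⟶ Spec (CommRingCat.of k)}
    (ξ : (subPicFunctor (fibreCut c ε Q h1)).obj t) :
    Pic.comap (rigSection c t ε) ξ.1 = 1 ∧ FibrePred Q t ξ.1 := by
  obtain ⟨M, hM, hMξ⟩ := ξ.2
  exact ⟨hMξ ▸ comap_rigSection_bundleClass M, hMξ ▸ hM⟩

/-- Every morphism to `Spec k` from an affine scheme comes from an algebra structure. -/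
theorem exists_algebra_specAlg {A : CommRingCat.{u}} (t : Spec A ⟶ Spec (CommRingCat.of k)) :
    ∃ _ : Algebra k A, t = specAlg (k := k) A := by
  obtain ⟨φ, rfl⟩ := Spec.map_surjective t
  exact ⟨φ.hom.toAlgebra, rfl⟩

/-- **A chart from affine data**: uniqueness of the classifying map on `Spec R`, and for each
class over `Spec R` an open through which exactly the base changes in the chart factor. -/
def chartOfRings (P : SubPicCondition c ε) (hF : (subPicFunctor P).Glues) (X : Scheme.{u})
    (str : X ⟶ Spec (CommRingCat.of k)) (elt : (subPicFunctor P).obj str)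
    (hmono : ∀ (R : Type u) [CommRing R] [Algebra k R]
      (g g' : SchemeHomOver (specAlg (k := k) R) str),
      Pic.comap (baseChangeSnd c g) elt.1 = Pic.comap (baseChangeSnd c g') elt.1 → g = g')
    (hopen : ∀ (R : Type u) [CommRing R] [Algebra k R]
      (a : (subPicFunctor P).obj (specAlg (k := k) R)),
      ∃ V : (Spec (CommRingCat.of R)).Opens, ∀ (S : Type u) [CommRing S] [Algebra k S]
        (φ : R →ₐ[k] S),
        Set.range (Spec.map (CommRingCat.ofHom φ.toRingHom)) ⊆ V ↔
          ∃ g : SchemeHomOver (specAlg (k := k) S) str,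
            Pic.comap (baseChangeSnd c g) elt.1 = Pic.comap (crMap c R S φ) a.1) :
    (subPicFunctor P).Chart :=
  OverFunctor.Chart.ofAffine hF str elt
    (fun A g g' h => by
      obtain ⟨_, hA⟩ := exists_algebra_specAlg (g ≫ str)
      have hg' : g' ≫ str = specAlg (k := k) A := (congrArg Sigma.fst h).symm.trans hA
      have := (subPicFunctor P).eq_of_sigMap h hA hg'
      exact congrArg Subtype.val (hmono A ⟨g, hA⟩ ⟨g', hg'⟩ (congrArg Subtype.val this)))
    (fun A x => by
      obtain ⟨t, a⟩ := x
      obtain ⟨_, rfl⟩ := exists_algebra_specAlg t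
      obtain ⟨V, hV⟩ := hopen A a
      refine ⟨V, fun B φ => ?_⟩
      let : Algebra k B := (φ.hom.comp (algebraMap k A)).toAlgebra
      let φ' : A →ₐ[k] B := { φ.hom with commutes' := fun _ => rfl }
      have hw : Spec.map φ ≫ specAlg (k := k) A = specAlg (k := k) B := (specHomOver φ').2
      refine (hV B φ').trans ⟨?_, ?_⟩
      · rintro ⟨g, hg⟩
        refine ⟨g.1, ?_⟩
        rw [(subPicFunctor P).sigMap_eq g.1 g.2, (subPicFunctor P).sigMap_eq (Spec.map φ) hw]
        refine congrArg (Sigma.mk _) (Subtype.ext ?_)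
        exact hg
      · rintro ⟨g, hg⟩
        have hg2 : g ≫ str = specAlg (k := k) B := (congrArg Sigma.fst hg).trans hw
        have := (subPicFunctor P).eq_of_sigMap hg hg2 hw
        exact ⟨⟨g, hg2⟩, congrArg Subtype.val this⟩)

theorem chartOfRings_X (P : SubPicCondition c ε) (hF : (subPicFunctor P).Glues) (X : Scheme.{u})
    (str : X ⟶ Spec (CommRingCat.of k)) (elt : (subPicFunctor P).obj str) (hmono hopen) :
    (chartOfRings P hF X str elt hmono hopen).X = X :=
  rfl

end Fermat.Agent.Jacobian
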