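import Fermat.Agent.Jacobian.Represent.ChartClass
import Fermat.Agent.Jacobian.Represent.AffineData
import Fermat.Agent.Jacobian.Cech.Acyclic
import Fermat.Agent.Jacobian.Curve.ChartBaseChange
import Fermat.Agent.Jacobian.Divisor.QuotientMap

/-!
# The classes lying in a chart
-/

set_option autoImplicit false

noncomputable section

universe u

open CategoryTheory CategoryTheory.Limits AlgebraicGeometry AlgebraicGeometry.RelPicard
  NeronModelInfra TensorProduct

namespace Fermat.Agent.Jacobian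

variable {k : Type u} [Field k] {C : Scheme.{u}} {c : C ⟶ Spec (CommRingCat.of k)}
  {ε : SchemeHomOver (𝟙 (Spec (CommRingCat.of k))) c}

/-- The base point commutes with change of base. -/
theorem sigR_crMap {R S : Type u} [CommRing R] [Algebra k R] [CommRing S] [Algebra k S]
    (φ : R →ₐ[k] S) :
    sigR c ε S ≫ crMap c R S φ = Spec.map (CommRingCat.ofHom φ.toRingHom) ≫ sigR c ε R :=
  rigSection_baseChangeSnd c ε (specHomOver φ)

theorem comap_sigR_crMap {R S : Type u} [CommRing R] [Algebra k R] [CommRing S] [Algebra k S]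
    (φ : R →ₐ[k] S) {ξ : Pic (CR c R)} (h : Pic.comap (sigR c ε R) ξ = 1) :
    Pic.comap (sigR c ε S) (Pic.comap (crMap c R S φ) ξ) = 1 := by
  rw [← Pic.comap_comp, sigR_crMap, Pic.comap_comp, h, map_one]

/-- Change of base is functorial. -/
theorem crMap_crMap {R S U : Type u} [CommRing R] [Algebra k R] [CommRing S] [Algebra k S]
    [CommRing U] [Algebra k U] (φ : R →ₐ[k] S) (ψ : S →ₐ[k] U) :
    crMap c S U ψ ≫ crMap c R S φ = crMap c R U (ψ.comp φ) := by
  apply pullback.hom_ext
  · simp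
  · simp only [Category.assoc, crMap_prR, crMap_prR_assoc, ← Spec.map_comp,
      ← CommRingCat.ofHom_comp]
    rfl

namespace EpsChart

variable (E : EpsChart c ε) (H : FibresLocallyPrincipal k (Fun c E.U₀)) (Etw : Pic C)

/-- The twist of `ξ` has no cohomology. -/
def AcyclicTw (R : Type u) [CommRing R] [Algebra k R] (ξ : Pic (CR c R)) : Prop :=
  (E.toCurveChart.baseChange R).AcyclicClass (ξ * Pic.comap (prC c R) Etw)

/-- The points of the base over which the twist of `ξ` has no cohomology. -/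
def acyclicTwSet (R : Type u) [CommRing R] [Algebra k R] (ξ : Pic (CR c R)) :
    Set (PrimeSpectrum R) :=
  (E.toCurveChart.baseChange R).acyclicSet (ξ * Pic.comap (prC c R) Etw)

variable {R : Type u} [CommRing R] [Algebra k R] {S : Type u} [CommRing S] [Algebra k S]

theorem acyclicTw_comap_iff (φ : R →ₐ[k] S) (ξ : Pic (CR c R)) :
    E.AcyclicTw Etw S (Pic.comap (crMap c R S φ) ξ) ↔
      ∀ q : PrimeSpectrum S, PrimeSpectrum.comap φ.toRingHom q ∈ E.acyclicTwSet Etw R ξ := by
  let : Algebra R S := φ.toAlgebra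
  have : IsScalarTower k R S := IsScalarTower.of_algebraMap_eq fun a => (φ.commutes a).symm
  have hφ : IsScalarTower.toAlgHom k R S = φ := AlgHom.ext fun _ => rfl
  have h := (E.toCurveChart.chartBaseChange_crMap R S).acyclicClass_iff
    (ξ * Pic.comap (prC c R) Etw)
  rw [hφ, map_mul, ← Pic.comap_comp, crMap_prC] at h
  exact h

theorem isOpen_acyclicTwSet (ξ : Pic (CR c R)) : IsOpen (E.acyclicTwSet Etw R ξ) :=
  (E.toCurveChart.baseChange R).isOpen_acyclicSet _

theorem acyclicTw_iff_forall (ξ : Pic (CR c R)) :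
    E.AcyclicTw Etw R ξ ↔ ∀ p, p ∈ E.acyclicTwSet Etw R ξ :=
  (E.toCurveChart.baseChange R).acyclicClass_iff_forall _

theorem AcyclicTw.comap {ξ : Pic (CR c R)} (h : E.AcyclicTw Etw R ξ) (φ : R →ₐ[k] S) :
    E.AcyclicTw Etw S (Pic.comap (crMap c R S φ) ξ) :=
  (E.acyclicTw_comap_iff Etw φ ξ).2 fun _ => (E.acyclicTw_iff_forall Etw ξ).1 h _

/-- What the geometry of the curve supplies about acyclic classes. -/
structure ChartInputs {g : ℕ} (b : Fin g → Fun c E.U₀) : Prop where
  exists_ideal : ∀ (R : Type u) [CommRing R] [Algebra k R] (ξ : Pic (CR c R)),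
    Pic.comap (sigR c ε R) ξ = 1 → E.AcyclicTw Etw R ξ →
      ∃ (I : Ideal (R ⊗[k] Fun c E.U₀)) (_ : Module.Finite R ((R ⊗[k] Fun c E.U₀) ⧸ I))
        (_ : Module.Projective R ((R ⊗[k] Fun c E.U₀) ⧸ I)), E.chartClass I H Etw = ξ
  scalar : ∀ (R : Type u) [CommRing R] [Algebra k R] (I : Ideal (R ⊗[k] Fun c E.U₀))
    [Module.Finite R ((R ⊗[k] Fun c E.U₀) ⧸ I)] [Module.Projective R ((R ⊗[k] Fun c E.U₀) ⧸ I)],
    E.AcyclicTw Etw R (E.chartClass I H Etw) →
      ∀ s : (E.toCurveChart.divisor I H).cocycle.Sect ⊤,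
        ∃ r : R, s = Jacobian.scalar c R ⊤ r • (E.toCurveChart.divisor I H).canon ⊤
  isChartIdeal : ∀ (R : Type u) [CommRing R] [Algebra k R] (I : Ideal (R ⊗[k] Fun c E.U₀))
    [Module.Finite R ((R ⊗[k] Fun c E.U₀) ⧸ I)] [Module.Projective R ((R ⊗[k] Fun c E.U₀) ⧸ I)],
    E.AcyclicTw Etw R (E.chartClass I H Etw) → Function.Surjective (chartQuot b I) →
      IsChartIdeal b I

/-- The class of a chart ideal. -/
def classOf {g : ℕ} {b : Fin g → Fun c E.U₀} {I : Ideal (R ⊗[k] Fun c E.U₀)}
    (h : IsChartIdeal b I) : Pic (CR c R) :=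
  haveI := h.finite
  haveI := h.free
  E.chartClass I H Etw

/-- The class `ξ` lies in the chart of `(Etw, b)`. -/
def InChart {g : ℕ} (b : Fin g → Fun c E.U₀) (R : Type u) [CommRing R] [Algebra k R]
    (ξ : Pic (CR c R)) : Prop :=
  E.AcyclicTw Etw R ξ ∧ ∃ (I : Ideal (R ⊗[k] Fun c E.U₀)) (h : IsChartIdeal b I),
    E.classOf H Etw h = ξ

variable {g : ℕ} {b : Fin g → Fun c E.U₀}

theorem comap_classOf {I : Ideal (R ⊗[k] Fun c E.U₀)} (h : IsChartIdeal b I) (φ : R →ₐ[k] S) :
    Pic.comap (crMap c R S φ) (E.classOf H Etw h) = E.classOf H Etw (isChartIdeal_map φ h) := by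
  have := h.finite
  have := h.free
  have := (isChartIdeal_map φ h).finite
  have := (isChartIdeal_map φ h).free
  exact E.comap_chartClass I H Etw φ _ rfl

theorem InChart.comap {ξ : Pic (CR c R)} (h : E.InChart H Etw b R ξ) (φ : R →ₐ[k] S) :
    E.InChart H Etw b S (Pic.comap (crMap c R S φ) ξ) := by
  obtain ⟨hac, I, hI, rfl⟩ := h
  exact ⟨hac.comap E Etw φ, _, isChartIdeal_map φ hI, (E.comap_classOf H Etw hI φ).symm⟩

theorem InChart.rigidified {ξ : Pic (CR c R)} (h : E.InChart H Etw b R ξ) :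
    Pic.comap (sigR c ε R) ξ = 1 := by
  obtain ⟨-, I, hI, rfl⟩ := h
  have := hI.finite
  have := hI.free
  exact E.comap_sigR_chartClass I H Etw

variable {E H Etw}

/-- Chart ideals with the same acyclic class are equal. -/
theorem ChartInputs.eq_of_classOf_eq (hin : E.ChartInputs H Etw b)
    {I J : Ideal (R ⊗[k] Fun c E.U₀)} (hI : IsChartIdeal b I) (hJ : IsChartIdeal b J)
    (hac : E.AcyclicTw Etw R (E.classOf H Etw hI))
    (h : E.classOf H Etw hI = E.classOf H Etw hJ) : I = J := by
  have := hI.finite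
  have := hI.free
  have := hJ.finite
  have := hJ.free
  exact E.eq_of_chartClass_eq I H Etw J (hin.scalar R I hac) h

/-- Membership after base change is read on the span locus. -/
theorem ChartInputs.inChart_comap_iff (hin : E.ChartInputs H Etw b) (I : Ideal (R ⊗[k] Fun c E.U₀))
    [Module.Finite R ((R ⊗[k] Fun c E.U₀) ⧸ I)] [Module.Projective R ((R ⊗[k] Fun c E.U₀) ⧸ I)]
    (hac : E.AcyclicTw Etw R (E.chartClass I H Etw)) (φ : R →ₐ[k] S) :
    E.InChart H Etw b S (Pic.comap (crMap c R S φ) (E.chartClass I H Etw)) ↔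
      ∀ q : PrimeSpectrum S, PrimeSpectrum.comap φ.toRingHom q ∈ spanLocus b I := by
  let : Algebra R S := φ.toAlgebra
  have : IsScalarTower k R S := IsScalarTower.of_algebraMap_eq fun a => (φ.commutes a).symm
  have hφ : IsScalarTower.toAlgHom k R S = φ := AlgHom.ext fun _ => rfl
  have key := surjective_chartQuot_map_iff b I (S := S)
  rw [hφ] at key
  refine Iff.trans ?_ key
  obtain ⟨hf, hp⟩ := finite_projective_quotient_map φ I
  have hc := E.comap_chartClass I H Etw φ _ rfl
  have hac' := hac.comap E Etw φ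
  rw [hc] at hac' ⊢
  constructor
  · rintro ⟨-, J, hJ, hJI⟩
    have := hJ.finite
    have := hJ.free
    have e := E.eq_of_chartClass_eq _ H Etw J (hin.scalar S _ hac') hJI.symm
    rw [CurveChart.baseChangeHom] at e
    rw [e]
    exact hJ.2
  · intro hs
    exact ⟨hac', _, hin.isChartIdeal S _ hac' hs, rfl⟩

/-- Membership is detected by any point of a field extension. -/
theorem ChartInputs.inChart_of_field {K L : Type u} [Field K] [Algebra k K] [CommRing L]
    [Algebra k L] [Nontrivial L] (hin : E.ChartInputs H Etw b) (φ : K →ₐ[k] L) {ξ : Pic (CR c K)}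
    (hrig : Pic.comap (sigR c ε K) ξ = 1)
    (h : E.InChart H Etw b L (Pic.comap (crMap c K L φ) ξ)) : E.InChart H Etw b K ξ := by
  obtain ⟨q⟩ : Nonempty (PrimeSpectrum L) := inferInstance
  have hac : E.AcyclicTw Etw K ξ := by
    refine (E.acyclicTw_iff_forall Etw ξ).2 fun p => ?_
    rw [Subsingleton.elim p (PrimeSpectrum.comap φ.toRingHom q)]
    exact (E.acyclicTw_comap_iff Etw φ ξ).1 h.1 q
  obtain ⟨I, hf, hp, rfl⟩ := hin.exists_ideal K ξ hrig hac
  have hq := (hin.inChart_comap_iff I hac φ).1 h q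
  have hs : Function.Surjective (chartQuot b
      (I.map (Algebra.TensorProduct.map (IsScalarTower.toAlgHom k K K)
        (AlgHom.id k (Fun c E.U₀))))) :=
    (surjective_chartQuot_map_iff b I (S := K)).2 fun p => by
      rwa [Subsingleton.elim (PrimeSpectrum.comap (algebraMap K K) p)
        (PrimeSpectrum.comap φ.toRingHom q)]
  have hid : (Algebra.TensorProduct.map (IsScalarTower.toAlgHom k K K)
      (AlgHom.id k (Fun c E.U₀))) = AlgHom.id k _ :=
    Algebra.TensorProduct.ext' fun a x => by simp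
  rw [hid] at hs
  have hmap : I.map (AlgHom.id k (K ⊗[k] Fun c E.U₀)) = I := Ideal.map_id I
  rw [hmap] at hs
  exact ⟨hac, I, hin.isChartIdeal K I hac hs, rfl⟩

/-- The class `ξ` is in the chart over the point `p`. -/
def InChartAt (E : EpsChart c ε) (H : FibresLocallyPrincipal k (Fun c E.U₀)) (Etw : Pic C)
    (b : Fin g → Fun c E.U₀) (ξ : Pic (CR c R)) (p : PrimeSpectrum R) : Prop :=
  E.InChart H Etw b p.asIdeal.ResidueField
    (Pic.comap (crMap c R _ (IsScalarTower.toAlgHom k R p.asIdeal.ResidueField)) ξ)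

/-- Membership over a point can be tested after any field extension. -/
theorem ChartInputs.inChartAt_comap_iff (hin : E.ChartInputs H Etw b) (φ : R →ₐ[k] S)
    {ξ : Pic (CR c R)} (hrig : Pic.comap (sigR c ε R) ξ = 1) (q : PrimeSpectrum S) :
    InChartAt E H Etw b (Pic.comap (crMap c R S φ) ξ) q ↔
      InChartAt E H Etw b ξ (PrimeSpectrum.comap φ.toRingHom q) := by
  set p := PrimeSpectrum.comap φ.toRingHom q
  let ι : p.asIdeal.ResidueField →ₐ[k] q.asIdeal.ResidueField :=
    { Ideal.ResidueField.map p.asIdeal q.asIdeal φ.toRingHom rfl with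
      commutes' := fun a => by
        show Ideal.ResidueField.map p.asIdeal q.asIdeal φ.toRingHom rfl (algebraMap k _ a) = _
        rw [IsScalarTower.algebraMap_apply k R p.asIdeal.ResidueField,
          Ideal.ResidueField.map_algebraMap, IsScalarTower.algebraMap_apply k S q.asIdeal.ResidueField]
        exact congrArg _ (φ.commutes a) }
  have hcomp : (IsScalarTower.toAlgHom k S q.asIdeal.ResidueField).comp φ =
      ι.comp (IsScalarTower.toAlgHom k R p.asIdeal.ResidueField) :=
    AlgHom.ext fun r => (Ideal.ResidueField.map_algebraMap _ _ _ rfl r).symm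
  have e : Pic.comap (crMap c S _ (IsScalarTower.toAlgHom k S q.asIdeal.ResidueField))
      (Pic.comap (crMap c R S φ) ξ) = Pic.comap (crMap c _ _ ι)
        (Pic.comap (crMap c R _ (IsScalarTower.toAlgHom k R p.asIdeal.ResidueField)) ξ) := by
    rw [← Pic.comap_comp, ← Pic.comap_comp]
    rw [crMap_crMap, crMap_crMap, hcomp]
  show E.InChart H Etw b _ _ ↔ E.InChart H Etw b _ _
  rw [e]
  exact ⟨fun h => hin.inChart_of_field ι (comap_sigR_crMap _ hrig) h, fun h => h.comap E H Etw ι⟩

/-- A class is in the chart iff it is in the chart over every point. -/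
theorem ChartInputs.inChart_iff_forall (hin : E.ChartInputs H Etw b) {ξ : Pic (CR c R)}
    (hrig : Pic.comap (sigR c ε R) ξ = 1) :
    E.InChart H Etw b R ξ ↔ ∀ p, InChartAt E H Etw b ξ p := by
  refine ⟨fun h p => h.comap E H Etw _, fun h => ?_⟩
  have hac : E.AcyclicTw Etw R ξ := (E.acyclicTw_iff_forall Etw ξ).2 fun p => by
    obtain ⟨q⟩ : Nonempty (PrimeSpectrum p.asIdeal.ResidueField) := inferInstance
    have hq := (E.acyclicTw_comap_iff Etw _ ξ).1 (h p).1 q
    have hpq : PrimeSpectrum.comap (IsScalarTower.toAlgHom k R p.asIdeal.ResidueField).toRingHom q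
        = p := PrimeSpectrum.ext (by
      rw [PrimeSpectrum.comap_asIdeal,
        (Ideal.eq_bot_or_top q.asIdeal).resolve_right q.2.ne_top]
      exact Ideal.ker_algebraMap_residueField (I := p.asIdeal))
    rwa [hpq] at hq
  obtain ⟨I, hf, hp, rfl⟩ := hin.exists_ideal R ξ hrig hac
  have hs : Function.Surjective (chartQuot b
      (I.map (Algebra.TensorProduct.map (IsScalarTower.toAlgHom k R R)
        (AlgHom.id k (Fun c E.U₀))))) :=
    (surjective_chartQuot_map_iff b I (S := R)).2 fun p => by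
      obtain ⟨q⟩ : Nonempty (PrimeSpectrum p.asIdeal.ResidueField) := inferInstance
      have := (hin.inChart_comap_iff I hac _).1 (h p) q
      have hpq : PrimeSpectrum.comap
          (IsScalarTower.toAlgHom k R p.asIdeal.ResidueField).toRingHom q = p :=
        PrimeSpectrum.ext (by
          rw [PrimeSpectrum.comap_asIdeal,
            (Ideal.eq_bot_or_top q.asIdeal).resolve_right q.2.ne_top]
          exact Ideal.ker_algebraMap_residueField (I := p.asIdeal))
      rw [hpq] at this
      simpa using this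
  have hid : (Algebra.TensorProduct.map (IsScalarTower.toAlgHom k R R)
      (AlgHom.id k (Fun c E.U₀))) = AlgHom.id k _ :=
    Algebra.TensorProduct.ext' fun a x => by simp
  rw [hid] at hs
  have hmap : I.map (AlgHom.id k (R ⊗[k] Fun c E.U₀)) = I := Ideal.map_id I
  rw [hmap] at hs
  exact ⟨hac, I, hin.isChartIdeal R I hac hs, rfl⟩

/-- The points over which a class is in the chart form an open set. -/
theorem ChartInputs.isOpen_inChartAt (hin : E.ChartInputs H Etw b) {ξ : Pic (CR c R)}
    (hrig : Pic.comap (sigR c ε R) ξ = 1) : IsOpen {p | InChartAt E H Etw b ξ p} := by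
  rw [isOpen_iff_forall_mem_open]
  intro p hp
  have hpa : p ∈ E.acyclicTwSet Etw R ξ := by
    obtain ⟨q⟩ : Nonempty (PrimeSpectrum p.asIdeal.ResidueField) := inferInstance
    have hq := (E.acyclicTw_comap_iff Etw _ ξ).1 hp.1 q
    have hpq : PrimeSpectrum.comap (IsScalarTower.toAlgHom k R p.asIdeal.ResidueField).toRingHom q
        = p := PrimeSpectrum.ext (by
      rw [PrimeSpectrum.comap_asIdeal,
        (Ideal.eq_bot_or_top q.asIdeal).resolve_right q.2.ne_top]
      exact Ideal.ker_algebraMap_residueField (I := p.asIdeal))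
    rwa [hpq] at hq
  obtain ⟨_, ⟨_, ⟨f, rfl⟩, rfl⟩, hpf, hfa⟩ := PrimeSpectrum.isBasis_basic_opens.exists_subset_of_mem_open
    hpa (E.isOpen_acyclicTwSet Etw ξ)
  let Rf := Localization.Away f
  let φ : R →ₐ[k] Rf := IsScalarTower.toAlgHom k R Rf
  have hemb := PrimeSpectrum.localization_away_isOpenEmbedding Rf f
  have hrange := PrimeSpectrum.localization_away_comap_range Rf f
  have hacf : E.AcyclicTw Etw Rf (Pic.comap (crMap c R Rf φ) ξ) :=
    (E.acyclicTw_comap_iff Etw φ ξ).2 fun q => hfa (hrange.le ⟨q, rfl⟩)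
  obtain ⟨I, hf, hpj, hI⟩ := hin.exists_ideal Rf _ (comap_sigR_crMap φ hrig) hacf
  have hiff : ∀ r, InChartAt E H Etw b ξ (PrimeSpectrum.comap φ.toRingHom r) ↔
      r ∈ spanLocus b I := by
    intro r
    rw [← hin.inChartAt_comap_iff φ hrig r]
    show E.InChart H Etw b _ _ ↔ _
    rw [← hI, hin.inChart_comap_iff I (hI ▸ hacf)]
    obtain ⟨q⟩ : Nonempty (PrimeSpectrum r.asIdeal.ResidueField) := inferInstance
    have hr : ∀ q : PrimeSpectrum r.asIdeal.ResidueField, PrimeSpectrum.comap
        (IsScalarTower.toAlgHom k Rf r.asIdeal.ResidueField).toRingHom q = r := fun q =>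
      PrimeSpectrum.ext (by
        rw [PrimeSpectrum.comap_asIdeal,
          (Ideal.eq_bot_or_top q.asIdeal).resolve_right q.2.ne_top]
        exact Ideal.ker_algebraMap_residueField (I := r.asIdeal))
    exact ⟨fun h => hr q ▸ h q, fun h q' => (hr q').symm ▸ h⟩
  refine ⟨PrimeSpectrum.comap φ.toRingHom '' spanLocus b I, ?_,
    hemb.isOpenMap _ (isOpen_spanLocus b I), ?_⟩
  · rintro _ ⟨r, hr, rfl⟩
    exact (hiff r).2 hr
  · obtain ⟨r, hr⟩ := hrange.ge hpf
    exact ⟨r, (hiff r).1 (by rw [show PrimeSpectrum.comap φ.toRingHom r = p from hr]; exact hp), hr⟩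

end EpsChart

end Fermat.Agent.Jacobian
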