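import Fermat.Agent.Jacobian.Divisor.ChartBasis
import Fermat.Agent.Jacobian.Represent.ChartClass
import Fermat.Agent.Jacobian.Represent.DivisorOfSection
import Fermat.Agent.Jacobian.Represent.EpsTwist
import Fermat.Agent.Jacobian.Represent.InChart

/-!
# Classes without cohomology after a twist come from chart ideals

A rigidified class `ξ` on `C_R` such that `ξ ⊗ Etw` has no cohomology is the class of the ideal of
the section of `ξ ⊗ Etw ⊗ O(ε)` which is nowhere zero along the base section.  Over a field that
ideal has a basis of functions on the first chart, so `ξ` lies in a chart.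
-/

set_option autoImplicit false

noncomputable section

universe u

open CategoryTheory CategoryTheory.Limits AlgebraicGeometry AlgebraicGeometry.RelPicard
  NeronModelInfra TensorProduct

namespace Fermat.Agent.Jacobian

variable {k : Type u} [Field k] {C : Scheme.{u}} {c : C ⟶ Spec (CommRingCat.of k)}
  {ε : SchemeHomOver (𝟙 (Spec (CommRingCat.of k))) c}

namespace EpsChart

variable (E : EpsChart c ε) (H : FibresLocallyPrincipal k (Fun c E.U₀))

/-- Pullbacks of classes from the curve are trivial along the base section. -/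
theorem comap_sigR_comap_prC (R : Type u) [CommRing R] [Algebra k R] (Etw : Pic C) :
    Pic.comap (sigR c ε R) (Pic.comap (prC c R) Etw) = 1 := by
  rw [← Pic.comap_comp, sigR_prC, Pic.comap_comp, pic_spec_field (Pic.comap ε.1 _), map_one]

/-- The twisted class has a cocycle with a section defining a divisor. -/
theorem exists_divisorSect {R : Type u} [CommRing R] [Algebra k R] (Etw : Pic C)
    (ξ : Pic (CR c R)) (hrig : Pic.comap (sigR c ε R) ξ = 1) (hac : E.AcyclicTw Etw R ξ) :
    ∃ (N : LineCocycle (CR c R)) (s : N.Sect ⊤),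
      Pic.mk N = ξ * Pic.comap (prC c R) Etw * Pic.mk (E.oepsR R) ∧
        (E.toCurveChart.baseChange R).IsDivisorSect s := by
  obtain ⟨L, hL⟩ := Pic.mk_surjective (ξ * Pic.comap (prC c R) Etw)
  have hd := hac L hL
  have hrigL : Pic.comap (sigR c ε R) (Pic.mk L) = 1 := by
    rw [hL, map_mul, hrig, one_mul, comap_sigR_comap_prC]
  obtain ⟨s, hs⟩ := E.exists_section L hrigL hd.2
  obtain ⟨W', hcov, -, hfr⟩ := E.exists_frame_open hs
  refine ⟨L.mul (E.oepsR R), s, by rw [← Pic.mk_mul, hL],
    { frame := ⟨W', hcov, hfr⟩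
      surjective := E.surjective_d_mul_oepsR L hd.2
      scalar := fun t => ?_ }⟩
  obtain ⟨r, hr, -⟩ := E.existsUnique_scalar_smul L hd.1 hs t
  exact ⟨r, hr.symm⟩

/-- **Coverage.** Over a field, a rigidified class with acyclic twist lies in the chart of some
family of `g` functions. -/
theorem exists_inChart_of_acyclicTw {K : Type u} [Field K] [Algebra k K] {g : ℕ}
    (hg : Module.finrank k (E.toCurveChart.cech LineCocycle.one).H1 = g) (Etw : Pic C)
    (ξ : Pic (CR c K)) (hrig : Pic.comap (sigR c ε K) ξ = 1) (hac : E.AcyclicTw Etw K ξ) :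
    ∃ b : Fin g → Fun c E.U₀, E.InChart H Etw b K ξ := by
  obtain ⟨N, s, hN, hds⟩ := E.exists_divisorSect Etw ξ hrig hac
  have := hds.finite_secIdeal
  have := hds.projective_secIdeal
  obtain ⟨b, hb⟩ := exists_isChartIdeal (E.toCurveChart.secIdeal s)
  have hn := hds.finrank_secIdeal hg
  revert b
  rw [hn]
  intro b hb
  refine ⟨b, hac, _, hb, ?_⟩
  show E.chartClass _ H Etw = ξ
  rw [E.chartClass_eq_iff _ H Etw ξ, hds.chartCls_secIdeal H, hN]

end EpsChart

end Fermat.Agent.Jacobian
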