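import Fermat.Agent.Jacobian.Represent.Charts
import Fermat.Agent.Jacobian.Assembly
import Fermat.Agent.Jacobian.RiemannRoch.Degree

/-!
# Assembling the Jacobian from the charts of all twists and bases
-/

set_option autoImplicit false

noncomputable section

universe u

open CategoryTheory CategoryTheory.Limits AlgebraicGeometry AlgebraicGeometry.RelPicard
  NeronModelInfra TensorProduct

namespace Fermat.Agent.Jacobian

variable {k : Type u} [Field k] [IsAlgClosed k] {C : Scheme.{u}} [IsIntegral C]
  {c : C ⟶ Spec (CommRingCat.of k)} [IsProper c]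
  {ε : SchemeHomOver (𝟙 (Spec (CommRingCat.of k))) c}

/-- The twists used for the charts: classes of degree `g - 1`. -/
def ChartTwist (E : EpsChart c ε) : Type u :=
  {Etw : Pic C // E.toCurveChart.deg Etw = (E.toCurveChart.genus : ℤ) - 1}

/-- A chart: a twist and `g` functions on the first open. -/
def ChartIndex (E : EpsChart c ε) : Type u :=
  ChartTwist E × (Fin E.toCurveChart.genus → Fun c E.U₀)

/-- **The Jacobian from the inputs on charts.** -/
theorem exists_jacobian_of_inputs (E : EpsChart c ε)
    (H : FibresLocallyPrincipal k (Fun c E.U₀))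
    (hin : ∀ i : ChartIndex E, E.ChartInputs H i.1.1 i.2)
    (hcut : ∀ {T : Scheme.{u}} (t : T ⟶ Spec (CommRingCat.of k))
      (M : RigidifiedLineBundle c ε t),
      (algEquivZeroCut c ε).P t M ↔ ∀ (K : Type u) [Field K] [IsAlgClosed K] [Algebra k K]
        (s : SchemeHomOver (specAlg (k := k) K) t),
        PicAlgEquivZero (prR c K) (Pic.comap (baseChangeSnd c s) (bundleClass M)))
    (hzero : ∀ (i : ChartIndex E) (K : Type u) [Field K] [IsAlgClosed K] [Algebra k K]
      (ξ : Pic (CR c K)), E.InChart H i.1.1 i.2 K ξ → PicAlgEquivZero (prR c K) ξ)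
    (hcov : ∀ (K : Type u) [Field K] [IsAlgClosed K] [Algebra k K] (ξ : Pic (CR c K)),
      Pic.comap (sigR c ε K) ξ = 1 → PicAlgEquivZero (prR c K) ξ →
        ∃ i : ChartIndex E, E.InChart H i.1.1 i.2 K ξ)
    (hsmooth : ∀ i : ChartIndex E, Smooth (E.chartStr H i.1.1 i.2))
    (n : ℕ) (η : (subPicFunctor (algEquivZeroCut c ε)).obj (powHom c n))
    (hη : ∀ (K : Type u) [Field K] [IsAlgClosed K] [Algebra k K]
      (a : (subPicFunctor (algEquivZeroCut c ε)).obj (specAlg (k := k) K)),
      ∃ (s : Spec (CommRingCat.of K) ⟶ (powOver c n).left)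
        (hs : s ≫ powHom c n = specAlg (k := k) K),
        (subPicFunctor (algEquivZeroCut c ε)).map s hs η = a) :
    ∃ D : GoodReductionJacobian.RelativePic0Designation k c,
      Nonempty (RepresentsRelSubPic c ε (algEquivZeroCut c ε) D) ∧
        Smooth D.toBase ∧ IsProper D.toBase ∧ GeometricallyConnected D.toBase := by
  have hF : (subPicFunctor (algEquivZeroCut c ε)).Glues :=
    glues_subPicFunctor _ (picDescent c ε) isLocalCondition_algEquivZeroCut
  let A : ∀ i : ChartIndex E, (subPicFunctor (algEquivZeroCut c ε)).AffineChart := fun i =>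
    (hin i).affineChart (algEquivZeroCut c ε) fun t M h =>
      (hcut t M).2 fun K _ _ _ s => hzero i K _ (h K s)
  refine exists_jacobian_of_charts c ε (fun i => (A i).toChart hF) hsmooth
    (fun K _ _ _ a => ?_) n η hη
  obtain ⟨M, hMP, hM⟩ := a.2
  have hrig : Pic.comap (sigR c ε K) a.1 = 1 := hM ▸ comap_rigSection_bundleClass M
  have hae : PicAlgEquivZero (prR c K) a.1 := by
    have h := (hcut _ M).1 hMP K ⟨𝟙 _, Category.id_comp _⟩
    rw [baseChangeSnd_id, Pic.comap_id, hM] at h
    exact h
  obtain ⟨i, hi⟩ := hcov K a.1 hrig hae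
  obtain ⟨f, hf⟩ := (EpsChart.exists_point_iff _).2 hi
  exact ⟨i, f.1, f.2, Subtype.ext hf⟩

end Fermat.Agent.Jacobian
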