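import Fermat.Agent.Jacobian.Cech.Acyclic
import Fermat.Agent.Jacobian.Curve.ChartBaseChange
import Fermat.Agent.Jacobian.Represent.AffineData

/-!
# Degree in fibres

The degree `χ(L) - χ(𝒪)` is invariant under extension of the field, and the fibre degree of a class
over a base ring is locally constant, hence constant over an irreducible base.
-/

set_option autoImplicit false

noncomputable section

universe u

open CategoryTheory CategoryTheory.Limits AlgebraicGeometry AlgebraicGeometry.RelPicard
  NeronModelInfra TensorProduct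

namespace Fermat.Agent.Jacobian

section Field

variable {k : Type u} [Field k] {C : Scheme.{u}} {c : C ⟶ Spec (CommRingCat.of k)}

namespace CurveChart

variable (D : CurveChart c)

/-- Isomorphic cocycles have the same Euler characteristic. -/
theorem chi_cech_congr {L M : LineCocycle C} (h : Pic.mk L = Pic.mk M) :
    (D.cech L).chi = (D.cech M).chi :=
  (D.cechIso (Pic.mk_eq_mk.mp h).some).index_eq.symm

/-- `χ(L) - χ(𝒪)`. -/
def chiDeg (ξ : Pic C) : ℤ :=
  Quotient.lift (fun L : LineCocycle C => (D.cech L).chi - (D.cech .one).chi)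
    (fun _ _ h => congrArg (· - (D.cech .one).chi)
      (D.chi_cech_congr (Pic.mk_eq_mk.mpr h))) ξ

lemma chiDeg_mk (L : LineCocycle C) :
    D.chiDeg (Pic.mk L) = (D.cech L).chi - (D.cech .one).chi := rfl

@[simp] lemma chiDeg_one : D.chiDeg 1 = 0 := sub_self _

/-- A class without cohomology has degree `-χ(𝒪)`. -/
theorem chiDeg_of_acyclicClass {ξ : Pic C} (h : D.AcyclicClass ξ) :
    D.chiDeg ξ = -(D.cech .one).chi := by
  obtain ⟨L, rfl⟩ := Pic.mk_surjective ξ
  rw [chiDeg_mk, PatchedModule.chi_eq_zero_of_bijective _ (h L rfl), zero_sub]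

end CurveChart

variable {K : Type u} [Field K] [Algebra k K] {C' : Scheme.{u}}
  {c' : C' ⟶ Spec (CommRingCat.of K)} {f : C' ⟶ C} {D : CurveChart c} {D' : CurveChart c'}

/-- The Euler characteristic is invariant under extension of the field. -/
theorem ChartBaseChange.chi_cech (H : ChartBaseChange (S := K) D D' f) (L : LineCocycle C) :
    (D'.cech (L.comap f)).chi = (D.cech L).chi :=
  (H.iso L).index_eq.trans ((D.cech L).chi_baseChange K)

/-- The Euler characteristic of the structure sheaf is invariant under extension of the field. -/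
theorem ChartBaseChange.chi_cech_one (H : ChartBaseChange (S := K) D D' f) :
    (D'.cech .one).chi = (D.cech .one).chi := by
  rw [← H.chi_cech .one]
  exact D'.chi_cech_congr (map_one (Pic.comap f)).symm

/-- The degree is invariant under extension of the field. -/
theorem ChartBaseChange.chiDeg_comap (H : ChartBaseChange (S := K) D D' f) (ξ : Pic C) :
    D'.chiDeg (Pic.comap f ξ) = D.chiDeg ξ := by
  obtain ⟨L, rfl⟩ := Pic.mk_surjective ξ
  rw [Pic.comap_mk, CurveChart.chiDeg_mk, CurveChart.chiDeg_mk, H.chi_cech, H.chi_cech_one]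

namespace CurveChart

variable (D)

variable (K) in
theorem chi_baseChange_one : ((D.baseChange K).cech .one).chi = (D.cech .one).chi :=
  (D.chartBaseChange K).chi_cech_one

/-- The degree of a class pulled back from the curve. -/
theorem chiDeg_comap_prC (ξ : Pic C) :
    (D.baseChange K).chiDeg (Pic.comap (prC c K) ξ) = D.chiDeg ξ :=
  (D.chartBaseChange K).chiDeg_comap ξ

/-- The degree on `C_K` is invariant under extension of `K`. -/
theorem chiDeg_comap_crMap {K' : Type u} [Field K'] [Algebra k K'] (φ : K →ₐ[k] K')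
    (ξ : Pic (CR c K)) :
    (D.baseChange K').chiDeg (Pic.comap (crMap c K K' φ) ξ) = (D.baseChange K).chiDeg ξ := by
  let _a : Algebra K K' := φ.toRingHom.toAlgebra
  have : IsScalarTower k K K' := IsScalarTower.of_algebraMap_eq fun x => (φ.commutes x).symm
  exact (D.chartBaseChange_crMap K K').chiDeg_comap ξ

/-- If the translate of `ξ` by a class of degree `g - 1` has no cohomology, `ξ` has degree `0`. -/
theorem chiDeg_eq_zero_of_acyclicClass {E : Pic C} (hE : D.chiDeg E = -(D.cech .one).chi)
    {ξ : Pic (CR c K)} (hξ : (D.baseChange K).AcyclicClass (ξ * Pic.comap (prC c K) E))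
    (hmul : (D.baseChange K).chiDeg (ξ * Pic.comap (prC c K) E) =
      (D.baseChange K).chiDeg ξ + (D.baseChange K).chiDeg (Pic.comap (prC c K) E)) :
    (D.baseChange K).chiDeg ξ = 0 := by
  rw [(D.baseChange K).chiDeg_of_acyclicClass hξ, chiDeg_comap_prC, chi_baseChange_one, hE]
    at hmul
  omega

end CurveChart

end Field

section Fibre

variable {k : Type u} [Field k] {C : Scheme.{u}} {c : C ⟶ Spec (CommRingCat.of k)}
  (D : CurveChart c) {R : Type u} [CommRing R] [Algebra k R]

lemma crMap_comp {R' R'' : Type u} [CommRing R'] [Algebra k R'] [CommRing R''] [Algebra k R'']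
    (φ : R →ₐ[k] R') (ψ : R' →ₐ[k] R'') :
    crMap c R R'' (ψ.comp φ) = crMap c R' R'' ψ ≫ crMap c R R' φ := by
  apply pullback.hom_ext
  · rw [Category.assoc, crMap_prC, crMap_prC, crMap_prC]
  · rw [Category.assoc, crMap_prR, crMap_prR, crMap_prR_assoc, ← Spec.map_comp,
      ← CommRingCat.ofHom_comp]
    rfl

namespace CurveChart

/-- The degree of `ξ` on the fibre over `p`. -/
def fibreDeg (ξ : Pic (CR c R)) (p : PrimeSpectrum R) : ℤ :=
  (D.baseChange p.asIdeal.ResidueField).chiDeg
    (Pic.comap (crMap c R _ (IsScalarTower.toAlgHom k R p.asIdeal.ResidueField)) ξ)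

theorem fibreDeg_eq_fibreChi (L : LineCocycle (CR c R)) (p : PrimeSpectrum R) :
    D.fibreDeg (Pic.mk L) p =
      ((D.baseChange R).cech L).fibreChi p - ((D.baseChange R).cech .one).fibreChi p := by
  set H := D.chartBaseChange_crMap R p.asIdeal.ResidueField
  rw [fibreDeg, Pic.comap_mk, chiDeg_mk]
  refine congrArg₂ (· - ·) (H.iso L).index_eq ?_
  refine Eq.trans ?_ (H.iso .one).index_eq
  exact CurveChart.chi_cech_congr _ (map_one (Pic.comap _)).symm

/-- The fibre degree is locally constant on the base. -/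
theorem isLocallyConstant_fibreDeg (ξ : Pic (CR c R)) : IsLocallyConstant (D.fibreDeg ξ) := by
  obtain ⟨L, rfl⟩ := Pic.mk_surjective ξ
  rw [funext (D.fibreDeg_eq_fibreChi L)]
  exact ((D.baseChange R).cech L).isLocallyConstant_fibreChi.comp₂
    ((D.baseChange R).cech .one).isLocallyConstant_fibreChi fun a b => a - b

/-- The degree at a point with values in a field is the fibre degree at its image. -/
theorem chiDeg_comap_crMap_eq_fibreDeg {K : Type u} [Field K] [Algebra k K] (φ : R →ₐ[k] K)
    (ξ : Pic (CR c R)) :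
    (D.baseChange K).chiDeg (Pic.comap (crMap c R K φ) ξ) =
      D.fibreDeg ξ ⟨RingHom.ker φ.toRingHom, RingHom.ker_isPrime _⟩ := by
  set P : Ideal R := RingHom.ker φ.toRingHom
  have : P.IsPrime := RingHom.ker_isPrime _
  let ψ : P.ResidueField →ₐ[k] K := Ideal.ResidueField.liftₐ P φ le_rfl
    fun x hx => IsUnit.mk0 (φ x) fun h => hx h
  have h : φ = ψ.comp (IsScalarTower.toAlgHom k R P.ResidueField) :=
    (Ideal.ResidueField.liftₐ_comp_toAlgHom _ _ _ _).symm
  conv_lhs => rw [h, crMap_comp, Pic.comap_comp]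
  exact D.chiDeg_comap_crMap ψ _

/-- A degree on all geometric fibres is the degree at all residue fields. -/
theorem forall_chiDeg_iff (ξ : Pic (CR c R)) (n : ℤ) :
    (∀ (K : Type u) [Field K] [IsAlgClosed K] [Algebra k K] (φ : R →ₐ[k] K),
      (D.baseChange K).chiDeg (Pic.comap (crMap c R K φ) ξ) = n) ↔
        ∀ p : PrimeSpectrum R, D.fibreDeg ξ p = n := by
  refine ⟨fun h p => ?_, fun h K _ _ _ φ => (D.chiDeg_comap_crMap_eq_fibreDeg φ ξ).trans (h _)⟩
  let K := AlgebraicClosure p.asIdeal.ResidueField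
  have h' := h K ((IsScalarTower.toAlgHom k p.asIdeal.ResidueField K).comp
    (IsScalarTower.toAlgHom k R p.asIdeal.ResidueField))
  rw [crMap_comp, Pic.comap_comp, chiDeg_comap_crMap] at h'
  exact h'

variable {T : Scheme.{u}} (t : T ⟶ Spec (CommRingCat.of k)) (η : Pic (pullback c t))

/-- Two points of an irreducible scheme in one affine open give fibres of the same degree. -/
theorem chiDeg_eq_of_mem_affine [IrreducibleSpace T] {U : T.Opens} (hU : IsAffineOpen U)
    {K K' : Type u} [Field K] [Algebra k K] [Field K'] [Algebra k K']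
    (s : SchemeHomOver (specAlg (k := k) K) t) (s' : SchemeHomOver (specAlg (k := k) K') t)
    (hs : ∀ z, s.1 z ∈ U) (hs' : ∀ z, s'.1 z ∈ U) :
    (D.baseChange K).chiDeg (Pic.comap (baseChangeSnd c s) η) =
      (D.baseChange K').chiDeg (Pic.comap (baseChangeSnd c s') η) := by
  obtain ⟨_a, ha⟩ := exists_algebra_specAlg (hU.fromSpec ≫ t)
  let j : SchemeHomOver (specAlg (k := k) Γ(T, U)) t := ⟨hU.fromSpec, ha⟩
  have key : ∀ (L : Type u) [Field L] [Algebra k L] (s : SchemeHomOver (specAlg (k := k) L) t),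
      (∀ z, s.1 z ∈ U) → ∃ φ : Γ(T, U) →ₐ[k] L, postComp j (specHomOver φ) = s := by
    intro L _ _ s hs
    have hr : Set.range s.1 ⊆ Set.range hU.fromSpec := by
      rw [hU.range_fromSpec]; rintro _ ⟨z, rfl⟩; exact hs z
    let g := IsOpenImmersion.lift hU.fromSpec s.1 hr
    have hg : g ≫ hU.fromSpec = s.1 := IsOpenImmersion.lift_fac _ _ _
    obtain ⟨χ, hχ⟩ := Spec.map_surjective g
    have hcomm : CommRingCat.ofHom (algebraMap k Γ(T, U)) ≫ χ =
        CommRingCat.ofHom (algebraMap k L) := by
      apply Spec.map_injective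
      rw [Spec.map_comp, hχ]
      show g ≫ specAlg (k := k) Γ(T, U) = specAlg (k := k) L
      rw [← ha, reassoc_of% hg]
      exact s.2
    let φ : Γ(T, U) →ₐ[k] L :=
      { χ.hom with commutes' := fun x => congr($hcomm x) }
    refine ⟨φ, Subtype.ext ?_⟩
    show Spec.map (CommRingCat.ofHom φ.toRingHom) ≫ hU.fromSpec = s.1
    rw [← hg, ← hχ]
    rfl
  obtain ⟨φ, rfl⟩ := key K s hs
  obtain ⟨φ', rfl⟩ := key K' s' hs'
  rw [← baseChangeSnd_comp, ← baseChangeSnd_comp, Pic.comap_comp, Pic.comap_comp,
    baseChangeSnd_specHomOver, baseChangeSnd_specHomOver]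
  rw [D.chiDeg_comap_crMap_eq_fibreDeg, D.chiDeg_comap_crMap_eq_fibreDeg]
  have hlc := D.isLocallyConstant_fibreDeg (Pic.comap (baseChangeSnd c j) η)
  have hopen : ∀ n, IsOpen (hU.fromSpec ''
      {p : Spec (CommRingCat.of Γ(T, U)) | D.fibreDeg (Pic.comap (baseChangeSnd c j) η) p = n}) :=
    fun n => hU.fromSpec.isOpenEmbedding.isOpenMap _ (hlc.isOpen_fiber n)
  obtain ⟨_, ⟨p, hp, rfl⟩, q, hq, hpq⟩ := nonempty_preirreducible_inter (hopen _) (hopen _)
    (Set.Nonempty.image _ ⟨_, rfl⟩) (Set.Nonempty.image _ ⟨_, rfl⟩)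
  exact hp.symm.trans ((congrArg _ (hU.fromSpec.isOpenEmbedding.injective hpq).symm).trans hq)

/-- The fibre degree is constant over an irreducible base. -/
theorem chiDeg_eq_of_irreducible [IrreducibleSpace T]
    {K K' : Type u} [Field K] [Algebra k K] [Field K'] [Algebra k K']
    (s : SchemeHomOver (specAlg (k := k) K) t) (s' : SchemeHomOver (specAlg (k := k) K') t) :
    (D.baseChange K).chiDeg (Pic.comap (baseChangeSnd c s) η) =
      (D.baseChange K').chiDeg (Pic.comap (baseChangeSnd c s') η) := by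
  obtain ⟨z⟩ := (inferInstance : Nonempty (Spec (CommRingCat.of K)))
  obtain ⟨z'⟩ := (inferInstance : Nonempty (Spec (CommRingCat.of K')))
  obtain ⟨U, hU, hzU, -⟩ := exists_isAffineOpen_mem_and_subset
    (show s.1 z ∈ (⊤ : T.Opens) from trivial)
  obtain ⟨V, hV, hzV, -⟩ := exists_isAffineOpen_mem_and_subset
    (show s'.1 z' ∈ (⊤ : T.Opens) from trivial)
  obtain ⟨x, hxU, hxV⟩ := nonempty_preirreducible_inter U.isOpen V.isOpen ⟨_, hzU⟩ ⟨_, hzV⟩
  obtain ⟨_a, ha⟩ := exists_algebra_specAlg (T.fromSpecResidueField x ≫ t)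
  let i : SchemeHomOver (specAlg (k := k) (T.residueField x)) t :=
    ⟨T.fromSpecResidueField x, ha⟩
  have hi : ∀ w, i.1 w = x := fun w => T.fromSpecResidueField_apply x w
  have hconst : ∀ {L : Type u} [Field L] (g : Spec (CommRingCat.of L) ⟶ T) (w w'),
      g w = g w' := fun g w w' =>
    congrArg g (Subsingleton.elim (α := PrimeSpectrum _) w w')
  rw [D.chiDeg_eq_of_mem_affine t η hU s i (fun w => by rw [hconst s.1 w z]; exact hzU)
    fun w => by rw [hi]; exact hxU]
  exact (D.chiDeg_eq_of_mem_affine t η hV s' i (fun w => by rw [hconst s'.1 w z']; exact hzV)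
    fun w => by rw [hi]; exact hxV).symm

end CurveChart

end Fibre

end Fermat.Agent.Jacobian
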