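import Fermat.Agent.Jacobian.Properties.AlgEquivDegree
import Fermat.Agent.Jacobian.RiemannRoch.Translate
import Fermat.Agent.Jacobian.Represent.Coverage
import Fermat.Agent.Jacobian.Represent.Final

/-!
# The charts reach every geometric point

A class on `C_K` algebraically equivalent to zero has degree zero; a translate of it by a class of
`C` without cohomology then has degree `g - 1`, so it lies in one of the charts.
-/

set_option autoImplicit false

noncomputable section

universe u

open CategoryTheory CategoryTheory.Limits AlgebraicGeometry AlgebraicGeometry.RelPicard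
  NeronModelInfra TensorProduct

namespace Fermat.Agent.Jacobian

variable {k : Type u} [Field k] [IsAlgClosed k] {C : Scheme.{u}} [IsIntegral C]
  {c : C ⟶ Spec (CommRingCat.of k)} [IsProper c] [SmoothOfRelativeDimension 1 c]
  {ε : SchemeHomOver (𝟙 (Spec (CommRingCat.of k))) c}

/-- On `C_K` classes algebraically equivalent to zero are those of degree zero. -/
theorem deg_baseChange_eq_zero (D : CurveChart c) {K : Type u} [Field K] [IsAlgClosed K]
    [Algebra k K] {ξ : Pic (CR c K)} (hξ : PicAlgEquivZero (prR c K) ξ) :
    (D.baseChange K).deg ξ = 0 := by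
  have : IsIntegral (CR c K) := isIntegral_CR c K
  have : SmoothOfRelativeDimension 1 (prR c K) := CurveChart.smoothOfRelativeDimension_prR K
  have : LocallyOfFiniteType (prR c K) :=
    inferInstanceAs (LocallyOfFiniteType (pullback.snd c (specAlg (k := k) K)))
  exact ((D.baseChange K).picAlgEquivZero_iff_deg_eq_zero ξ).1 hξ

/-- **The charts cover.** -/
theorem exists_chartIndex_inChart (E : EpsChart c ε)
    (H : FibresLocallyPrincipal k (Fun c E.U₀)) {K : Type u} [Field K] [IsAlgClosed K]
    [Algebra k K] (ξ : Pic (CR c K)) (hrig : Pic.comap (sigR c ε K) ξ = 1)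
    (hξ : PicAlgEquivZero (prR c K) ξ) :
    ∃ i : ChartIndex E, E.InChart H i.1.1 i.2 K ξ := by
  obtain ⟨M, hdeg, hM⟩ := E.toCurveChart.exists_translate K ξ
    (deg_baseChange_eq_zero E.toCurveChart hξ)
  have hg : Module.finrank k (E.toCurveChart.cech LineCocycle.one).H1 = E.toCurveChart.genus :=
    (E.toCurveChart.h1_mk LineCocycle.one).symm
  obtain ⟨b, hb⟩ := E.exists_inChart_of_acyclicTw H hg M ξ hrig hM
  exact ⟨⟨⟨M, hdeg⟩, b⟩, hb⟩

end Fermat.Agent.Jacobian
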