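import Fermat.Agent.Jacobian.Properties.AlgEquivGroup
import Fermat.Agent.Jacobian.Represent.AffineChart

/-!
# The algebraic-equivalence cut on geometric points

A rigidified bundle on `C ×ₖ T` lies in the cut iff for every algebraically closed field `K` over
`k` and every `K`-point of `T` over `k` its class on `C_K` is algebraically equivalent to zero.
-/

set_option autoImplicit false

noncomputable section

universe u

open CategoryTheory CategoryTheory.Limits AlgebraicGeometry AlgebraicGeometry.RelPicard
  NeronModelInfra

namespace Fermat.Agent.Jacobian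

variable {k : Type u} [Field k] {C : Scheme.{u}} {c : C ⟶ Spec (CommRingCat.of k)}
  {ε : SchemeHomOver (𝟙 (Spec (CommRingCat.of k))) c}
  {T : Scheme.{u}} {t : T ⟶ Spec (CommRingCat.of k)}

section point

variable {K : Type u} [Field K] [Algebra k K] (s : SchemeHomOver (specAlg (k := k) K) t)

/-- The fibre at a point valued in `K` and `C_K`: from the former to the latter. -/
def fibreToCR : pullback (pullback.snd c t) s.1 ⟶ CR c K :=
  pullback.lift (pullback.fst _ _ ≫ pullback.fst c t) (pullback.snd _ _) (by
    rw [Category.assoc, pullback.condition, pullback.condition_assoc, s.2])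

/-- From `C_K` to the fibre. -/
def crToFibre : CR c K ⟶ pullback (pullback.snd c t) s.1 :=
  pullback.lift (baseChangeSnd c s) (prR c K) (pullback.lift_snd _ _ _)

lemma fibreToCR_prR : fibreToCR s ≫ prR c K = fibreAt c t s.1 :=
  pullback.lift_snd _ _ _

lemma fibreToCR_baseChangeSnd :
    fibreToCR s ≫ baseChangeSnd c s = pullback.fst (pullback.snd c t) s.1 := by
  apply pullback.hom_ext
  · simp only [fibreToCR, baseChangeSnd, pullback.map, Category.assoc, pullback.lift_fst,
      pullback.lift_fst_assoc, Category.comp_id]
  · simp only [fibreToCR, baseChangeSnd, Category.assoc, pullback.lift_snd,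
      pullback.lift_snd_assoc]
    exact pullback.condition.symm

lemma crToFibre_fibreAt : crToFibre s ≫ fibreAt c t s.1 = prR c K :=
  pullback.lift_snd _ _ _

lemma crToFibre_fst :
    crToFibre s ≫ pullback.fst (pullback.snd c t) s.1 = baseChangeSnd c s :=
  pullback.lift_fst _ _ _

/-- Algebraic equivalence to zero on the fibre and on `C_K` agree. -/
theorem picAlgEquivZero_fibre_iff (ξ : Pic (pullback c t)) :
    PicAlgEquivZero (fibreAt c t s.1) (Pic.comap (pullback.fst (pullback.snd c t) s.1) ξ) ↔
      PicAlgEquivZero (prR c K) (Pic.comap (baseChangeSnd c s) ξ) := by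
  constructor <;> intro h
  · have := h.comap (crToFibre s) (crToFibre_fibreAt s)
    rwa [← Pic.comap_comp, crToFibre_fst] at this
  · have := h.comap (fibreToCR s) (fibreToCR_prR s)
    rwa [← Pic.comap_comp, fibreToCR_baseChangeSnd] at this

end point

/-- The cut, tested on algebraically closed fields over `k`. -/
theorem algEquivZeroCut_iff_points (M : RigidifiedLineBundle c ε t) :
    (algEquivZeroCut c ε).P t M ↔
      ∀ (K : Type u) [Field K] [IsAlgClosed K] [Algebra k K]
        (s : SchemeHomOver (specAlg (k := k) K) t),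
        PicAlgEquivZero (prR c K) (Pic.comap (baseChangeSnd c s) (bundleClass M)) := by
  refine Iff.trans (fibrewiseAlgEquivZero_iff M) ⟨fun h K _ _ _ s => ?_, fun h K _ _ s₀ => ?_⟩
  · exact (picAlgEquivZero_fibre_iff s (bundleClass M)).mp (h K s.1)
  · let _ : Algebra k K := (Spec.preimage (s₀ ≫ t)).hom.toAlgebra
    let s : SchemeHomOver (specAlg (k := k) K) t := ⟨s₀, (Spec.map_preimage (s₀ ≫ t)).symm⟩
    exact (picAlgEquivZero_fibre_iff s (bundleClass M)).mpr (h K s)

/-- The same for elements of the functor of the cut. -/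
theorem picAlgEquivZero_of_obj (a : (subPicFunctor (algEquivZeroCut c ε)).obj t)
    (K : Type u) [Field K] [IsAlgClosed K] [Algebra k K]
    (s : SchemeHomOver (specAlg (k := k) K) t) :
    PicAlgEquivZero (prR c K) (Pic.comap (baseChangeSnd c s) a.1) := by
  obtain ⟨M, hM, hMa⟩ := a.2
  rw [← hMa]
  exact (algEquivZeroCut_iff_points M).mp hM K s

/-- Elements of the functor of the cut are the rigidified classes algebraically equivalent to zero
at every geometric point. -/
theorem exists_obj_iff_points (ξ : Pic (pullback c t)) :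
    (∃ a : (subPicFunctor (algEquivZeroCut c ε)).obj t, a.1 = ξ) ↔
      Pic.comap (rigSection c t ε) ξ = 1 ∧
        ∀ (K : Type u) [Field K] [IsAlgClosed K] [Algebra k K]
          (s : SchemeHomOver (specAlg (k := k) K) t),
          PicAlgEquivZero (prR c K) (Pic.comap (baseChangeSnd c s) ξ) := by
  constructor
  · rintro ⟨a, rfl⟩
    refine ⟨?_, fun K _ _ _ s => picAlgEquivZero_of_obj a K s⟩
    obtain ⟨M, -, hMa⟩ := a.2
    rw [← hMa]
    exact comap_rigSection_bundleClass M
  · rintro ⟨h₁, h₂⟩
    obtain ⟨M, rfl⟩ := exists_bundleClass_eq h₁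
    exact ⟨⟨bundleClass M, M, (algEquivZeroCut_iff_points M).mpr h₂, rfl⟩, rfl⟩

/-- For a point of a field: the value itself. -/
theorem picAlgEquivZero_obj_specAlg {K : Type u} [Field K] [IsAlgClosed K] [Algebra k K]
    (a : (subPicFunctor (algEquivZeroCut c ε)).obj (specAlg (k := k) K)) :
    PicAlgEquivZero (prR c K) a.1 := by
  have h := picAlgEquivZero_of_obj a K ⟨𝟙 _, Category.id_comp _⟩
  rwa [baseChangeSnd_id, Pic.comap_id] at h

end Fermat.Agent.Jacobian
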