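import Fermat.Agent.Jacobian.Represent.InChart
import Fermat.Agent.Jacobian.Represent.EpsTwist
import Fermat.Agent.Jacobian.Represent.DivisorOfSection

/-!
# The inputs of a chart

For an acyclic rigidified class the twist by the base point has, up to a unit, one section which is
nowhere zero along the base section; its chart ideal gives the class back.  This proves
`ChartInputs`.
-/

set_option autoImplicit false

noncomputable section

universe u

open CategoryTheory CategoryTheory.Limits AlgebraicGeometry AlgebraicGeometry.RelPicard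
  NeronModelInfra TensorProduct

namespace Fermat.Agent.Jacobian

variable {k : Type u} [Field k] {C : Scheme.{u}} {c : C ⟶ Spec (CommRingCat.of k)}
  {ε : SchemeHomOver (𝟙 (Spec (CommRingCat.of k))) c}

namespace EpsChart

open LineCocycle

variable (E : EpsChart c ε) (H : FibresLocallyPrincipal k (Fun c E.U₀)) (Etw : Pic C)
  {R : Type u} [CommRing R] [Algebra k R]

/-- Classes from `C` are trivial along the base section. -/
theorem comap_sigR_prC_eq_one (η : Pic C) :
    Pic.comap (sigR c ε R) (Pic.comap (prC c R) η) = 1 := by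
  rw [← Pic.comap_comp, sigR_prC, Pic.comap_comp, pic_spec_field (Pic.comap ε.1 η), map_one]

/-- The normalised section of an acyclic rigidified twist is a divisor section. -/
theorem exists_isDivisorSect_twist (L : LineCocycle (CR c R))
    (hξ : Pic.comap (sigR c ε R) (Pic.mk L) = 1)
    (hd : Function.Bijective ((E.toCurveChart.baseChange R).cech L).d) :
    ∃ s : (L.mul (E.oepsR R)).Sect ⊤, (E.toCurveChart.baseChange R).IsDivisorSect s := by
  obtain ⟨s, hs⟩ := E.exists_section L hξ hd.2
  obtain ⟨W', hcov, -, hW'⟩ := E.exists_frame_open hs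
  refine ⟨s, ⟨W', hcov, hW'⟩, E.surjective_d_mul_oepsR L hd.2, fun t => ?_⟩
  obtain ⟨r, hr, -⟩ := E.existsUnique_scalar_smul L hd.1 hs t
  exact ⟨r, hr.symm⟩

/-- An acyclic rigidified class comes from an ideal. -/
theorem exists_ideal_of_acyclicTw (ξ : Pic (CR c R)) (hrig : Pic.comap (sigR c ε R) ξ = 1)
    (hac : E.AcyclicTw Etw R ξ) :
    ∃ (I : Ideal (R ⊗[k] Fun c E.U₀)) (_ : Module.Finite R ((R ⊗[k] Fun c E.U₀) ⧸ I))
      (_ : Module.Projective R ((R ⊗[k] Fun c E.U₀) ⧸ I)), E.chartClass I H Etw = ξ := by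
  obtain ⟨L, hL⟩ := Pic.mk_surjective (ξ * Pic.comap (prC c R) Etw)
  have hd := hac L hL
  have hξ : Pic.comap (sigR c ε R) (Pic.mk L) = 1 := by
    rw [hL, map_mul, hrig, one_mul, comap_sigR_prC_eq_one]
  obtain ⟨s, hs⟩ := E.exists_isDivisorSect_twist L hξ hd
  have hf := hs.finite_secIdeal
  have hp := hs.projective_secIdeal
  refine ⟨E.toCurveChart.secIdeal s, hf, hp, (E.chartClass_eq_iff _ H Etw ξ).2 ?_⟩
  rw [hs.chartCls_secIdeal H, ← Pic.mk_mul, hL]

variable (I : Ideal (R ⊗[k] Fun c E.U₀)) [Module.Finite R ((R ⊗[k] Fun c E.U₀) ⧸ I)]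
  [Module.Projective R ((R ⊗[k] Fun c E.U₀) ⧸ I)]

/-- The canonical section of a chart divisor is a frame near the complement of the chart. -/
theorem exists_frame_canon :
    ∃ W : (CR c R).Opens, overU c R E.U₀ ⊔ W = ⊤ ∧
      (Sect.restrict (le_top : W ≤ ⊤) ((E.toCurveChart.divisor I H).canon ⊤)).IsFrame := by
  obtain ⟨W, hcov, hu⟩ := E.toCurveChart.exists_isUnit_eqn I H
  refine ⟨W, hcov, ?_⟩
  rw [EffDiv.restrict_canon]
  exact EffDiv.isFrame_canon fun x V hV hVx => hu x V hV hVx

/-- An acyclic chart class identifies `O(D_I)` with the twist of a cocycle without cohomology. -/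
theorem exists_rel_twist (hac : E.AcyclicTw Etw R (E.chartClass I H Etw)) :
    ∃ (L : LineCocycle (CR c R))
      (_ : Rel (E.toCurveChart.divisor I H).cocycle (L.mul (E.oepsR R))),
      Function.Bijective ((E.toCurveChart.baseChange R).cech L).d := by
  obtain ⟨L, hL⟩ := Pic.mk_surjective (E.chartClass I H Etw * Pic.comap (prC c R) Etw)
  have h : E.toCurveChart.chartCls I H = Pic.mk (L.mul (E.oepsR R)) := by
    rw [← Pic.mk_mul, hL]
    exact (E.chartClass_eq_iff I H Etw _).1 rfl
  obtain ⟨e⟩ := Pic.mk_eq_mk.1 h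
  exact ⟨L, e, hac L hL⟩

/-- The sections of an acyclic chart divisor are the multiples of the canonical one. -/
theorem scalar_of_acyclicTw (hac : E.AcyclicTw Etw R (E.chartClass I H Etw))
    (t : (E.toCurveChart.divisor I H).cocycle.Sect ⊤) :
    ∃ r : R, t = Jacobian.scalar c R ⊤ r • (E.toCurveChart.divisor I H).canon ⊤ := by
  obtain ⟨L, e, hd⟩ := E.exists_rel_twist H Etw I hac
  obtain ⟨W, hcov, hW⟩ := E.exists_frame_canon H I
  set z := (E.toCurveChart.divisor I H).canon ⊤
  have hW' : (Sect.restrict (le_top : W ≤ ⊤) (e.sectMap z)).IsFrame := by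
    rw [Rel.sectMap_restrict]
    exact hW.sectMap e
  have hσ : sigR c ε R ⁻¹ᵁ W = ⊤ := top_le_iff.mp (E.top_le_preimage_sigR hcov)
  obtain ⟨r, hr, -⟩ := E.existsUnique_scalar_smul L hd.1
    (isFrame_comap_sigR_of_restrict hσ hW') (e.sectMap t)
  refine ⟨r, e.sectEquiv.injective ?_⟩
  rw [map_smul]
  exact hr

/-- The canonical section of an acyclic chart divisor is a divisor section. -/
theorem isDivisorSect_canon (hac : E.AcyclicTw Etw R (E.chartClass I H Etw)) :
    (E.toCurveChart.baseChange R).IsDivisorSect ((E.toCurveChart.divisor I H).canon ⊤) := by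
  obtain ⟨L, e, hd⟩ := E.exists_rel_twist H Etw I hac
  refine ⟨E.exists_frame_canon H I,
    ((E.toCurveChart.baseChange R).cechIso e).surjective_d_iff.1
      (E.surjective_d_mul_oepsR L hd.2), fun t => ?_⟩
  obtain ⟨r, hr⟩ := E.scalar_of_acyclicTw H Etw I hac t
  exact ⟨r, hr.symm⟩

/-- The canonical section gives the ideal back. -/
theorem secIdeal_canon :
    E.toCurveChart.secIdeal ((E.toCurveChart.divisor I H).canon ⊤) = I := by
  ext z
  rw [CurveChart.mem_secIdeal, EffDiv.restrict_canon, ← E.toCurveChart.mem_idealOn I,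
    ← E.toCurveChart.range_invToFun_divisor I H]
  exact Iff.rfl

/-- An acyclic ideal whose quotient is spanned by `b` is a chart ideal. -/
theorem isChartIdeal_of_surjective {g : ℕ}
    (hg : Module.finrank k (E.toCurveChart.cech LineCocycle.one).H1 = g)
    {b : Fin g → Fun c E.U₀} (hac : E.AcyclicTw Etw R (E.chartClass I H Etw))
    (hb : Function.Surjective (chartQuot b I)) : IsChartIdeal b I := by
  have h := (E.isDivisorSect_canon H Etw I hac).isChartIdeal_secIdeal hg (b := b)
  rw [E.secIdeal_canon H I] at h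
  exact h hb

omit [Module.Finite R ((R ⊗[k] Fun c E.U₀) ⧸ I)]
  [Module.Projective R ((R ⊗[k] Fun c E.U₀) ⧸ I)] in
/-- **The inputs of the chart of `(Etw, b)`**, for `g` the dimension of `H¹(C, 𝒪)`. -/
theorem chartInputs {g : ℕ}
    (hg : Module.finrank k (E.toCurveChart.cech LineCocycle.one).H1 = g)
    (b : Fin g → Fun c E.U₀) : E.ChartInputs H Etw b where
  exists_ideal _ _ _ ξ hrig hac := E.exists_ideal_of_acyclicTw H Etw ξ hrig hac
  scalar _ _ _ I _ _ hac t := E.scalar_of_acyclicTw H Etw I hac t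
  isChartIdeal _ _ _ I _ _ hac hb := E.isChartIdeal_of_surjective H Etw I hg hac hb

end EpsChart

end Fermat.Agent.Jacobian
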