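import Fermat.Agent.Jacobian.Represent.InChart
import Fermat.Agent.Jacobian.Represent.AffineChart

/-!
# The charts of the Jacobian

The chart of `(Etw, b)` is the acyclic locus in the spectrum of the ring of chart ideals of `b`.
-/

set_option autoImplicit false

noncomputable section

universe u

open CategoryTheory CategoryTheory.Limits AlgebraicGeometry AlgebraicGeometry.RelPicard
  NeronModelInfra TensorProduct

namespace Fermat.Agent.Jacobian

variable {k : Type u} [Field k] {C : Scheme.{u}} {c : C ⟶ Spec (CommRingCat.of k)}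
  {ε : SchemeHomOver (𝟙 (Spec (CommRingCat.of k))) c}

/-- Morphisms of spectra over `k` come from maps of `k`-algebras. -/
theorem exists_algHom_eq_specHom {R S : Type u} [CommRing R] [Algebra k R] [CommRing S]
    [Algebra k S] (f : Spec (CommRingCat.of S) ⟶ Spec (CommRingCat.of R))
    (hf : f ≫ specAlg (k := k) R = specAlg (k := k) S) :
    ∃ φ : R →ₐ[k] S, f = Spec.map (CommRingCat.ofHom φ.toRingHom) := by
  obtain ⟨φ, rfl⟩ := Spec.map_surjective f
  rw [specAlg, specAlg, ← Spec.map_comp] at hf
  refine ⟨{ φ.hom with commutes' := fun a => ?_ }, rfl⟩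
  exact congr($(Spec.map_injective hf) a)

namespace EpsChart

variable (E : EpsChart c ε) (H : FibresLocallyPrincipal k (Fun c E.U₀)) (Etw : Pic C)
  {g : ℕ} (b : Fin g → Fun c E.U₀)

/-- The universal chart ideal. -/
theorem isChartIdeal_univ :
    IsChartIdeal b (chartEquiv b (ChartRing k b) (AlgHom.id k _)).1 :=
  (chartEquiv b (ChartRing k b) (AlgHom.id k _)).2

/-- The universal class. -/
def univClass : Pic (CR c (ChartRing k b)) :=
  E.classOf H Etw (isChartIdeal_univ E b)

/-- The class classified by a map from the chart ring. -/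
theorem comap_univClass {S : Type u} [CommRing S] [Algebra k S] (ψ : ChartRing k b →ₐ[k] S) :
    Pic.comap (crMap c (ChartRing k b) S ψ) (E.univClass H Etw b) =
      E.classOf H Etw (chartEquiv b S ψ).2 := by
  rw [univClass, E.comap_classOf H Etw _ ψ]
  have e : (chartEquiv b (ChartRing k b) (AlgHom.id k _)).1.map
      (Algebra.TensorProduct.map ψ (AlgHom.id k (Fun c E.U₀))) = (chartEquiv b S ψ).1 := by
    rw [← chartEquiv_comp, AlgHom.comp_id]
  congr 1

/-- The open part of the spectrum of the chart ring over which the universal class is acyclic. -/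
def chartOpen : (Spec (CommRingCat.of (ChartRing k b))).Opens :=
  ⟨E.acyclicTwSet Etw (ChartRing k b) (E.univClass H Etw b), E.isOpen_acyclicTwSet Etw _⟩

/-- The structure map of the chart. -/
def chartStr : (E.chartOpen H Etw b).toScheme ⟶ Spec (CommRingCat.of k) :=
  (E.chartOpen H Etw b).ι ≫ specAlg (k := k) (ChartRing k b)

/-- The inclusion of the chart, over `k`. -/
def chartIncl : SchemeHomOver (E.chartStr H Etw b) (specAlg (k := k) (ChartRing k b)) :=
  ⟨(E.chartOpen H Etw b).ι, rfl⟩

/-- The class on the chart. -/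
def chartElt : Pic (pullback c (E.chartStr H Etw b)) :=
  Pic.comap (baseChangeSnd c (E.chartIncl H Etw b)) (E.univClass H Etw b)

theorem comap_rigSection_chartElt :
    Pic.comap (rigSection c (E.chartStr H Etw b) ε) (E.chartElt H Etw b) = 1 := by
  rw [chartElt, ← Pic.comap_comp, rigSection_baseChangeSnd, Pic.comap_comp]
  have := (isChartIdeal_univ E b).finite
  have := (isChartIdeal_univ E b).free
  exact (congrArg _ (E.comap_sigR_chartClass _ H Etw)).trans (map_one _)

/-- Points of the chart are the maps from the chart ring with acyclic class. -/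
theorem exists_algHom_of_point {S : Type u} [CommRing S] [Algebra k S]
    (f : SchemeHomOver (specAlg (k := k) S) (E.chartStr H Etw b)) :
    ∃ ψ : ChartRing k b →ₐ[k] S, f.1 ≫ (E.chartOpen H Etw b).ι = Spec.map
        (CommRingCat.ofHom ψ.toRingHom) ∧
      E.AcyclicTw Etw S (E.classOf H Etw (chartEquiv b S ψ).2) ∧
      Pic.comap (baseChangeSnd c f) (E.chartElt H Etw b) =
        E.classOf H Etw (chartEquiv b S ψ).2 := by
  obtain ⟨ψ, hψ⟩ := exists_algHom_eq_specHom (f.1 ≫ (E.chartOpen H Etw b).ι)
    (by rw [Category.assoc]; exact f.2)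
  refine ⟨ψ, hψ, ?_, ?_⟩
  · rw [← E.comap_univClass H Etw b ψ]
    refine (E.acyclicTw_comap_iff Etw ψ _).2 fun q => ?_
    have h : (Spec.map (CommRingCat.ofHom ψ.toRingHom)) q ∈ E.chartOpen H Etw b := by
      rw [← hψ, Scheme.Hom.comp_apply]
      exact (f.1 q).2
    exact h
  · rw [chartElt, ← Pic.comap_comp, baseChangeSnd_comp, ← E.comap_univClass H Etw b ψ,
      ← baseChangeSnd_specHomOver]
    refine congrArg (fun m : SchemeHomOver (specAlg (k := k) S)
      (specAlg (k := k) (ChartRing k b)) => Pic.comap (baseChangeSnd c m) (E.univClass H Etw b))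
      (Subtype.ext hψ)

variable {E H Etw b}

/-- A class over `Spec S` comes from the chart iff it lies in it. -/
theorem exists_point_iff {S : Type u} [CommRing S] [Algebra k S] (ξ : Pic (CR c S)) :
    (∃ f : SchemeHomOver (specAlg (k := k) S) (E.chartStr H Etw b),
        Pic.comap (baseChangeSnd c f) (E.chartElt H Etw b) = ξ) ↔ E.InChart H Etw b S ξ := by
  constructor
  · rintro ⟨f, rfl⟩
    obtain ⟨ψ, -, hac, he⟩ := E.exists_algHom_of_point H Etw b f
    rw [he]
    exact ⟨hac, _, (chartEquiv b S ψ).2, rfl⟩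
  · rintro ⟨hac, I, hI, rfl⟩
    obtain ⟨ψ, hψ⟩ := (chartEquiv b S).surjective ⟨I, hI⟩
    have he : Pic.comap (crMap c (ChartRing k b) S ψ) (E.univClass H Etw b) =
        E.classOf H Etw hI := by
      rw [E.comap_univClass H Etw b ψ]
      have e : (chartEquiv b S ψ).1 = I := congrArg Subtype.val hψ
      congr 1
    have hr : Set.range (Spec.map (CommRingCat.ofHom ψ.toRingHom)) ⊆
        Set.range (E.chartOpen H Etw b).ι := by
      rw [Scheme.Opens.range_ι]
      rintro _ ⟨q, rfl⟩
      rw [← he] at hac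
      exact (E.acyclicTw_comap_iff Etw ψ _).1 hac q
    let f : SchemeHomOver (specAlg (k := k) S) (E.chartStr H Etw b) :=
      ⟨IsOpenImmersion.lift (E.chartOpen H Etw b).ι (Spec.map (CommRingCat.ofHom ψ.toRingHom)) hr, by
        rw [chartStr, ← Category.assoc, IsOpenImmersion.lift_fac]
        exact (specHomOver ψ).2⟩
    refine ⟨f, ?_⟩
    rw [chartElt, ← Pic.comap_comp, baseChangeSnd_comp, ← he, ← baseChangeSnd_specHomOver]
    exact congrArg (fun m : SchemeHomOver (specAlg (k := k) S)
      (specAlg (k := k) (ChartRing k b)) => Pic.comap (baseChangeSnd c m) (E.univClass H Etw b))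
      (Subtype.ext (IsOpenImmersion.lift_fac _ _ _))

/-- The classifying map to the chart is unique. -/
theorem ChartInputs.point_unique (hin : E.ChartInputs H Etw b) {S : Type u} [CommRing S]
    [Algebra k S] (f f' : SchemeHomOver (specAlg (k := k) S) (E.chartStr H Etw b))
    (h : Pic.comap (baseChangeSnd c f) (E.chartElt H Etw b) =
      Pic.comap (baseChangeSnd c f') (E.chartElt H Etw b)) : f = f' := by
  obtain ⟨ψ, hψ, hac, he⟩ := E.exists_algHom_of_point H Etw b f
  obtain ⟨ψ', hψ', hac', he'⟩ := E.exists_algHom_of_point H Etw b f'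
  rw [he, he'] at h
  have e : ψ = ψ' :=
    (chartEquiv b S).injective (Subtype.ext (hin.eq_of_classOf_eq _ _ hac h))
  refine Subtype.ext ((cancel_mono (E.chartOpen H Etw b).ι).1 ?_)
  rw [hψ, hψ', e]

/-- **The chart of `(Etw, b)`.** -/
def ChartInputs.affineChart (hin : E.ChartInputs H Etw b) (P : SubPicCondition c ε)
    (hP : ∀ {T : Scheme.{u}} (t : T ⟶ Spec (CommRingCat.of k)) (M : RigidifiedLineBundle c ε t),
      (∀ (K : Type u) [Field K] [IsAlgClosed K] [Algebra k K]
        (s : SchemeHomOver (specAlg (k := k) K) t),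
        E.InChart H Etw b K (Pic.comap (baseChangeSnd c s) (bundleClass M))) → P.P t M) :
    (subPicFunctor P).AffineChart where
  X := (E.chartOpen H Etw b).toScheme
  str := E.chartStr H Etw b
  elt := ⟨E.chartElt H Etw b, by
    obtain ⟨M, hM⟩ := exists_bundleClass_eq (E.comap_rigSection_chartElt H Etw b)
    exact ⟨M, hP _ M fun K _ _ _ s => hM ▸ (exists_point_iff _).1 ⟨s, rfl⟩, hM⟩⟩
  mono R _ _ f f' h h' he := congrArg Subtype.val
    (hin.point_unique ⟨f, h⟩ ⟨f', h'⟩ (congrArg Subtype.val he))
  openness R _ _ a := by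
    obtain ⟨M, -, hM⟩ := a.2
    have hrig : Pic.comap (sigR c ε R) a.1 = 1 := hM ▸ comap_rigSection_bundleClass M
    refine ⟨⟨{p | InChartAt E H Etw b a.1 p}, hin.isOpen_inChartAt hrig⟩, fun S _ _ φ => ?_⟩
    have key : Set.range (specHom φ) ⊆ {p | InChartAt E H Etw b a.1 p} ↔
        E.InChart H Etw b S (Pic.comap (crMap c R S φ) a.1) := by
      rw [hin.inChart_iff_forall (comap_sigR_crMap φ hrig)]
      refine ⟨fun h q => (hin.inChartAt_comap_iff φ hrig q).2 (h ⟨q, rfl⟩), ?_⟩
      rintro h _ ⟨q, rfl⟩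
      exact (hin.inChartAt_comap_iff φ hrig q).1 (h q)
    refine key.trans ((exists_point_iff _).symm.trans ?_)
    exact ⟨fun ⟨f, hf⟩ => ⟨f.1, f.2, Subtype.ext hf⟩,
      fun ⟨f, h, hf⟩ => ⟨⟨f, h⟩, congrArg Subtype.val hf⟩⟩

end EpsChart

end Fermat.Agent.Jacobian
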