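import Mathlib.RingTheory.Artinian.Ring
import Mathlib.RingTheory.Artinian.Module
import Mathlib.RingTheory.Nakayama
import Mathlib.RingTheory.Ideal.Quotient.Operations
import Mathlib.LinearAlgebra.Matrix.Adjugate
import Mathlib.LinearAlgebra.Matrix.ToLin
import Mathlib.LinearAlgebra.Dimension.Finrank
import Mathlib.Algebra.Module.Projective

/-!
# Rank-one modules over a finite algebra

`M` is an `A`-module killed by `I`, with functionals `φ j : M → A ⧸ I` and elements `u j` such that
`∑ φ j (u j) = 1` and `φ j m • n = φ j n • m`. So `M` is invertible over `A ⧸ I`. If it is free of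
rank `g` over the base `R`, then `A ⧸ I` behaves like it: it is finite projective, of rank `g` over
a field, and `g` generators form a basis.
-/

set_option autoImplicit false

noncomputable section

universe u

namespace Fermat.Agent.Jacobian

/-- The data of a rank-one module over `A ⧸ I`. -/
structure RankOne {A : Type u} [CommRing A] (I : Ideal A) (M : Type u) [AddCommGroup M] [Module A M]
    (n : ℕ) where
  φ : Fin n → M →ₗ[A] A ⧸ I
  u : Fin n → M
  sum_eq_one : ∑ j, φ j (u j) = 1
  smul_eq : ∀ j (m m' : M) (a b : A), φ j m = Ideal.Quotient.mk I a →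
    φ j m' = Ideal.Quotient.mk I b → a • m' = b • m
  kill : ∀ a ∈ I, ∀ m : M, a • m = 0

namespace RankOne

variable {R A : Type u} [CommRing R] [CommRing A] [Algebra R A] {I : Ideal A} {M : Type u}
  [AddCommGroup M] [Module A M] [Module R M] [IsScalarTower R A M] {n : ℕ} (Q : RankOne I M n)

/-- The action of `A ⧸ I` on `v`. -/
def act (v : M) : A ⧸ I →ₗ[A] M :=
  Submodule.liftQ I (LinearMap.toSpanSingleton A M v) fun a ha => Q.kill a ha v

@[simp] theorem act_mk (v : M) (a : A) : Q.act v (Ideal.Quotient.mk I a) = a • v := rfl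

include Q in
theorem finite [Module.Finite R M] : Module.Finite R (A ⧸ I) := by
  refine Module.Finite.of_surjective (∑ j, ((Q.φ j).restrictScalars R).comp (LinearMap.proj j) :
    (Fin n → M) →ₗ[R] A ⧸ I) fun z => ⟨fun j => Q.act (Q.u j) z, ?_⟩
  obtain ⟨a, rfl⟩ := Ideal.Quotient.mk_surjective z
  simp [act_mk, map_smul, Algebra.smul_def, ← Finset.mul_sum, Q.sum_eq_one]

include Q in
theorem projective [Module.Projective R M] : Module.Projective R (A ⧸ I) := by
  classical
  have : Module.Projective R (Fin n → M) :=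
    Module.Projective.of_equiv (DFinsupp.linearEquivFunOnFintype (R := R) (M := fun _ : Fin n => M))
  refine Module.Projective.of_split
    (LinearMap.pi fun j => (Q.act (Q.u j)).restrictScalars R : (A ⧸ I) →ₗ[R] (Fin n → M))
    (∑ j, ((Q.φ j).restrictScalars R).comp (LinearMap.proj j)) (LinearMap.ext fun z => ?_)
  obtain ⟨a, rfl⟩ := Ideal.Quotient.mk_surjective z
  simp [act_mk, map_smul, Algebra.smul_def, ← Finset.mul_sum, Q.sum_eq_one]

include Q in
/-- Near a maximal ideal of `R` the module is generated by one element, freely over `A ⧸ I`. -/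
theorem exists_generator [Module.Finite R M] (p : Ideal R) [p.IsMaximal] :
    ∃ r : R, r ∉ p ∧ ∃ v : M, (∀ m : M, ∃ a : A, a • v = r • m) ∧
      ∀ a : A, a • v = 0 → algebraMap R A r * a ∈ I := by
  classical
  have := Q.finite (R := R)
  set P : Ideal (A ⧸ I) := p.map (algebraMap R (A ⧸ I)) with hP
  have hfin : ({m : Ideal (A ⧸ I) | m.IsMaximal ∧ P ≤ m}).Finite := by
    let B := (A ⧸ I) ⧸ P
    let : Algebra (R ⧸ p) B :=
      inferInstanceAs (Algebra (R ⧸ p) ((A ⧸ I) ⧸ p.map (algebraMap R (A ⧸ I))))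
    let : Field (R ⧸ p) := Ideal.Quotient.field p
    have : IsScalarTower R (R ⧸ p) B := IsScalarTower.of_algebraMap_eq fun x => rfl
    have : Module.Finite (R ⧸ p) B := Module.Finite.of_restrictScalars_finite R _ _
    have : IsArtinianRing B := IsArtinianRing.of_finite (R ⧸ p) B
    refine Set.Finite.subset ((Set.finite_range
      fun m : MaximalSpectrum B => m.asIdeal.comap (Ideal.Quotient.mk P))) ?_
    rintro m ⟨hm, hPm⟩
    have hcm : (m.map (Ideal.Quotient.mk P)).comap (Ideal.Quotient.mk P) = m := by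
      rw [Ideal.comap_map_of_surjective _ Ideal.Quotient.mk_surjective, ← RingHom.ker_eq_comap_bot,
        Ideal.mk_ker, sup_eq_left.2 hPm]
    refine ⟨⟨m.map (Ideal.Quotient.mk P), ?_⟩, hcm⟩
    rcases Ideal.map_eq_top_or_isMaximal_of_surjective (Ideal.Quotient.mk P)
        Ideal.Quotient.mk_surjective hm with h | h
    · exact absurd (by rw [← hcm, h, Ideal.comap_top]) hm.ne_top
    · exact h
  set T := hfin.toFinset with hT
  have hmax : ∀ m ∈ T, m.IsMaximal := fun m hm => (hfin.mem_toFinset.1 hm).1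
  have hj : ∀ m ∈ T, ∃ j, Q.φ j (Q.u j) ∉ m := fun m hm => by
    by_contra h
    push Not at h
    exact (hmax m hm).ne_top ((Ideal.eq_top_iff_one _).2 (Q.sum_eq_one ▸ sum_mem fun j _ => h j))
  choose j hj using hj
  have he : ∀ m ∈ T, ∃ e : A, Ideal.Quotient.mk I e ∉ m ∧
      ∀ m' ∈ T, m' ≠ m → Ideal.Quotient.mk I e ∈ m' := fun m hm => by
    have hx : ∀ m' ∈ T.erase m, ∃ x : A, Ideal.Quotient.mk I x ∈ m' ∧ Ideal.Quotient.mk I x ∉ m :=
      fun m' hm' => by
        obtain ⟨hne, hm'T⟩ := Finset.mem_erase.1 hm'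
        by_contra h
        push Not at h
        refine hne ((hmax m' hm'T).eq_of_le (hmax m hm).ne_top fun z hz => ?_)
        obtain ⟨z, rfl⟩ := Ideal.Quotient.mk_surjective z
        exact h z hz
    choose x hx₁ hx₂ using hx
    refine ⟨∏ m' ∈ (T.erase m).attach, x m'.1 m'.2, fun h => ?_, fun m' hm' hne => ?_⟩
    · rw [map_prod] at h
      obtain ⟨m', -, hm'⟩ := (Ideal.IsPrime.prod_mem_iff (hp := (hmax m hm).isPrime)).1 h
      exact hx₂ _ m'.2 hm'
    · rw [map_prod]
      refine Ideal.mem_of_dvd m' (Finset.dvd_prod_of_mem _ (Finset.mem_attach _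
        ⟨m', Finset.mem_erase.2 ⟨hne, hm'⟩⟩)) (hx₁ _ _)
  choose e he₁ he₂ using he
  set v : M := ∑ m ∈ T.attach, e m.1 m.2 • Q.u (j m.1 m.2)
  set K : Ideal (A ⧸ I) := Ideal.span (Set.range fun i => Q.φ i v) with hK
  have hKP : K ⊔ P = ⊤ := by
    by_contra h
    obtain ⟨m, hm, hle⟩ := Ideal.exists_le_maximal _ h
    have hmT : m ∈ T := hfin.mem_toFinset.2 ⟨hm, le_sup_right.trans hle⟩
    have hv : Q.φ (j m hmT) v ∈ m := hle (Ideal.mem_sup_left (Ideal.subset_span ⟨_, rfl⟩))
    have key : ∀ m' ∈ T.attach, m'.1 ≠ m → Q.φ (j m hmT) (e m'.1 m'.2 • Q.u (j m'.1 m'.2)) ∈ m :=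
      fun m' _ hne => by
        rw [map_smul, Algebra.smul_def]
        exact m.mul_mem_right _ (he₂ _ m'.2 m hmT (Ne.symm hne))
    rw [map_sum, ← Finset.add_sum_erase _ _ (Finset.mem_attach T ⟨m, hmT⟩)] at hv
    have hrest : ∑ m' ∈ T.attach.erase ⟨m, hmT⟩,
        Q.φ (j m hmT) (e m'.1 m'.2 • Q.u (j m'.1 m'.2)) ∈ m := by
      refine sum_mem fun m' hm' => key m' (Finset.mem_attach _ _) fun he' => ?_
      exact (Finset.mem_erase.1 hm').1 (Subtype.ext he')
    have h1 := (m.add_mem_iff_left hrest).1 hv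
    rw [map_smul, Algebra.smul_def] at h1
    exact (hm.isPrime.mem_or_mem h1).elim (he₁ m hmT) (hj m hmT)
  obtain ⟨r, hrp, hr⟩ : ∃ r : R, r ∉ p ∧ algebraMap R (A ⧸ I) r ∈ K := by
    have hle : (⊤ : Submodule R ((A ⧸ I) ⧸ K)) ≤ p • ⊤ := by
      intro z _
      obtain ⟨z, rfl⟩ := Ideal.Quotient.mk_surjective z
      obtain ⟨k, hk, q, hq, rfl⟩ := Submodule.mem_sup.1 (hKP.ge (Submodule.mem_top (x := z)))
      rw [map_add, Ideal.Quotient.eq_zero_iff_mem.2 hk, zero_add, Ideal.smul_top_eq_map,
        Submodule.restrictScalars_mem]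
      have h := Ideal.mem_map_of_mem (Ideal.Quotient.mk K) hq
      rw [hP, Ideal.map_map] at h
      exact h
    obtain ⟨r, hr1, hr⟩ := Submodule.exists_sub_one_mem_and_smul_eq_zero_of_fg_of_le_smul p
      (⊤ : Submodule R ((A ⧸ I) ⧸ K)) Module.Finite.fg_top hle
    refine ⟨r, fun h => ‹p.IsMaximal›.ne_top (p.eq_top_iff_one.2 ?_), ?_⟩
    · simpa using p.sub_mem h hr1
    · have h := hr 1 Submodule.mem_top
      rw [← Algebra.algebraMap_eq_smul_one] at h
      exact Ideal.Quotient.eq_zero_iff_mem.1 h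
  refine ⟨r, hrp, v, ?_⟩
  obtain ⟨c, hc⟩ := (Ideal.mem_span_range_iff_exists_fun).1 hr
  choose a ha using fun i => Ideal.Quotient.mk_surjective (Q.φ i v)
  choose c' hc' using fun i => Ideal.Quotient.mk_surjective (c i)
  have hr' : algebraMap R A r - ∑ i, c' i * a i ∈ I := by
    rw [← Ideal.Quotient.eq_zero_iff_mem, map_sub, map_sum]
    simp only [map_mul, ha, hc']
    rw [hc]
    exact sub_eq_zero.2 rfl
  refine ⟨fun m => ?_, fun b hb => ?_⟩
  · choose b hb using fun i => Ideal.Quotient.mk_surjective (Q.φ i m)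
    refine ⟨∑ i, c' i * b i, ?_⟩
    have h := Q.kill _ hr' m
    rw [sub_smul, sub_eq_zero, algebraMap_smul] at h
    rw [h, Finset.sum_smul, Finset.sum_smul]
    refine Finset.sum_congr rfl fun i _ => ?_
    rw [mul_smul, mul_smul, Q.smul_eq i v m (a i) (b i) (ha i).symm (hb i).symm]
  · have h : ∀ i, b * a i ∈ I := fun i => by
      rw [← Ideal.Quotient.eq_zero_iff_mem, map_mul, ha]
      have := congrArg (Q.φ i) hb
      rwa [map_smul, map_zero, Algebra.smul_def] at this
    have h2 : (∑ i, c' i * a i) * b ∈ I := by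
      rw [Finset.sum_mul]
      exact sum_mem fun i _ => by rw [mul_assoc, mul_comm (a i)]; exact I.mul_mem_left _ (h i)
    have := add_mem (I.mul_mem_right b hr') h2
    rwa [← add_mul, sub_add_cancel] at this

include Q in
/-- `g` generators of `A ⧸ I` are free as soon as `M` is free of rank `g`. -/
theorem injective_of_surjective {g : ℕ} (e : M ≃ₗ[R] (Fin g → R))
    (f : (Fin g → R) →ₗ[R] A ⧸ I) (hf : Function.Surjective f) : Function.Injective f := by
  classical
  have : Module.Finite R M := Module.Finite.equiv e.symm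
  rw [injective_iff_map_eq_zero]
  intro c hc
  let annc : Ideal R := (Submodule.span R {c}).annihilator
  suffices annc = ⊤ by
    have h := (Ideal.eq_top_iff_one _).1 this
    rw [Submodule.mem_annihilator_span_singleton, one_smul] at h
    exact h
  by_contra hne
  obtain ⟨p, hp, hle⟩ := Ideal.exists_le_maximal _ hne
  obtain ⟨r, hr, v, hv, -⟩ := Q.exists_generator (R := R) p
  let H : (Fin g → R) →ₗ[R] (Fin g → R) :=
    e.toLinearMap ∘ₗ (Q.act v).restrictScalars R ∘ₗ f
  have hH : ∀ x : Fin g → R, ∃ y, H y = r • x := fun x => by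
    obtain ⟨a, ha⟩ := hv (e.symm x)
    obtain ⟨y, hy⟩ := hf (Ideal.Quotient.mk I a)
    exact ⟨y, by simp [H, hy, ha]⟩
  choose G hG using fun i => hH (Pi.single i 1)
  have hmat : LinearMap.toMatrix' H * (Matrix.of fun i l => G l i) = r • 1 := by
    ext i l
    have h1 : (LinearMap.toMatrix' H).mulVec (G l) = H (G l) := by
      rw [LinearMap.toMatrix'_mulVec]
    have := congrFun (h1.trans (hG l)) i
    simpa [Matrix.mul_apply, Matrix.mulVec, dotProduct, Matrix.one_apply, Pi.single_apply]
      using this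
  have hdet := congrArg Matrix.det hmat
  rw [Matrix.det_mul, Matrix.det_smul, Matrix.det_one, mul_one, Fintype.card_fin] at hdet
  have hHc : (LinearMap.toMatrix' H).mulVec c = 0 := by
    rw [LinearMap.toMatrix'_mulVec]
    simp [H, hc]
  have hc0 : (LinearMap.toMatrix' H).det • c = 0 := by
    have h2 := congrArg (LinearMap.toMatrix' H).adjugate.mulVec hHc
    rw [Matrix.mulVec_mulVec, Matrix.adjugate_mul, Matrix.smul_mulVec, Matrix.one_mulVec,
      Matrix.mulVec_zero] at h2
    exact h2
  refine hr (hp.isPrime.mem_of_pow_mem g (hle ?_))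
  rw [Submodule.mem_annihilator_span_singleton, ← hdet, mul_comm, mul_smul, hc0, smul_zero]

include Q in
theorem bijective_of_surjective {g : ℕ} (e : M ≃ₗ[R] (Fin g → R))
    (f : (Fin g → R) →ₗ[R] A ⧸ I) (hf : Function.Surjective f) : Function.Bijective f :=
  ⟨Q.injective_of_surjective e f hf, hf⟩

end RankOne

/-- Over a field, `A ⧸ I` has the dimension of `M`. -/
theorem RankOne.finrank_eq {K A : Type u} [Field K] [CommRing A] [Algebra K A] {I : Ideal A}
    {M : Type u} [AddCommGroup M] [Module A M] [Module K M] [IsScalarTower K A M] {n : ℕ}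
    (Q : RankOne I M n) [Module.Finite K M] :
    Module.finrank K (A ⧸ I) = Module.finrank K M := by
  obtain ⟨r, hr, v, hv, hv'⟩ := Q.exists_generator (R := K) ⊥
  have hr0 : r ≠ 0 := fun h => hr (h ▸ Submodule.zero_mem _)
  refine LinearEquiv.finrank_eq (LinearEquiv.ofBijective ((Q.act v).restrictScalars K) ⟨?_, ?_⟩)
  · rw [injective_iff_map_eq_zero]
    intro z hz
    obtain ⟨a, rfl⟩ := Ideal.Quotient.mk_surjective z
    have h := hv' a (by simpa using hz)
    have h2 := I.mul_mem_left (algebraMap K A r⁻¹) h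
    rw [← mul_assoc, ← map_mul, inv_mul_cancel₀ hr0, map_one, one_mul] at h2
    exact Ideal.Quotient.eq_zero_iff_mem.2 h2
  · intro m
    obtain ⟨a, ha⟩ := hv m
    exact ⟨Ideal.Quotient.mk I (r⁻¹ • a), by simp [smul_assoc, ha, hr0]⟩

end Fermat.Agent.Jacobian
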