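import Fermat.Agent.Jacobian.Cech.Complex
import Fermat.Agent.Jacobian.Relative
import Fermat.Agent.Jacobian.Transfer
import Fermat.Agent.Jacobian.Divisor.AffineIdeal
import Fermat.Agent.Jacobian.Represent.RankOne
import Mathlib.Algebra.Polynomial.Reverse
import Mathlib.RingTheory.IntegralClosure.IsIntegralClosure.Basic

/-!
# The ideal of a section

For a section `s` of `N` the contractions `(s, t)`, `t` a section of `N⁻¹`, form an ideal `I` of
functions.  If `s` spans the global sections, is a frame near the complement of the first chart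
and `H¹(N) = 0`, then `A ⧸ I` is finite projective over the base and `H¹(𝒪) ≃ N(U₀) ⧸ A s`.
-/

set_option autoImplicit false

noncomputable section

universe u

open CategoryTheory TopologicalSpace AlgebraicGeometry Polynomial

namespace Fermat.Agent.Jacobian

variable {X Y : Scheme.{u}}

namespace LineCocycle.Sect

variable {L : LineCocycle X} {W : X.Opens}

lemma pair_add_right (s : L.Sect W) (t t' : L.inv.Sect W) :
    s.pair (t + t') = s.pair t + s.pair t' :=
  eq_of_cover (fun x => W ⊓ L.U x) (fun _ => inf_le_left) (fun z hz => ⟨z, hz, L.mem z⟩)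
    fun x => by simp [res_pair (hx := (inf_le_right : W ⊓ L.U x ≤ L.U x)), mul_add]

/-- Contraction with a fixed section. -/
def pairRight (s : L.Sect W) : L.inv.Sect W →ₗ[Γ(X, W)] Γ(X, W) where
  toFun t := s.pair t
  map_add' := pair_add_right s
  map_smul' r t := pair_smul_right r s t

/-- The ideal of the contractions of a section. -/
def pairIdeal (s : L.Sect W) : Ideal Γ(X, W) := LinearMap.range (pairRight s)

lemma mem_pairIdeal {s : L.Sect W} {a : Γ(X, W)} : a ∈ pairIdeal s ↔ ∃ t, s.pair t = a :=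
  Iff.rfl

lemma pair_mem_pairIdeal (s : L.Sect W) (t : L.inv.Sect W) : s.pair t ∈ pairIdeal s := ⟨t, rfl⟩

/-- A line bundle has rank one. -/
lemma pair_smul_comm (a b : L.Sect W) (t : L.inv.Sect W) : a.pair t • b = b.pair t • a :=
  ext' fun x => by
    rw [at_smul, at_smul, res_pair a t x inf_le_left inf_le_right,
      res_pair b t x inf_le_left inf_le_right]
    ring

lemma pair_eq_sum {n : ℕ} {σ : Fin n → L.Sect W} {τ : Fin n → L.inv.Sect W}
    (h : ∑ j, (σ j).pair (τ j) = 1) (s : L.Sect W) (t : L.inv.Sect W) :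
    s.pair t = ∑ j, s.pair (τ j) * (σ j).pair t := by
  conv_lhs => rw [← sum_pair_smul h s]
  show pairLeft t _ = _
  rw [map_sum]
  exact Finset.sum_congr rfl fun j _ => pair_smul_left _ _ _

lemma sum_res_pair_mul_at {n : ℕ} {σ : Fin n → L.Sect W} {τ : Fin n → L.inv.Sect W}
    (h : ∑ j, (σ j).pair (τ j) = 1) (s : L.Sect W) (x : X) {O : X.Opens} (hW : O ≤ W)
    (hx : O ≤ L.U x) :
    s.at x hW hx = ∑ j, res hW (s.pair (τ j)) * (σ j).at x hW hx := by
  let r : L.Sect W →+ Γ(X, O) := AddMonoidHom.mk' (fun t => t.at x hW hx) fun a b => at_add a b x hW hx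
  conv_lhs => rw [← sum_pair_smul h s]
  show r _ = _
  rw [map_sum]
  exact Finset.sum_congr rfl fun j _ => at_smul _ _ _ _ _

/-- Pullback of the ideal of a section. -/
theorem map_pairIdeal (hW : IsAffineOpen W) (f : Y ⟶ X) {W' : Y.Opens} (hW' : W' ≤ f ⁻¹ᵁ W)
    (s : L.Sect W) : (pairIdeal s).map (pb f hW') = pairIdeal (s.comap f hW') := by
  refine le_antisymm (Ideal.map_le_iff_le_comap.2 ?_) ?_
  · rintro _ ⟨t, rfl⟩
    exact ⟨comapInv f hW' t, (pb_pair f hW' s t).symm⟩
  · rintro _ ⟨t', rfl⟩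
    obtain ⟨n, σ, τ, h⟩ := exists_partition L hW
    have h' : ∑ j, ((σ j).comap f hW').pair (comapInv f hW' (τ j)) = 1 := by
      have := congrArg (pb f hW') h
      simpa only [map_sum, map_one, pb_pair] using this
    show (s.comap f hW').pair t' ∈ _
    rw [pair_eq_sum h']
    refine sum_mem fun j _ => Ideal.mul_mem_right _ _ ?_
    rw [← pb_pair]
    exact Ideal.mem_map_of_mem _ (pair_mem_pairIdeal s (τ j))

/-- Near a point where a section is a frame, one of its coordinates is a unit. -/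
theorem exists_mem_basicOpen_pair {n : ℕ} {σ : Fin n → L.Sect W} {τ : Fin n → L.inv.Sect W}
    (h : ∑ j, (σ j).pair (τ j) = 1) (s : L.Sect W) {z : X} (hz : z ∈ W) {O : X.Opens}
    (hzO : z ∈ O) (hOW : O ≤ W) (hOU : O ≤ L.U z) (hu : IsUnit (s.at z hOW hOU)) :
    ∃ j, z ∈ X.basicOpen (s.pair (τ j)) := by
  by_contra hcon
  have hg := hu.map (X.presheaf.germ O z hzO).hom
  rw [sum_res_pair_mul_at h s z hOW hOU, map_sum] at hg
  refine (IsLocalRing.mem_maximalIdeal _).1 (sum_mem fun j _ => ?_) hg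
  rw [map_mul]
  refine Ideal.mul_mem_right _ _ ((IsLocalRing.mem_maximalIdeal _).2 fun hj => hcon ⟨j, ?_⟩)
  rw [Scheme.mem_basicOpen _ _ z hz]
  rwa [show (X.presheaf.germ O z hzO).hom (res hOW (s.pair (τ j))) =
    X.presheaf.germ W z hz (s.pair (τ j)) from
      X.presheaf.germ_res_apply (homOfLE hOW) z hzO _] at hj

end LineCocycle.Sect

namespace EffDiv

open LineCocycle.Sect in
/-- A divisor cut out by the ideal of a section `s`, where `s` is a frame near the complement,
has the class of the line bundle of `s`. -/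
theorem cls_eq_mk_of_pairIdeal {N : LineCocycle X} (E : EffDiv X) {U : X.Opens}
    (hU : IsAffineOpen U) (s : N.Sect ⊤) {W : X.Opens} (hcov : U ⊔ W = ⊤)
    (hfr : (s.restrict (le_top : W ≤ ⊤)).IsFrame)
    (hE : E.IsGenBy U (pairIdeal (s.restrict (le_top : U ≤ ⊤)))) : E.cls = Pic.mk N := by
  classical
  obtain ⟨n, σ, τ, hpart⟩ := exists_partition N hU
  set sU := s.restrict (le_top : U ≤ ⊤) with hsU
  have hWU : ∀ z ∈ W, ∀ hz : z ∈ U, ∃ a ∈ pairIdeal sU, z ∈ X.basicOpen a := by
    intro z hzW hz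
    let O : X.Opens := U ⊓ W ⊓ N.U z
    have hu : IsUnit (sU.at z (V := O) (inf_le_left.trans inf_le_left) inf_le_right) := by
      have := hfr.isUnit_at z (V := O) (inf_le_left.trans inf_le_right) inf_le_right
      rw [at_restrict] at this
      rw [hsU, at_restrict]
      exact this
    obtain ⟨j, hj⟩ := exists_mem_basicOpen_pair hpart sU hz (O := O) ⟨⟨hz, hzW⟩, N.mem z⟩ _ _ hu
    exact ⟨_, pair_mem_pairIdeal _ _, hj⟩
  have key : ∀ x, Associated (E.eqn x (inf_le_left : E.V x ⊓ N.U x ≤ E.V x))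
      (s.at x (V := E.V x ⊓ N.U x) le_top inf_le_right) := by
    intro x
    set V := E.V x ⊓ N.U x
    have hV : V ≤ E.V x := inf_le_left
    have hVN : V ≤ N.U x := inf_le_right
    let O : Bool → X.Opens := fun b => bif b then V ⊓ W else V ⊓ U
    have hO : ∀ b, O b ≤ V := fun b => by cases b <;> exact inf_le_left
    have hc : ∀ z ∈ V, ∃ b, z ∈ O b := fun z hz =>
      ((hcov.ge (Set.mem_univ z) : z ∈ U ⊔ W)).elim (fun h => ⟨false, hz, h⟩) fun h => ⟨true, hz, h⟩
    have huW : IsUnit (E.eqn x (W := V ⊓ W) (inf_le_left.trans hV)) ∧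
        IsUnit (s.at x (V := V ⊓ W) le_top (inf_le_left.trans hVN)) := by
      refine ⟨hE.isUnit_eqn x (inf_le_left.trans hV) fun z hz hzU => hWU z hz.2 hzU, ?_⟩
      have := hfr.isUnit_at x (V := V ⊓ W) inf_le_right (inf_le_left.trans hVN)
      rwa [at_restrict] at this
    obtain ⟨u, hu⟩ : E.eqn x hV ∣ s.at x le_top hVN := by
      refine dvd_of_cover O hO hc (fun O' h => by rw [res_eqn]; exact E.eqn_mem_nonZeroDivisors x _)
        fun b => ?_
      rw [res_eqn, res_at]
      cases b
      · have h1 : sU.at x (V := V ⊓ U) inf_le_right (inf_le_left.trans hVN) =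
            s.at x le_top (inf_le_left.trans hVN) := by rw [hsU, at_restrict]
        show _ ∣ s.at x (V := V ⊓ U) le_top (inf_le_left.trans hVN)
        rw [← h1, sum_res_pair_mul_at hpart sU x]
        exact Finset.dvd_sum fun j _ => dvd_mul_of_dvd_left
          ((hE x).dvd (V ⊓ U) (inf_le_left.trans hV) inf_le_right _ (pair_mem_pairIdeal _ _)) _
      · exact huW.1.dvd
    suffices hu' : IsUnit u by exact ⟨hu'.unit, hu.symm⟩
    have key : ∀ z : V, ∃ (O : X.Opens) (hO : O ≤ V), z.1 ∈ O ∧ IsUnit (res hO u) := by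
      intro z
      by_cases hz : z.1 ∈ W
      · refine ⟨V ⊓ W, inf_le_left, ⟨z.2, hz⟩, ?_⟩
        have := huW.2
        rw [← res_at s x le_top hVN (inf_le_left : V ⊓ W ≤ V), hu, map_mul] at this
        exact (IsUnit.mul_iff.1 this).2
      · have hzU : z.1 ∈ U := ((hcov.ge (Set.mem_univ z.1) : z.1 ∈ U ⊔ W)).elim id fun h => absurd h hz
        obtain ⟨O', hOV, hOU, hzO, hm⟩ := (hE x).mem z (hV z.2) hzU
        refine ⟨O' ⊓ V, inf_le_right, ⟨hzO, z.2⟩, ?_⟩
        have hd : s.at x (V := O' ⊓ V) le_top (inf_le_right.trans hVN) ∣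
            E.eqn x (W := O' ⊓ V) (inf_le_right.trans hV) := by
          have h1 := Ideal.mem_map_of_mem (res (inf_le_left : O' ⊓ V ≤ O')) hm
          rw [res_res, Ideal.map_map] at h1
          rw [← Ideal.mem_span_singleton]
          refine (Ideal.map_le_iff_le_comap.2 ?_) h1
          rintro _ ⟨t, rfl⟩
          rw [Ideal.mem_comap, Ideal.mem_span_singleton]
          refine ⟨t.at x (inf_le_left.trans hOU) (inf_le_right.trans hVN), ?_⟩
          rw [RingHom.comp_apply]
          refine (res_res _ _ _).trans ((res_pair sU t x _ (inf_le_right.trans hVN)).trans ?_)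
          rw [hsU, at_restrict]
        obtain ⟨c, hc⟩ := hd
        refine IsUnit.of_mul_eq_one c ((mul_cancel_left_mem_nonZeroDivisors
          (E.eqn_mem_nonZeroDivisors x (W := O' ⊓ V) (inf_le_right.trans hV))).1 ?_)
        rw [mul_one, ← mul_assoc]
        conv_rhs => rw [hc, ← res_at s x le_top hVN (inf_le_right : O' ⊓ V ≤ V), hu, map_mul, res_eqn]
    choose O' hO' hzO' hu' using key
    exact isUnit_of_cover O' hO' (fun z hz => ⟨⟨z, hz⟩, hzO' ⟨z, hz⟩⟩) hu'
  choose c hc using key
  refine Pic.mk_eq_mk.2 ⟨⟨fun x => E.V x ⊓ N.U x, fun x => ⟨E.mem x, N.mem x⟩,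
    fun _ => inf_le_left, fun _ => inf_le_right, c, fun x y V hx hy => ?_⟩⟩
  have h1 := congrArg (res hx) (hc x)
  have h2 := congrArg (res hy) (hc y)
  simp only [map_mul, res_eqn, res_at] at h1 h2
  refine (mul_cancel_left_mem_nonZeroDivisors
    (E.eqn_mem_nonZeroDivisors y (hy.trans inf_le_left))).1 ?_
  rw [mul_left_comm, h2, ← at_eq s x y le_top (hx.trans inf_le_right) (hy.trans inf_le_right), ← h1,
    mul_left_comm (E.eqn y _), mul_comm (E.eqn y _), E.tr_mul_eqn, mul_comm]

end EffDiv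

/-- Functions act on sections. -/
instance {R : Type u} [CommRing R] {p : X ⟶ Spec (CommRingCat.of R)} {L : LineCocycle X}
    {U : X.Opens} : Module (Fun p U) (Sec p L U) :=
  inferInstanceAs (Module Γ(X, U) (L.Sect U))

instance {R : Type u} [CommRing R] {p : X ⟶ Spec (CommRingCat.of R)} {L : LineCocycle X}
    {U : X.Opens} : IsScalarTower R (Fun p U) (Sec p L U) :=
  ⟨fun r a m => mul_smul (baseHom p U r) (show Γ(X, U) from a) m⟩

end Fermat.Agent.Jacobian
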