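import Fermat.Agent.Jacobian.Represent.SectIdeal

/-!
# `N(U₀) ⧸ A s` is `H¹(𝒪)`

For a section `s` of `N` spanning the global sections, which is a frame near the complement of
`U₀`, with `H¹(N) = 0`: the connecting map `H¹(𝒪) → N(U₀) ⧸ A s` is an isomorphism, and the
ideal of `s` has finite projective quotient.
-/

set_option autoImplicit false

noncomputable section

universe u

open CategoryTheory AlgebraicGeometry Polynomial

namespace Fermat.Agent.Jacobian

variable {R : Type u} [CommRing R] {X : Scheme.{u}} {p : X ⟶ Spec (CommRingCat.of R)}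

/-- A monic polynomial is a nonzerodivisor on a free module. -/
lemma eq_zero_of_monic_smul {M : Type*} [AddCommGroup M] [Module R[X] M] [Module.Free R[X] M]
    {q : R[X]} (hq : q.Monic) {m : M} (h : q • m = 0) : m = 0 := by
  apply (Module.Free.chooseBasis R[X] M).repr.injective
  rw [map_zero]
  ext1 i
  have := congrArg (fun z => (Module.Free.chooseBasis R[X] M).repr z i) h
  simp only [map_smul, map_zero, Finsupp.smul_apply, Finsupp.zero_apply, smul_eq_mul] at this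
  exact hq.isRegular.left.eq_iff.mp (this.trans (mul_zero _).symm)

/-- A section on an open, as an element of the module of the Čech complex. -/
def sectOn (p : X ⟶ Spec (CommRingCat.of R)) {N : LineCocycle X} (s : N.Sect ⊤) (U : X.Opens) :
    Sec p N U :=
  LineCocycle.Sect.restrict le_top s

namespace Sec

variable {L : LineCocycle X} {U V : X.Opens}

lemma resLin_smul_fun (h : V ≤ U) (a : Fun p U) (x : Sec p L U) :
    resLin h (a • x) = funRes p h a • resLin h x :=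
  resLin_smul h a x

lemma resLin_sectOn {N : LineCocycle X} (s : N.Sect ⊤) (h : V ≤ U) :
    resLin h (sectOn p s U) = sectOn p s V :=
  LineCocycle.Sect.restrict_restrict le_top h s

end Sec

namespace CurveChart

variable (D : CurveChart p)

lemma cech_d_apply (L : LineCocycle X) (z : Sec p L D.U₀ × Sec p L D.U₁) :
    (D.cech L).d z = Sec.resLin inf_le_left z.1 - Sec.resLin inf_le_right z.2 :=
  (D.cech L).d_apply z

lemma x₀₁_mul_y₀₁ : D.x₀₁ * D.y₀₁ = 1 := D.mul_eq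

/-- Functions on the first chart are determined on the overlap. -/
lemma res_injective₀ : Function.Injective (funRes p (inf_le_left : D.U₀ ⊓ D.U₁ ≤ D.U₀)) := by
  rw [injective_iff_map_eq_zero]
  intro a ha
  obtain ⟨n, hn⟩ := exists_pow_mul_eq_zero D.affine₀ D.x (show Γ(X, D.U₀) from a) D.inf_eq₀
    inf_le_left ha
  let _m : Module R[X] Γ(X, D.U₀) := (lineHom p D.x).toModule
  have : Module.Free R[X] Γ(X, D.U₀) := D.free₀
  refine eq_zero_of_X_pow_smul (k := R) (M := Γ(X, D.U₀)) (n := n) ?_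
  show lineHom p D.x (Polynomial.X ^ n) * (show Γ(X, D.U₀) from a) = 0
  rwa [map_pow, show lineHom p D.x Polynomial.X = D.x by simp [lineHom]]

lemma eq_zero_of_lineHom_mul {q : R[X]} (hq : q.Monic) {a : Γ(X, D.U₀)}
    (h : lineHom p D.x q * a = 0) : a = 0 := by
  let _m : Module R[X] Γ(X, D.U₀) := (lineHom p D.x).toModule
  have : Module.Free R[X] Γ(X, D.U₀) := D.free₀
  exact eq_zero_of_monic_smul (M := Γ(X, D.U₀)) hq h

/-- `H¹` of the structure sheaf, with functions as cochains. -/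
abbrev H1O : Type u :=
  Fun p (D.U₀ ⊓ D.U₁) ⧸
    (LinearMap.range (funRes p (inf_le_left : D.U₀ ⊓ D.U₁ ≤ D.U₀)).toLinearMap ⊔
      LinearMap.range (funRes p (inf_le_right : D.U₀ ⊓ D.U₁ ≤ D.U₁)).toLinearMap)

variable {N : LineCocycle X} (s : N.Sect ⊤)

/-- The ideal of `s` on the first chart. -/
def sectIdeal : Ideal (Fun p D.U₀) :=
  LineCocycle.Sect.pairIdeal (LineCocycle.Sect.restrict (le_top : D.U₀ ≤ ⊤) s)

lemma mem_sectIdeal {a : Fun p D.U₀} : a ∈ D.sectIdeal s ↔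
    ∃ t : N.inv.Sect D.U₀, (LineCocycle.Sect.restrict le_top s).pair t = a :=
  Iff.rfl

/-- The multiples of `s` among the sections on the first chart. -/
abbrev multiples : Submodule (Fun p D.U₀) (Sec p N D.U₀) :=
  Submodule.span (Fun p D.U₀) {sectOn p s D.U₀}

/-- `N(U₀) ⧸ A s`. -/
abbrev SectQuot : Type u := Sec p N D.U₀ ⧸ D.multiples s

/-- `s` spans the global sections, is a frame near the complement of the first chart and
`H¹(N) = 0`. -/
structure IsDivisorSect : Prop where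
  frame : ∃ W : X.Opens, D.U₀ ⊔ W = ⊤ ∧ (LineCocycle.Sect.restrict (le_top : W ≤ ⊤) s).IsFrame
  surjective : Function.Surjective (D.cech N).d
  scalar : ∀ t : N.Sect ⊤, ∃ r : R, baseHom p ⊤ r • s = t

namespace IsDivisorSect

variable {D s}

open LineCocycle.Sect in
/-- Near infinity the ideal of `s` is trivial: it contains a polynomial in `y` equal to `1` at `0`. -/
theorem exists_poly_y (h : D.IsDivisorSect s) :
    ∃ (Q : R[X]) (t : N.inv.Sect D.U₁), Q.coeff 0 = 1 ∧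
      (s.restrict le_top : N.Sect D.U₁).pair t = lineHom p D.y Q := by
  classical
  obtain ⟨W, hcov, hfr⟩ := h.frame
  obtain ⟨n, σ, τ, hpart⟩ := exists_partition N D.affine₁
  set s₁ := s.restrict (le_top : D.U₁ ≤ ⊤) with hs₁
  set J := pairIdeal s₁
  have htop : Ideal.span (insert D.y (Set.range fun j => s₁.pair (τ j))) = ⊤ := by
    rw [← D.affine₁.iSup_basicOpen_eq_self_iff]
    refine le_antisymm (iSup_le fun f => X.basicOpen_le _) fun z hz => ?_
    rcases (hcov.ge (Set.mem_univ z) : z ∈ D.U₀ ⊔ W) with h0 | hW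
    · exact TopologicalSpace.Opens.mem_iSup.mpr
        ⟨⟨D.y, Set.mem_insert _ _⟩, D.inf_eq₁.le ⟨h0, hz⟩⟩
    · let O : X.Opens := D.U₁ ⊓ W ⊓ N.U z
      have hu : IsUnit (s₁.at z (V := O) (inf_le_left.trans inf_le_left) inf_le_right) := by
        have := hfr.isUnit_at z (V := O) (inf_le_left.trans inf_le_right) inf_le_right
        rw [at_restrict] at this
        rw [hs₁, at_restrict]
        exact this
      obtain ⟨j, hj⟩ := exists_mem_basicOpen_pair hpart s₁ hz (O := O) ⟨⟨hz, hW⟩, N.mem z⟩ _ _ hu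
      exact TopologicalSpace.Opens.mem_iSup.mpr ⟨⟨_, Set.mem_insert_of_mem _ ⟨j, rfl⟩⟩, hj⟩
  obtain ⟨b, e, he, heq⟩ := Ideal.mem_span_insert.1 ((Ideal.eq_top_iff_one _).1 htop)
  have heJ : e ∈ J := by
    refine (Ideal.span_le.2 ?_) he
    rintro _ ⟨j, rfl⟩
    exact pair_mem_pairIdeal _ _
  obtain ⟨P, hP, hPb⟩ : (lineHom p D.y).IsIntegralElem b := D.finite₁.to_isIntegral b
  let mkJ := Ideal.Quotient.mk J
  have hby : mkJ b * mkJ D.y = 1 := by
    rw [← map_mul, ← sub_eq_zero, ← map_one mkJ, ← map_sub]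
    refine Ideal.Quotient.eq_zero_iff_mem.2 ?_
    rw [heq, show b * D.y - (b * D.y + e) = -e by ring]
    exact J.neg_mem heJ
  let : Invertible (mkJ b) := ⟨mkJ D.y, by rw [mul_comm]; exact hby, hby⟩
  have h0 : P.reverse.eval₂ (mkJ.comp (lineHom p D.y)) (mkJ D.y) = 0 := by
    have h1 := eval₂_reverse_mul_pow (mkJ.comp (lineHom p D.y)) (mkJ b) P
    rw [← hom_eval₂ P (lineHom p D.y) mkJ b, hPb, map_zero] at h1
    exact ((isUnit_of_invertible (mkJ b)).pow P.natDegree).mul_left_eq_zero.1 h1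
  refine ⟨P.reverse.eval Polynomial.X, ?_⟩
  have hmem : lineHom p D.y (P.reverse.eval Polynomial.X) ∈ J := by
    rw [← Ideal.Quotient.eq_zero_iff_mem, Polynomial.eval, hom_eval₂, RingHom.comp_id,
      show lineHom p D.y Polynomial.X = D.y by simp [lineHom], hom_eval₂]
    exact h0
  obtain ⟨t, ht⟩ := hmem
  refine ⟨t, ?_, ht⟩
  show constantCoeff (P.reverse.eval Polynomial.X) = 1
  rw [Polynomial.eval, hom_eval₂, RingHom.comp_id, constantCoeff_apply, coeff_X_zero,
    eval₂_at_zero, coeff_zero_reverse, hP.leadingCoeff, map_one]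

open LineCocycle.Sect in
/-- The ideal contains a monic polynomial in `x`. -/
theorem exists_monic_mem (h : D.IsDivisorSect s) :
    ∃ χ : R[X], χ.Monic ∧ (show Fun p D.U₀ from lineHom p D.x χ) ∈ D.sectIdeal s := by
  obtain ⟨Q, t, hQ, ht⟩ := h.exists_poly_y
  obtain ⟨n, t₀, ht₀⟩ := exists_extend D.affine₀ D.x D.inf_eq₀ inf_le_left N.inv
    (t.restrict (inf_le_right : D.U₀ ⊓ D.U₁ ≤ D.U₁))
  set d := Q.natDegree with hd
  have hrev : Q.reverse.Monic := by
    refine monic_of_natDegree_le_of_coeff_eq_one d Q.reverse_natDegree_le ?_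
    rw [coeff_reverse, revAt_le le_rfl, Nat.sub_self, hQ]
  refine ⟨Polynomial.X ^ n * Q.reverse, (monic_X_pow n).mul hrev, ?_⟩
  refine (D.mem_sectIdeal s).2 ⟨D.x ^ d • t₀, ?_⟩
  apply D.res_injective₀
  show res (inf_le_left : D.U₀ ⊓ D.U₁ ≤ D.U₀) _ = res inf_le_left _
  rw [res_pair_restrict inf_le_left, restrict_smul, ht₀, pair_smul_right, pair_smul_right,
    restrict_restrict]
  have h1 := congrArg (res (inf_le_right : D.U₀ ⊓ D.U₁ ≤ D.U₁)) ht
  rw [res_pair_restrict inf_le_right, restrict_restrict] at h1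
  rw [h1]
  let : Invertible D.y₀₁ := ⟨D.x₀₁, D.x₀₁_mul_y₀₁, by rw [mul_comm]; exact D.x₀₁_mul_y₀₁⟩
  have h2 : Q.reverse.eval₂ (baseHom p (D.U₀ ⊓ D.U₁)) D.x₀₁ * D.y₀₁ ^ d =
      Q.eval₂ (baseHom p (D.U₀ ⊓ D.U₁)) D.y₀₁ :=
    eval₂_reverse_mul_pow (baseHom p (D.U₀ ⊓ D.U₁)) D.y₀₁ Q
  have hres : ∀ {U : X.Opens} (hU : D.U₀ ⊓ D.U₁ ≤ U) (f : Γ(X, U)) (q : R[X]),
      res hU (lineHom p f q) = q.eval₂ (baseHom p (D.U₀ ⊓ D.U₁)) (res hU f) := by
    intro U hU f q
    rw [lineHom, coe_eval₂RingHom, hom_eval₂]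
    congr 1
    exact RingHom.ext fun r => res_baseHom p hU r
  rw [hres, hres, eval₂_mul, eval₂_X_pow, map_pow]
  show D.x₀₁ ^ d * (D.x₀₁ ^ n * Q.eval₂ _ D.y₀₁) = D.x₀₁ ^ n * Q.reverse.eval₂ _ D.x₀₁
  rw [← h2]
  have h3 : D.x₀₁ ^ d * D.y₀₁ ^ d = 1 := by rw [← mul_pow, D.x₀₁_mul_y₀₁, one_pow]
  linear_combination (D.x₀₁ ^ n * Q.reverse.eval₂ (baseHom p (D.U₀ ⊓ D.U₁)) D.x₀₁) * h3

open LineCocycle.Sect in
/-- `s` is not killed by a nonzero function on the first chart. -/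
theorem eq_zero_of_smul₀ (h : D.IsDivisorSect s) {a : Fun p D.U₀}
    (ha : a • sectOn p s D.U₀ = 0) : a = 0 := by
  obtain ⟨χ, hχ, hmem⟩ := h.exists_monic_mem
  obtain ⟨t, ht⟩ := (D.mem_sectIdeal s).1 hmem
  change (show Γ(X, D.U₀) from a) = 0
  refine D.eq_zero_of_lineHom_mul hχ ?_
  have h1 : ((show Γ(X, D.U₀) from a) • s.restrict le_top : N.Sect D.U₀).pair t = 0 :=
    (congrArg (fun z : N.Sect D.U₀ => z.pair t) ha).trans (zero_pair t)
  refine Eq.trans ?_ h1
  show _ = ((show Γ(X, D.U₀) from a) • s.restrict le_top : N.Sect D.U₀).pair t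
  rw [pair_smul_left]
  exact (congrArg (· * _) ht.symm).trans (mul_comm _ _)

/-- `s` is not killed by a nonzero function on the overlap. -/
theorem eq_zero_of_smul₀₁ (h : D.IsDivisorSect s) {a : Fun p (D.U₀ ⊓ D.U₁)}
    (ha : a • sectOn p s (D.U₀ ⊓ D.U₁) = 0) : a = 0 := by
  obtain ⟨n, b, hb⟩ := exists_res_eq_pow_mul D.affine₀ D.x D.inf_eq₀ inf_le_left
    (show Γ(X, D.U₀ ⊓ D.U₁) from a)
  have h1 : Sec.resLin (c := p) inf_le_left ((show Fun p D.U₀ from b) • sectOn p s D.U₀) =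
      (0 : Sec p N (D.U₀ ⊓ D.U₁)) := by
    rw [Sec.resLin_smul_fun, Sec.resLin_sectOn]
    change (show Γ(X, D.U₀ ⊓ D.U₁) from res inf_le_left b) • sectOn p s (D.U₀ ⊓ D.U₁) = _
    rw [hb, mul_smul]
    exact (congrArg _ ha).trans (smul_zero _)
  have h2 := h.eq_zero_of_smul₀
    ((D.cech N).injective_r₀ (h1.trans (map_zero (D.cech N).r₀).symm))
  have h3 : (res inf_le_left D.x) ^ n * (show Γ(X, D.U₀ ⊓ D.U₁) from a) = 0 := by
    rw [← hb, show (show Γ(X, D.U₀) from b) = 0 from h2, map_zero]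
  exact ((IsUnit.of_mul_eq_one (a := D.x₀₁) D.y₀₁ D.x₀₁_mul_y₀₁).pow n).mul_right_eq_zero.1 h3

/-- A section over the overlap is `d` of a pair whose first entry is determined modulo `s`. -/
theorem exists_pair_d (h : D.IsDivisorSect s) (a : Fun p (D.U₀ ⊓ D.U₁)) :
    ∃ z : Sec p N D.U₀ × Sec p N D.U₁, (D.cech N).d z = a • sectOn p s (D.U₀ ⊓ D.U₁) :=
  h.surjective _

/-- The connecting map, on cochains. -/
def connFun (h : D.IsDivisorSect s) (a : Fun p (D.U₀ ⊓ D.U₁)) : D.SectQuot s :=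
  Submodule.Quotient.mk (h.exists_pair_d a).choose.1

theorem connFun_eq (h : D.IsDivisorSect s) {a : Fun p (D.U₀ ⊓ D.U₁)}
    {z : Sec p N D.U₀ × Sec p N D.U₁}
    (hz : (D.cech N).d z = a • sectOn p s (D.U₀ ⊓ D.U₁)) :
    h.connFun a = Submodule.Quotient.mk z.1 := by
  set z' := (h.exists_pair_d a).choose
  obtain ⟨g, hg, -⟩ := D.exists_glue_of_d_eq_zero N (z' - z)
    (by rw [map_sub, (h.exists_pair_d a).choose_spec, hz, sub_self])
  obtain ⟨r, rfl⟩ := h.scalar g
  refine (Submodule.Quotient.eq _).2 ?_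
  refine Submodule.mem_span_singleton.2 ⟨algebraMap R (Fun p D.U₀) r, ?_⟩
  refine Eq.trans ?_ hg
  rw [LineCocycle.Sect.restrict_smul, res_baseHom]
  rfl

/-- The connecting map `Γ(U₀ ⊓ U₁, 𝒪) → N(U₀) ⧸ A s`. -/
def conn (h : D.IsDivisorSect s) : Fun p (D.U₀ ⊓ D.U₁) →ₗ[R] D.SectQuot s where
  toFun := h.connFun
  map_add' a b := by
    obtain ⟨za, ha⟩ := h.exists_pair_d a
    obtain ⟨zb, hb⟩ := h.exists_pair_d b
    rw [h.connFun_eq ha, h.connFun_eq hb, h.connFun_eq (z := za + zb)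
      (by rw [map_add, ha, hb, add_smul])]
    rfl
  map_smul' r a := by
    obtain ⟨za, ha⟩ := h.exists_pair_d a
    rw [h.connFun_eq ha, h.connFun_eq (z := r • za) (by rw [map_smul, ha, smul_assoc])]
    rfl

theorem conn_eq (h : D.IsDivisorSect s) {a : Fun p (D.U₀ ⊓ D.U₁)}
    {z : Sec p N D.U₀ × Sec p N D.U₁}
    (hz : (D.cech N).d z = a • sectOn p s (D.U₀ ⊓ D.U₁)) :
    h.conn a = Submodule.Quotient.mk z.1 :=
  h.connFun_eq hz

theorem ker_conn (h : D.IsDivisorSect s) :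
    LinearMap.ker h.conn =
      LinearMap.range (funRes p (inf_le_left : D.U₀ ⊓ D.U₁ ≤ D.U₀)).toLinearMap ⊔
        LinearMap.range (funRes p (inf_le_right : D.U₀ ⊓ D.U₁ ≤ D.U₁)).toLinearMap := by
  refine le_antisymm (fun a ha => ?_) (sup_le ?_ ?_)
  · obtain ⟨z, hz⟩ := h.exists_pair_d a
    rw [LinearMap.mem_ker, h.conn_eq hz, Submodule.Quotient.mk_eq_zero,
      Submodule.mem_span_singleton] at ha
    obtain ⟨b, hb⟩ := ha
    obtain ⟨W, hcov, hfr⟩ := h.frame
    set f : Fun p (D.U₀ ⊓ D.U₁) := funRes p inf_le_left b - a with hf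
    have hn1 : f • sectOn p s (D.U₀ ⊓ D.U₁) = Sec.resLin inf_le_right z.2 := by
      rw [D.cech_d_apply, ← hb, Sec.resLin_smul_fun, Sec.resLin_sectOn] at hz
      rw [hf, sub_smul, ← hz, sub_sub_cancel]
    set O' : X.Opens := D.U₁ ⊓ W
    have hfr' := hfr.restrict (inf_le_right : O' ≤ W)
    rw [LineCocycle.Sect.restrict_restrict] at hfr'
    let w : N.Sect D.U₁ := z.2
    obtain ⟨f', hf'⟩ := hfr'.exists_smul_eq (LineCocycle.Sect.restrict inf_le_left w)
    have hagree : ∀ (V : X.Opens) (h₁ : V ≤ D.U₀ ⊓ D.U₁) (h₂ : V ≤ O'),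
        res h₁ (show Γ(X, D.U₀ ⊓ D.U₁) from f) = res h₂ f' := by
      intro V h₁ h₂
      have hV := hfr.restrict (h₂.trans inf_le_right : V ≤ W)
      rw [LineCocycle.Sect.restrict_restrict] at hV
      apply hV.smul_left_injective
      have e1 := congrArg (LineCocycle.Sect.restrict h₁) hn1
      have e2 := congrArg (LineCocycle.Sect.restrict h₂) hf'
      rw [LineCocycle.Sect.restrict_smul, LineCocycle.Sect.restrict_restrict,
        LineCocycle.Sect.restrict_restrict] at e2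
      refine Eq.trans ?_ (((LineCocycle.Sect.restrict_smul h₁ _ _).symm.trans e1).trans
        ((LineCocycle.Sect.restrict_restrict (inf_le_right : D.U₀ ⊓ D.U₁ ≤ D.U₁) h₁ w).trans
          e2.symm))
      exact congrArg (_ • ·) (LineCocycle.Sect.restrict_restrict le_top h₁ s).symm
    let O : Bool → X.Opens := fun b => bif b then O' else D.U₀ ⊓ D.U₁
    have hO : ∀ b, O b ≤ D.U₁ := fun b => by cases b <;> [exact inf_le_right; exact inf_le_left]
    let F : ∀ b, Γ(X, O b)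
      | false => f
      | true => f'
    obtain ⟨G, hG⟩ : ∃ G : Γ(X, D.U₁), ∀ b, res (hO b) G = F b :=
      ⟨glue O hO (fun z hz => ((hcov.ge (Set.mem_univ z) : z ∈ D.U₀ ⊔ W)).elim
        (fun h0 => ⟨false, h0, hz⟩) fun hW => ⟨true, hz, hW⟩) F (fun i j V hi hj => by
          cases i <;> cases j
          · rfl
          · exact hagree V hi hj
          · exact (hagree V hj hi).symm
          · rfl), fun b => res_glue ..⟩
    refine Submodule.mem_sup.2 ⟨_, ⟨b, rfl⟩, _, ⟨-(show Fun p D.U₁ from G), rfl⟩, ?_⟩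
    show funRes p _ b + funRes p _ _ = a
    rw [map_neg, show funRes p inf_le_right (show Fun p D.U₁ from G) = f from hG false, hf]
    abel
  · rintro _ ⟨b, rfl⟩
    rw [LinearMap.mem_ker, h.conn_eq (z := (b • sectOn p s D.U₀, 0))]
    · exact (Submodule.Quotient.mk_eq_zero _).2
        (Submodule.mem_span_singleton.2 ⟨b, rfl⟩)
    · rw [D.cech_d_apply, Sec.resLin_smul_fun, Sec.resLin_sectOn, map_zero, sub_zero]
      rfl
  · rintro _ ⟨b, rfl⟩
    rw [LinearMap.mem_ker, h.conn_eq (z := (0, -(b • sectOn p s D.U₁)))]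
    · exact (Submodule.Quotient.mk_eq_zero _).2 (Submodule.zero_mem _)
    · rw [D.cech_d_apply, map_neg, Sec.resLin_smul_fun, Sec.resLin_sectOn, map_zero, zero_sub,
        neg_neg]
      rfl

theorem surjective_conn (h : D.IsDivisorSect s) : Function.Surjective h.conn := by
  intro w
  obtain ⟨n₀, rfl⟩ := Submodule.Quotient.mk_surjective _ w
  obtain ⟨Q, t, hQ, ht⟩ := h.exists_poly_y
  obtain ⟨l, v, hv⟩ := LineCocycle.Sect.exists_extend D.affine₁ D.y D.inf_eq₁ inf_le_right N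
    (LineCocycle.Sect.restrict (inf_le_left : D.U₀ ⊓ D.U₁ ≤ D.U₀) n₀)
  have hQy : lineHom p D.y Q = 1 + D.y * lineHom p D.y Q.divX := by
    conv_lhs => rw [← Polynomial.X_mul_divX_add Q]
    rw [map_add, map_mul, hQ, map_one, map_one, add_comm,
      show lineHom p D.y Polynomial.X = D.y by simp [lineHom]]
  set g := lineHom p D.y Q.divX
  set r₁ := res (inf_le_right : D.U₀ ⊓ D.U₁ ≤ D.U₁)
  have hxy : D.x₀₁ * r₁ D.y = 1 := D.mul_eq
  have hxq : D.x₀₁ - -r₁ g = D.x₀₁ * r₁ (lineHom p D.y Q) := by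
    rw [hQy, map_add, map_mul, map_one]
    linear_combination (-r₁ g) * hxy
  obtain ⟨c, hc⟩ := sub_dvd_pow_sub_pow D.x₀₁ (-r₁ g) l
  rw [hxq] at hc
  let n₁ : Sec p N D.U₁ := (show Fun p D.U₁ from (-g) ^ l) • (show Sec p N D.U₁ from v)
  refine ⟨(show Fun p (D.U₀ ⊓ D.U₁) from D.x₀₁ * c * r₁ (LineCocycle.Sect.pair v t)),
    h.conn_eq (z := (n₀, n₁)) ?_⟩
  rw [D.cech_d_apply, Sec.resLin_smul_fun]
  have hn₀ : Sec.resLin (inf_le_left : D.U₀ ⊓ D.U₁ ≤ D.U₀) n₀ =
      (show Fun p (D.U₀ ⊓ D.U₁) from D.x₀₁ ^ l) •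
        Sec.resLin (inf_le_right : D.U₀ ⊓ D.U₁ ≤ D.U₁) (show Sec p N D.U₁ from v) := by
    show LineCocycle.Sect.restrict (inf_le_left : D.U₀ ⊓ D.U₁ ≤ D.U₀) n₀ =
      D.x₀₁ ^ l • LineCocycle.Sect.restrict (inf_le_right : D.U₀ ⊓ D.U₁ ≤ D.U₁) v
    rw [hv, ← mul_smul, ← mul_pow, hxy, one_pow, one_smul]
  rw [hn₀, ← sub_smul]
  show (D.x₀₁ ^ l - r₁ ((-g) ^ l)) •
    LineCocycle.Sect.restrict (inf_le_right : D.U₀ ⊓ D.U₁ ≤ D.U₁) v = _
  rw [map_pow, map_neg, hc, ← ht]
  show (_ : Γ(X, D.U₀ ⊓ D.U₁)) •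
      LineCocycle.Sect.restrict (inf_le_right : D.U₀ ⊓ D.U₁ ≤ D.U₁) v =
    (D.x₀₁ * c * r₁ (LineCocycle.Sect.pair v t)) •
      LineCocycle.Sect.restrict (le_top : D.U₀ ⊓ D.U₁ ≤ ⊤) s
  have hcomm := congrArg (LineCocycle.Sect.restrict (inf_le_right : D.U₀ ⊓ D.U₁ ≤ D.U₁))
    (LineCocycle.Sect.pair_smul_comm (s.restrict le_top) v t)
  rw [LineCocycle.Sect.restrict_smul, LineCocycle.Sect.restrict_smul,
    LineCocycle.Sect.restrict_restrict] at hcomm
  rw [mul_right_comm, mul_smul, hcomm, ← mul_smul]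

/-- `H¹(𝒪) ≃ N(U₀) ⧸ A s`. -/
def connEquiv (h : D.IsDivisorSect s) : D.H1O ≃ₗ[R] D.SectQuot s :=
  LinearEquiv.ofBijective
    (Submodule.liftQ _ h.conn h.ker_conn.ge)
    ⟨LinearMap.ker_eq_bot.1 (Submodule.ker_liftQ_eq_bot _ _ _ h.ker_conn.le),
      fun w => (h.surjective_conn w).elim fun a ha => ⟨Submodule.Quotient.mk a, ha⟩⟩

end IsDivisorSect

/-- `N(U₀) ⧸ A s` is of rank one over `A ⧸ I`. -/
theorem nonempty_rankOne : ∃ n : ℕ, Nonempty (RankOne (D.sectIdeal s) (D.SectQuot s) n) := by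
  classical
  obtain ⟨n, σ, τ, hpart⟩ := LineCocycle.Sect.exists_partition N D.affine₀
  let π : Fin n → (Sec p N D.U₀ →ₗ[Fun p D.U₀] Fun p D.U₀ ⧸ D.sectIdeal s) := fun j =>
    (Ideal.Quotient.mkₐ (Fun p D.U₀) (D.sectIdeal s)).toLinearMap ∘ₗ
      (show Sec p N D.U₀ →ₗ[Fun p D.U₀] Fun p D.U₀ from LineCocycle.Sect.pairLeft (τ j))
  have hπ : ∀ j, D.multiples s ≤ LinearMap.ker (π j) := fun j => by
    rw [Submodule.span_singleton_le_iff_mem, LinearMap.mem_ker]
    exact Ideal.Quotient.eq_zero_iff_mem.2 ((D.mem_sectIdeal s).2 ⟨τ j, rfl⟩)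
  have hkill : ∀ a ∈ D.sectIdeal s, ∀ m : D.SectQuot s, a • m = 0 := by
    intro a ha m
    obtain ⟨t, rfl⟩ := (D.mem_sectIdeal s).1 ha
    obtain ⟨w, rfl⟩ := Submodule.Quotient.mk_surjective _ m
    refine (Submodule.Quotient.mk_smul (D.multiples s)
      (show Fun p D.U₀ from (LineCocycle.Sect.restrict (le_top : D.U₀ ≤ ⊤) s).pair t) w).symm.trans
      ((Submodule.Quotient.mk_eq_zero _).2 (Submodule.mem_span_singleton.2
        ⟨LineCocycle.Sect.pair (L := N) w t, ?_⟩))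
    exact (LineCocycle.Sect.pair_smul_comm (LineCocycle.Sect.restrict le_top s) w t).symm
  refine ⟨n, ⟨{
    φ := fun j => Submodule.liftQ _ (π j) (hπ j)
    u := fun j => Submodule.Quotient.mk (show Sec p N D.U₀ from σ j)
    sum_eq_one := ?_
    smul_eq := ?_
    kill := hkill }⟩⟩
  · show ∑ j, Ideal.Quotient.mk (D.sectIdeal s) ((σ j).pair (τ j)) = 1
    exact (map_sum (Ideal.Quotient.mk (D.sectIdeal s))
      (fun j => (show Fun p D.U₀ from (σ j).pair (τ j))) _).symm.trans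
      ((congrArg _ hpart).trans (map_one _))
  · intro j m m' a b ha hb
    obtain ⟨w, rfl⟩ := Submodule.Quotient.mk_surjective _ m
    obtain ⟨w', rfl⟩ := Submodule.Quotient.mk_surjective _ m'
    have ha' := hkill _ (Ideal.Quotient.eq.1 ha.symm)
    have hb' := hkill _ (Ideal.Quotient.eq.1 hb.symm)
    have ea := sub_eq_zero.1 ((sub_smul _ _ _).symm.trans (ha' (Submodule.Quotient.mk w')))
    have eb := sub_eq_zero.1 ((sub_smul _ _ _).symm.trans (hb' (Submodule.Quotient.mk w)))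
    rw [ea, eb, ← Submodule.Quotient.mk_smul, ← Submodule.Quotient.mk_smul]
    exact congrArg Submodule.Quotient.mk (LineCocycle.Sect.pair_smul_comm w w' (τ j))

namespace IsDivisorSect

variable {D s}

/-- The quotient by the ideal of `s` is finite over the base. -/
theorem finite_quotient (h : D.IsDivisorSect s) [Module.Finite R D.H1O] :
    Module.Finite R (Fun p D.U₀ ⧸ D.sectIdeal s) := by
  obtain ⟨n, ⟨Q⟩⟩ := D.nonempty_rankOne s
  have : Module.Finite R (D.SectQuot s) := Module.Finite.equiv h.connEquiv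
  exact Q.finite

/-- The quotient by the ideal of `s` is projective over the base. -/
theorem projective_quotient (h : D.IsDivisorSect s) [Module.Projective R D.H1O] :
    Module.Projective R (Fun p D.U₀ ⧸ D.sectIdeal s) := by
  obtain ⟨n, ⟨Q⟩⟩ := D.nonempty_rankOne s
  have : Module.Projective R (D.SectQuot s) := Module.Projective.of_equiv h.connEquiv
  exact Q.projective

/-- `g` generators of the quotient are a basis. -/
theorem bijective_of_surjective (h : D.IsDivisorSect s) {g : ℕ} (e : D.H1O ≃ₗ[R] (Fin g → R))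
    (f : (Fin g → R) →ₗ[R] Fun p D.U₀ ⧸ D.sectIdeal s) (hf : Function.Surjective f) :
    Function.Bijective f := by
  obtain ⟨n, ⟨Q⟩⟩ := D.nonempty_rankOne s
  exact Q.bijective_of_surjective (h.connEquiv.symm.trans e) f hf

end IsDivisorSect

end CurveChart

/-- Over a field the quotient by the ideal of `s` has the dimension of `H¹(𝒪)`. -/
theorem CurveChart.IsDivisorSect.finrank_quotient {K : Type u} [Field K]
    {p : X ⟶ Spec (CommRingCat.of K)} {D : CurveChart p} {N : LineCocycle X} {s : N.Sect ⊤}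
    (h : D.IsDivisorSect s) [Module.Finite K D.H1O] :
    Module.finrank K (Fun p D.U₀ ⧸ D.sectIdeal s) = Module.finrank K D.H1O := by
  obtain ⟨n, ⟨Q⟩⟩ := D.nonempty_rankOne s
  have : Module.Finite K (D.SectQuot s) := Module.Finite.equiv h.connEquiv
  exact Q.finrank_eq.trans h.connEquiv.finrank_eq.symm

end Fermat.Agent.Jacobian
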